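/-
[CAR-1] (project FF, cell [CAR] = S32 from S19; helper21): Boston–Lenstra–Ribet / Carayol over an
arbitrary commutative ring.  If the matrices `ρ(g)` span `M₂(T)` and every `g` satisfies, on a
`T`-algebra `C` (e.g. `C = End_T(M)`), the characteristic polynomial of `ρ(g)`, then the action
factors through `M₂(T)`: `ffc_blr`, `ffc_blr_end`.  No hypothesis on `2`, no local/complete
hypothesis.  Mathlib only, prefix `ffc_`.
-/
import Mathlib

set_option autoImplicit false
set_option linter.unusedSimpArgs false

namespace Fermat.Agent.FF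

open Matrix

section Factor

variable {T : Type*} [CommRing T] {𝒜 : Type*} [Ring 𝒜] [Algebra T 𝒜] {C : Type*} [Ring C]
  [Algebra T C] (r : 𝒜 →ₐ[T] Matrix (Fin 2) (Fin 2) T) (a : 𝒜 →ₐ[T] C)

/-- the polar form of the determinant of `2 × 2` matrices -/
theorem ffc_det_add (X Y : Matrix (Fin 2) (Fin 2) T) :
    (X + Y).det = X.det + Y.det + (X.trace * Y.trace - (X * Y).trace) := by
  simp only [Matrix.det_fin_two, Matrix.trace_fin_two, Matrix.mul_apply, Fin.sum_univ_two,
    Matrix.add_apply]
  ring

/-- polarised Cayley–Hamilton -/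
theorem ffc_polar
    (hP : ∀ x, a x * a x - (r x).trace • a x + (r x).det • (1 : C) = 0) (x y : 𝒜) :
    a x * a y + a y * a x = (r x).trace • a y + (r y).trace • a x +
      ((r x * r y).trace - (r x).trace * (r y).trace) • (1 : C) := by
  have h1 := hP (x + y)
  have h2 := hP x
  have h3 := hP y
  rw [map_add, map_add, Matrix.trace_add, ffc_det_add, add_mul, mul_add, mul_add] at h1
  have key : a x * a y + a y * a x - ((r x).trace • a y + (r y).trace • a x +
      ((r x * r y).trace - (r x).trace * (r y).trace) • (1 : C)) = 0 := by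
    rw [← h1]
    have h2' : a x * a x = (r x).trace • a x - (r x).det • (1 : C) := by
      rw [eq_sub_iff_add_eq, ← sub_eq_zero, ← h2]; module
    have h3' : a y * a y = (r y).trace • a y - (r y).det • (1 : C) := by
      rw [eq_sub_iff_add_eq, ← sub_eq_zero, ← h3]; module
    rw [h2', h3']
    module
  exact sub_eq_zero.mp key

/-- the sandwich formula for an element over a rank-one idempotent matrix -/
theorem ffc_sandwich
    (hP : ∀ x, a x * a x - (r x).trace • a x + (r x).det • (1 : C) = 0) (f : 𝒜)
    (ht : (r f).trace = 1) (hd : (r f).det = 0) :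
    a f * a f = a f ∧ ∀ x, a f * a x * a f = (r x * r f).trace • a f := by
  have hff : a f * a f = a f := by
    have h := hP f
    rw [ht, hd, one_smul, zero_smul, add_zero, sub_eq_zero] at h
    exact h
  refine ⟨hff, fun x => ?_⟩
  have h := ffc_polar r a hP x f
  rw [ht, one_smul, mul_one] at h
  have e1 : a f * (a x * a f) * a f = a f * a x * a f := by
    rw [mul_assoc (a f) (a x * a f), mul_assoc (a x), hff, ← mul_assoc]
  have e2 : a f * (a f * a x) * a f = a f * a x * a f := by
    rw [← mul_assoc (a f) (a f), hff]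
  have e3 : a f * (a x * a f + a f * a x) * a f = a f * a x * a f + a f * a x * a f := by
    rw [mul_add, add_mul, e1, e2]
  rw [h] at e3
  have e4 : a f * ((r x).trace • a f + a x + ((r x * r f).trace - (r x).trace) • (1 : C)) * a f =
      (r x).trace • a f + a f * a x * a f + ((r x * r f).trace - (r x).trace) • a f := by
    simp only [mul_add, add_mul, mul_smul_comm, smul_mul_assoc, mul_one, hff]
  rw [e4] at e3
  have e5 : a f * a x * a f - (r x * r f).trace • a f = 0 := by
    have : a f * a x * a f + a f * a x * a f - ((r x).trace • a f + a f * a x * a f +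
        ((r x * r f).trace - (r x).trace) • a f) = 0 := by rw [← e3, sub_self]
    rw [← this]
    module
  exact sub_eq_zero.mp e5

/-- **Abstract Boston–Lenstra–Ribet / Carayol**: a `T`-algebra map `a` out of `𝒜` which satisfies
the Cayley–Hamilton identity of a surjective `r : 𝒜 → M₂(T)` factors through `r`. -/
theorem ffc_factor (hr : Function.Surjective r)
    (hP : ∀ x, a x * a x - (r x).trace • a x + (r x).det • (1 : C) = 0) :
    ∃ Φ : Matrix (Fin 2) (Fin 2) T →ₐ[T] C, ∀ x, Φ (r x) = a x := by
  classical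
  obtain ⟨e, he⟩ := hr (Matrix.single 0 0 (1 : T))
  obtain ⟨u, hu⟩ := hr (Matrix.single 0 1 (1 : T))
  obtain ⟨v, hv⟩ := hr (Matrix.single 1 0 (1 : T))
  have he' : r (1 - e) = Matrix.single 1 1 (1 : T) := by
    rw [map_sub, map_one, he]
    ext i j
    fin_cases i <;> fin_cases j <;> simp [Matrix.single_apply, Matrix.one_apply]
  obtain ⟨hpp, hsp⟩ := ffc_sandwich r a hP e (by rw [he]; simp [Matrix.trace_fin_two])
    (by rw [he]; simp [Matrix.det_fin_two])
  obtain ⟨hpp', hsp'⟩ := ffc_sandwich r a hP (1 - e) (by rw [he']; simp [Matrix.trace_fin_two])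
    (by rw [he']; simp [Matrix.det_fin_two])
  set p : C := a e with hp
  set p' : C := a (1 - e) with hp'
  have hsum : p + p' = 1 := by rw [hp, hp', map_sub, map_one]; abel
  set U : C := p * a u * p' with hU
  set W : C := p' * a v * p with hW
  -- the four Peirce components
  have h00 : ∀ x, p * a x * p = (r x) 0 0 • p := by
    intro x
    rw [hsp x, he]
    congr 1
    simp [Matrix.trace_fin_two, Matrix.mul_apply, Fin.sum_univ_two, Matrix.single_apply]
  have h11 : ∀ x, p' * a x * p' = (r x) 1 1 • p' := by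
    intro x
    rw [hsp' x, he']
    congr 1
    simp [Matrix.trace_fin_two, Matrix.mul_apply, Fin.sum_univ_two, Matrix.single_apply]
  have hone' : p' * a (v * e * u) * p' = p' := by
    rw [h11, map_mul, map_mul, hv, he, hu]
    simp [Matrix.mul_apply, Fin.sum_univ_two, Matrix.single_apply]
  have hone : p * a (u * (1 - e) * v) * p = p := by
    rw [h00, map_mul, map_mul, hv, he', hu]
    simp [Matrix.mul_apply, Fin.sum_univ_two, Matrix.single_apply]
  have h01 : ∀ x, p * a x * p' = (r x) 0 1 • U := by
    intro x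
    have h1 : p * a x * p' = p * a (x * (1 - e) * v) * p * a u * p' := by
      conv_lhs => rw [← hone']
      simp only [map_mul, ← hp, ← hp', mul_assoc]
    rw [h1, h00, map_mul, map_mul, hv, he', smul_mul_assoc, smul_mul_assoc, ← hU]
    congr 1
    simp [Matrix.mul_apply, Fin.sum_univ_two, Matrix.single_apply]
  have h10 : ∀ x, p' * a x * p = (r x) 1 0 • W := by
    intro x
    have h1 : p' * a x * p = p' * a (x * e * u) * p' * a v * p := by
      conv_lhs => rw [← hone]
      simp only [map_mul, ← hp, ← hp', mul_assoc]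
    rw [h1, h11, map_mul, map_mul, hu, he, smul_mul_assoc, smul_mul_assoc, ← hW]
    congr 1
    simp [Matrix.mul_apply, Fin.sum_univ_two, Matrix.single_apply]
  -- the linear map
  let Φ₀ : Matrix (Fin 2) (Fin 2) T →ₗ[T] C :=
    { toFun := fun X => X 0 0 • p + X 0 1 • U + X 1 0 • W + X 1 1 • p'
      map_add' := fun X Y => by simp only [Matrix.add_apply]; module
      map_smul' := fun c X => by
        simp only [Matrix.smul_apply, smul_eq_mul, RingHom.id_apply]; module }
  have hΦ : ∀ x, Φ₀ (r x) = a x := by
    intro x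
    have h1 : a x = (p + p') * a x * (p + p') := by rw [hsum, one_mul, mul_one]
    have h2 : (p + p') * a x * (p + p') =
        p * a x * p + p * a x * p' + p' * a x * p + p' * a x * p' := by
      simp only [add_mul, mul_add]; abel
    rw [h1, h2, h00, h01, h10, h11]
    rfl
  refine ⟨AlgHom.ofLinearMap Φ₀ ?_ ?_, hΦ⟩
  · rw [← map_one r, hΦ, map_one]
  · intro X Y
    obtain ⟨x, rfl⟩ := hr X
    obtain ⟨y, rfl⟩ := hr Y
    rw [← map_mul, hΦ, hΦ, hΦ, map_mul]

end Factor

section Group

variable {T : Type*} [CommRing T] {G : Type*} [Group G] {C : Type*} [Ring C] [Algebra T C]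
  (ρ : G →* Matrix (Fin 2) (Fin 2) T) (α : G →* C)

/-- `d(g) g⁻¹ = t(g) - g`. -/
theorem ffc_inv_formula
    (hCH : ∀ g, α g * α g - (ρ g).trace • α g + (ρ g).det • (1 : C) = 0) (g : G) :
    (ρ g).det • α g⁻¹ = (ρ g).trace • (1 : C) - α g := by
  have h := congrArg (fun z => z * α g⁻¹) (hCH g)
  simp only [add_mul, sub_mul, smul_mul_assoc, one_mul, zero_mul, mul_assoc] at h
  rw [← map_mul, mul_inv_cancel, map_one, mul_one] at h
  linear_combination (norm := module) h

/-- the polarised Cayley–Hamilton identity on pairs of group elements -/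
theorem ffc_group_polar
    (hCH : ∀ g, α g * α g - (ρ g).trace • α g + (ρ g).det • (1 : C) = 0) (g h : G) :
    α g * α h + α h * α g = (ρ g).trace • α h + (ρ h).trace • α g +
      ((ρ g * ρ h).trace - (ρ g).trace * (ρ h).trace) • (1 : C) := by
  have h1 := ffc_inv_formula ρ α hCH g
  have h2 := ffc_inv_formula ρ α hCH h
  have h3 := ffc_inv_formula ρ α hCH (g * h)
  rw [map_mul ρ, Matrix.det_mul, _root_.mul_inv_rev, map_mul α, map_mul α] at h3
  have h4 : ((ρ g).det * (ρ h).det) • (α h⁻¹ * α g⁻¹) =
      ((ρ h).det • α h⁻¹) * ((ρ g).det • α g⁻¹) := by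
    rw [smul_mul_assoc, mul_smul_comm, smul_smul, mul_comm]
  rw [h4, h1, h2] at h3
  simp only [sub_mul, mul_sub, smul_mul_assoc, mul_smul_comm, one_mul, mul_one] at h3
  linear_combination (norm := module) h3

variable (T) in
/-- the linear extension of `ρ` to the group algebra -/
noncomputable abbrev ffc_rt : MonoidAlgebra T G →ₐ[T] Matrix (Fin 2) (Fin 2) T :=
  MonoidAlgebra.lift T _ G ρ

variable (T) in
/-- the linear extension of `α` to the group algebra -/
noncomputable abbrev ffc_at : MonoidAlgebra T G →ₐ[T] C :=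
  MonoidAlgebra.lift T _ G α

/-- the polarised identity on the whole group algebra -/
theorem ffc_alg_polar
    (hCH : ∀ g, α g * α g - (ρ g).trace • α g + (ρ g).det • (1 : C) = 0)
    (x y : MonoidAlgebra T G) :
    ffc_at T α x * ffc_at T α y + ffc_at T α y * ffc_at T α x =
      (ffc_rt T ρ x).trace • ffc_at T α y + (ffc_rt T ρ y).trace • ffc_at T α x +
      ((ffc_rt T ρ x * ffc_rt T ρ y).trace - (ffc_rt T ρ x).trace * (ffc_rt T ρ y).trace) •
        (1 : C) := by
  induction x using MonoidAlgebra.induction_on with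
  | of g =>
    induction y using MonoidAlgebra.induction_on with
    | of h =>
      simp only [ffc_at, ffc_rt, MonoidAlgebra.lift_of]
      exact ffc_group_polar ρ α hCH g h
    | add y₁ y₂ h₁ h₂ =>
      simp only [map_add, mul_add, add_mul, Matrix.trace_add, Matrix.mul_add]
      linear_combination (norm := module) h₁ + h₂
    | smul c y h₁ =>
      simp only [map_smul, mul_smul_comm, smul_mul_assoc, Matrix.trace_smul, Matrix.mul_smul,
        smul_eq_mul]
      linear_combination (norm := module) c • h₁
  | add x₁ x₂ h₁ h₂ =>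
    simp only [map_add, mul_add, add_mul, Matrix.trace_add, Matrix.add_mul]
    linear_combination (norm := module) h₁ + h₂
  | smul c x h₁ =>
    simp only [map_smul, mul_smul_comm, smul_mul_assoc, Matrix.trace_smul, Matrix.smul_mul,
      smul_eq_mul]
    linear_combination (norm := module) c • h₁

/-- the Cayley–Hamilton identity on the whole group algebra (no division by `2`) -/
theorem ffc_alg_CH
    (hCH : ∀ g, α g * α g - (ρ g).trace • α g + (ρ g).det • (1 : C) = 0)
    (x : MonoidAlgebra T G) :
    ffc_at T α x * ffc_at T α x - (ffc_rt T ρ x).trace • ffc_at T α x +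
      (ffc_rt T ρ x).det • (1 : C) = 0 := by
  induction x using MonoidAlgebra.induction_on with
  | of g =>
    simp only [ffc_at, ffc_rt, MonoidAlgebra.lift_of]
    exact hCH g
  | add x₁ x₂ h₁ h₂ =>
    have hq := ffc_alg_polar ρ α hCH x₁ x₂
    rw [map_add, map_add, Matrix.trace_add, ffc_det_add, add_mul, mul_add, mul_add]
    linear_combination (norm := module) h₁ + h₂ + hq
  | smul c x h₁ =>
    rw [map_smul, map_smul, Matrix.trace_smul, Matrix.det_smul, Fintype.card_fin,
      smul_mul_assoc, mul_smul_comm]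
    linear_combination (norm := module) (c ^ 2) • h₁

/-- **Boston–Lenstra–Ribet / Carayol over an arbitrary commutative ring**: if the `ρ(g)` span
`M₂(T)` and every `g` satisfies on `C` (e.g. `C = End_T(M)`) the characteristic polynomial of
`ρ(g)`, then the action factors through `M₂(T)`. -/
theorem ffc_blr (hspan : Submodule.span T (Set.range ρ) = ⊤)
    (hCH : ∀ g, α g * α g - (ρ g).trace • α g + (ρ g).det • (1 : C) = 0) :
    ∃ Φ : Matrix (Fin 2) (Fin 2) T →ₐ[T] C, ∀ g, Φ (ρ g) = α g := by
  have hsurj : Function.Surjective (ffc_rt T ρ) := by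
    intro X
    have hX : X ∈ Submodule.span T (Set.range ρ) := hspan ▸ Submodule.mem_top
    induction hX using Submodule.span_induction with
    | mem X hX =>
      obtain ⟨g, rfl⟩ := hX
      exact ⟨MonoidAlgebra.of T G g, MonoidAlgebra.lift_of _ _⟩
    | zero => exact ⟨0, map_zero _⟩
    | add X Y _ _ hX hY =>
      obtain ⟨x, rfl⟩ := hX
      obtain ⟨y, rfl⟩ := hY
      exact ⟨x + y, map_add _ _ _⟩
    | smul c X _ hX =>
      obtain ⟨x, rfl⟩ := hX
      exact ⟨c • x, map_smul _ _ _⟩
  obtain ⟨Φ, hΦ⟩ := ffc_factor (ffc_rt T ρ) (ffc_at T α) hsurj (ffc_alg_CH ρ α hCH)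
  refine ⟨Φ, fun g => ?_⟩
  have := hΦ (MonoidAlgebra.of T G g)
  rwa [MonoidAlgebra.lift_of, MonoidAlgebra.lift_of] at this

/-- `ffc_blr` for endomorphism rings: `V` free of rank two with a basis, `M` any `T`-module. -/
theorem ffc_blr_end {V M : Type*} [AddCommGroup V] [Module T V] [AddCommGroup M] [Module T M]
    (b : Module.Basis (Fin 2) T V) (ρV : G →* Module.End T V) (αM : G →* Module.End T M)
    (hspan : Submodule.span T (Set.range ρV) = ⊤)
    (hCH : ∀ g, αM g * αM g - LinearMap.trace T V (ρV g) • αM g +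
      LinearMap.det (ρV g) • (1 : Module.End T M) = 0) :
    ∃ Φ : Module.End T V →ₐ[T] Module.End T M, ∀ g, Φ (ρV g) = αM g := by
  classical
  let ψ : Module.End T V ≃ₐ[T] Matrix (Fin 2) (Fin 2) T := LinearMap.toMatrixAlgEquiv b
  let ρm : G →* Matrix (Fin 2) (Fin 2) T := (ψ : Module.End T V →* _).comp ρV
  have hρm : ∀ g, ρm g = ψ (ρV g) := fun _ => rfl
  have hspan' : Submodule.span T (Set.range ρm) = ⊤ := by
    have h1 : Set.range ρm = ψ.toLinearMap '' Set.range ρV := by
      rw [← Set.range_comp]; rfl
    rw [h1, Submodule.span_image, hspan, Submodule.map_top]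
    exact LinearMap.range_eq_top.mpr ψ.surjective
  have hCH' : ∀ g, αM g * αM g - (ρm g).trace • αM g + (ρm g).det • (1 : Module.End T M) = 0 := by
    intro g
    have h1 : (ρm g).trace = LinearMap.trace T V (ρV g) :=
      (LinearMap.trace_eq_matrix_trace T b (ρV g)).symm
    have h2 : (ρm g).det = LinearMap.det (ρV g) := LinearMap.det_toMatrix b (ρV g)
    rw [h1, h2]
    exact hCH g
  obtain ⟨Φ, hΦ⟩ := ffc_blr ρm αM hspan' hCH'
  exact ⟨Φ.comp ψ.toAlgHom, fun g => hΦ g⟩

end Group

end Fermat.Agent.FF
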