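/-
[CAR-2] + [CAR-4] (project FF, cell [CAR]; helper21).

* `ffc_embed`: a faithful finite `T`-module `M` with an action of `M₂(T)` contains, in a finite
  power `M^s`, an `M₂(T)`-equivariant copy of the standard module `T²` (Morita, elementary form).
* `ffc_inner`: every `A`-algebra endomorphism of `M₂(A)`, `A` local, is inner (Skolem–Noether).
* `ffc_rigid`, `ffc_rigid_of_trace_det`: Carayol–Serre rigidity: a representation `ρ₂` each of whose
  elements satisfies the characteristic polynomial of `ρ₁(g)`, where the `ρ₁(g)` span `M₂(A)`, is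
  conjugate to `ρ₁`.

Mathlib + `Car/BLR.lean` only, prefix `ffc_`.
-/
import Mathlib
import Fermat.Agent.FF.Car.BLR

set_option autoImplicit false
set_option linter.unusedSimpArgs false

namespace Fermat.Agent.FF

open Matrix

section Units

variable {T : Type*} [CommRing T]

/-- `X * E₁₁ = X₀₀ E₁₁ + X₁₀ E₂₁`. -/
theorem ffc_mul_E11 (X : Matrix (Fin 2) (Fin 2) T) :
    X * Matrix.single 0 0 (1 : T) =
      X 0 0 • Matrix.single 0 0 (1 : T) + X 1 0 • Matrix.single 1 0 (1 : T) := by
  ext i j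
  fin_cases i <;> fin_cases j <;>
    simp [Matrix.mul_apply, Fin.sum_univ_two, Matrix.single_apply]

/-- `X * E₂₁ = X₀₁ E₁₁ + X₁₁ E₂₁`. -/
theorem ffc_mul_E21 (X : Matrix (Fin 2) (Fin 2) T) :
    X * Matrix.single 1 0 (1 : T) =
      X 0 1 • Matrix.single 0 0 (1 : T) + X 1 1 • Matrix.single 1 0 (1 : T) := by
  ext i j
  fin_cases i <;> fin_cases j <;>
    simp [Matrix.mul_apply, Fin.sum_univ_two, Matrix.single_apply]

theorem ffc_E11_mul_E21 :
    Matrix.single 0 0 (1 : T) * Matrix.single 1 0 (1 : T) = (0 : Matrix (Fin 2) (Fin 2) T) := by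
  ext i j
  fin_cases i <;> fin_cases j <;>
    simp [Matrix.mul_apply, Fin.sum_univ_two, Matrix.single_apply]

theorem ffc_E12_mul_E11 :
    Matrix.single 0 1 (1 : T) * Matrix.single 0 0 (1 : T) = (0 : Matrix (Fin 2) (Fin 2) T) := by
  ext i j
  fin_cases i <;> fin_cases j <;>
    simp [Matrix.mul_apply, Fin.sum_univ_two, Matrix.single_apply]

theorem ffc_E12_mul_E21 :
    Matrix.single 0 1 (1 : T) * Matrix.single 1 0 (1 : T) =
      (Matrix.single 0 0 (1 : T) : Matrix (Fin 2) (Fin 2) T) := by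
  ext i j
  fin_cases i <;> fin_cases j <;>
    simp [Matrix.mul_apply, Fin.sum_univ_two, Matrix.single_apply]

theorem ffc_E21_mul_E11 :
    Matrix.single 1 0 (1 : T) * Matrix.single 0 0 (1 : T) =
      (Matrix.single 1 0 (1 : T) : Matrix (Fin 2) (Fin 2) T) := by
  ext i j
  fin_cases i <;> fin_cases j <;>
    simp [Matrix.mul_apply, Fin.sum_univ_two, Matrix.single_apply]

theorem ffc_E11_mul_E11 :
    Matrix.single 0 0 (1 : T) * Matrix.single 0 0 (1 : T) =
      (Matrix.single 0 0 (1 : T) : Matrix (Fin 2) (Fin 2) T) := by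
  ext i j
  fin_cases i <;> fin_cases j <;>
    simp [Matrix.mul_apply, Fin.sum_univ_two, Matrix.single_apply]

/-- `1 = E₁₁ + E₂₁ E₁₁ E₁₂`. -/
theorem ffc_one_eq :
    (1 : Matrix (Fin 2) (Fin 2) T) = Matrix.single 0 0 (1 : T) +
      Matrix.single 1 0 (1 : T) * Matrix.single 0 0 (1 : T) * Matrix.single 0 1 (1 : T) := by
  ext i j
  fin_cases i <;> fin_cases j <;>
    simp [Matrix.mul_apply, Fin.sum_univ_two, Matrix.single_apply, Matrix.one_apply]

end Units

section Embed

variable {T : Type*} [CommRing T] {M : Type*} [AddCommGroup M] [Module T M]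

/-- **Morita, elementary form**: a faithful finite module over `M₂(T)` contains an equivariant copy
of the standard module `T²` in a finite power. -/
theorem ffc_embed [Module.Finite T M]
    (Φ : Matrix (Fin 2) (Fin 2) T →ₐ[T] Module.End T M)
    (hfaith : ∀ t : T, (∀ m : M, t • m = 0) → t = 0) :
    ∃ (s : ℕ) (j : (Fin 2 → T) →ₗ[T] (Fin s → M)), Function.Injective j ∧
      ∀ (X : Matrix (Fin 2) (Fin 2) T) (v : Fin 2 → T) (i : Fin s),
        j (X.mulVec v) i = Φ X (j v i) := by
  classical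
  obtain ⟨s, m, hm⟩ := Module.Finite.exists_fin (R := T) (M := M)
  set p : Module.End T M := Φ (Matrix.single 0 0 (1 : T)) with hp
  set q : Module.End T M := Φ (Matrix.single 1 0 (1 : T)) with hq
  set u : Module.End T M := Φ (Matrix.single 0 1 (1 : T)) with hu
  have hXp : ∀ X : Matrix (Fin 2) (Fin 2) T, Φ X * p = X 0 0 • p + X 1 0 • q := by
    intro X
    rw [hp, ← map_mul, ffc_mul_E11, map_add, map_smul, map_smul]
  have hXq : ∀ X : Matrix (Fin 2) (Fin 2) T, Φ X * q = X 0 1 • p + X 1 1 • q := by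
    intro X
    rw [hq, ← map_mul, ffc_mul_E21, map_add, map_smul, map_smul]
  have hpp : p * p = p := by rw [hp, ← map_mul, ffc_E11_mul_E11]
  have hpq : p * q = 0 := by rw [hp, hq, ← map_mul, ffc_E11_mul_E21, map_zero]
  have hup : u * p = 0 := by rw [hp, hu, ← map_mul, ffc_E12_mul_E11, map_zero]
  have huq : u * q = p := by rw [hu, hq, ← map_mul, ffc_E12_mul_E21]
  have hone : (1 : Module.End T M) = p + q * p * u := by
    rw [hp, hq, hu, ← map_mul, ← map_mul, ← map_add, ← ffc_one_eq, map_one]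
  let j : (Fin 2 → T) →ₗ[T] (Fin s → M) :=
    { toFun := fun v i => v 0 • p (m i) + v 1 • q (m i)
      map_add' := fun v w => by
        funext i
        simp only [Pi.add_apply]
        module
      map_smul' := fun c v => by
        funext i
        simp only [Pi.smul_apply, smul_eq_mul, RingHom.id_apply]
        module }
  have hj : ∀ v i, j v i = v 0 • p (m i) + v 1 • q (m i) := fun _ _ => rfl
  refine ⟨s, j, ?_, ?_⟩
  · -- injectivity
    rw [injective_iff_map_eq_zero]
    intro v hv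
    have hv' : ∀ i, v 0 • p (m i) + v 1 • q (m i) = 0 := fun i => by
      rw [← hj, hv]; rfl
    -- both coordinates kill `p (m i)`
    have h0 : ∀ i, v 0 • p (m i) = 0 := by
      intro i
      have := congrArg p (hv' i)
      rw [map_add, map_smul, map_smul, map_zero, ← Module.End.mul_apply, hpp,
        ← Module.End.mul_apply p q, hpq, LinearMap.zero_apply, smul_zero, add_zero] at this
      exact this
    have h1 : ∀ i, v 1 • p (m i) = 0 := by
      intro i
      have := congrArg u (hv' i)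
      rw [map_add, map_smul, map_smul, map_zero, ← Module.End.mul_apply, hup,
        ← Module.End.mul_apply u q, huq, LinearMap.zero_apply, smul_zero, zero_add] at this
      exact this
    -- hence they kill `p M`, hence `M`
    have hkill : ∀ t : T, (∀ i, t • p (m i) = 0) → ∀ x : M, t • x = 0 := by
      intro t ht
      have hpM : ∀ x : M, t • p x = 0 := by
        intro x
        have hx : x ∈ Submodule.span T (Set.range m) := hm ▸ Submodule.mem_top
        induction hx using Submodule.span_induction with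
        | mem x hx =>
          obtain ⟨i, rfl⟩ := hx
          exact ht i
        | zero => rw [map_zero, smul_zero]
        | add x y _ _ hx hy => rw [map_add, smul_add, hx, hy, add_zero]
        | smul c x _ hx => rw [map_smul, smul_comm, hx, smul_zero]
      intro x
      have hx : x = p x + q (p (u x)) := by
        conv_lhs => rw [← Module.End.one_apply (R := T) x, hone]
        rfl
      rw [hx, smul_add, hpM, ← map_smul, hpM, map_zero, add_zero]
    funext i
    fin_cases i
    · exact hfaith _ (hkill _ h0)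
    · exact hfaith _ (hkill _ h1)
  · -- equivariance
    intro X v i
    rw [hj, hj, map_add, map_smul, map_smul, ← Module.End.mul_apply, ← Module.End.mul_apply,
      hXp, hXq]
    simp only [LinearMap.add_apply, LinearMap.smul_apply, Matrix.mulVec, dotProduct,
      Fin.sum_univ_two]
    module

end Embed

section Inner

variable {A : Type*} [CommRing A]

/-- `E_{ia} * P * E_{cj} = P_{ac} E_{ij}`. -/
theorem ffc_single_mul_mul_single (P : Matrix (Fin 2) (Fin 2) A) (i a c j : Fin 2) (s : A)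
    (hs : s = P a c) :
    Matrix.single i a (1 : A) * P * Matrix.single c j (1 : A) = s • Matrix.single i j (1 : A) := by
  subst hs
  ext k l
  fin_cases i <;> fin_cases a <;> fin_cases c <;> fin_cases j <;> fin_cases k <;> fin_cases l <;>
    simp [Matrix.mul_apply, Fin.sum_univ_two, Matrix.single_apply]

/-- `E_{c0} * X = X₀₀ E_{c0} + X₀₁ E_{c1}`. -/
theorem ffc_single_zero_mul (X : Matrix (Fin 2) (Fin 2) A) (c : Fin 2) :
    Matrix.single c 0 (1 : A) * X =
      X 0 0 • Matrix.single c 0 (1 : A) + X 0 1 • Matrix.single c 1 (1 : A) := by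
  ext k l
  fin_cases c <;> fin_cases k <;> fin_cases l <;>
    simp [Matrix.mul_apply, Fin.sum_univ_two, Matrix.single_apply]

/-- `E_{c1} * X = X₁₀ E_{c0} + X₁₁ E_{c1}`. -/
theorem ffc_single_one_mul (X : Matrix (Fin 2) (Fin 2) A) (c : Fin 2) :
    Matrix.single c 1 (1 : A) * X =
      X 1 0 • Matrix.single c 0 (1 : A) + X 1 1 • Matrix.single c 1 (1 : A) := by
  ext k l
  fin_cases c <;> fin_cases k <;> fin_cases l <;>
    simp [Matrix.mul_apply, Fin.sum_univ_two, Matrix.single_apply]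

theorem ffc_one_eq_single_add :
    (1 : Matrix (Fin 2) (Fin 2) A) = Matrix.single 0 0 (1 : A) + Matrix.single 1 1 (1 : A) := by
  ext k l
  fin_cases k <;> fin_cases l <;> simp [Matrix.single_apply, Matrix.one_apply]

/-- The intertwiner attached to an invertible entry `s = P a c` of `P = Φ(E₁₁)` (abstract form). -/
theorem ffc_inner_aux (Φ : Matrix (Fin 2) (Fin 2) A →ₐ[A] Matrix (Fin 2) (Fin 2) A)
    (P q u : Matrix (Fin 2) (Fin 2) A)
    (hXP : ∀ X : Matrix (Fin 2) (Fin 2) A, Φ X * P = X 0 0 • P + X 1 0 • q)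
    (hXq : ∀ X : Matrix (Fin 2) (Fin 2) A, Φ X * q = X 0 1 • P + X 1 1 • q)
    (hPP : P * P = P) (hPq : P * q = 0) (huP : u * P = 0) (huq : u * q = P)
    (a c : Fin 2) (s b : A) (hs : s = P a c) (hb : b * s = 1) :
    ∃ Q : Matrix (Fin 2) (Fin 2) A, IsUnit Q.det ∧ ∀ X, Φ X * Q = Q * X := by
  classical
  have e1 : Matrix.single (0 : Fin 2) a (1 : A) * P * (P * Matrix.single c (0 : Fin 2) (1 : A)) =
      s • Matrix.single (0 : Fin 2) (0 : Fin 2) (1 : A) := by
    have h : Matrix.single (0 : Fin 2) a (1 : A) * P * (P * Matrix.single c (0 : Fin 2) (1 : A)) =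
        Matrix.single (0 : Fin 2) a (1 : A) * (P * P) * Matrix.single c (0 : Fin 2) (1 : A) := by
      simp only [Matrix.mul_assoc]
    rw [h, hPP]
    exact ffc_single_mul_mul_single P 0 a c 0 s hs
  have e2 : Matrix.single (0 : Fin 2) a (1 : A) * P * (q * Matrix.single c (1 : Fin 2) (1 : A)) = 0 := by
    have h : Matrix.single (0 : Fin 2) a (1 : A) * P * (q * Matrix.single c (1 : Fin 2) (1 : A)) =
        Matrix.single (0 : Fin 2) a (1 : A) * (P * q) * Matrix.single c (1 : Fin 2) (1 : A) := by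
      simp only [Matrix.mul_assoc]
    rw [h, hPq, Matrix.mul_zero, Matrix.zero_mul]
  have e3 : Matrix.single (1 : Fin 2) a (1 : A) * u * (P * Matrix.single c (0 : Fin 2) (1 : A)) = 0 := by
    have h : Matrix.single (1 : Fin 2) a (1 : A) * u * (P * Matrix.single c (0 : Fin 2) (1 : A)) =
        Matrix.single (1 : Fin 2) a (1 : A) * (u * P) * Matrix.single c (0 : Fin 2) (1 : A) := by
      simp only [Matrix.mul_assoc]
    rw [h, huP, Matrix.mul_zero, Matrix.zero_mul]
  have e4 : Matrix.single (1 : Fin 2) a (1 : A) * u * (q * Matrix.single c (1 : Fin 2) (1 : A)) =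
      s • Matrix.single (1 : Fin 2) (1 : Fin 2) (1 : A) := by
    have h : Matrix.single (1 : Fin 2) a (1 : A) * u * (q * Matrix.single c (1 : Fin 2) (1 : A)) =
        Matrix.single (1 : Fin 2) a (1 : A) * (u * q) * Matrix.single c (1 : Fin 2) (1 : A) := by
      simp only [Matrix.mul_assoc]
    rw [h, huq]
    exact ffc_single_mul_mul_single P 1 a c 1 s hs
  obtain ⟨R, hR⟩ : ∃ R, R = b • (Matrix.single (0 : Fin 2) a (1 : A) * P + Matrix.single (1 : Fin 2) a (1 : A) * u) :=
    ⟨_, rfl⟩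
  obtain ⟨Q, hQ⟩ : ∃ Q, Q = P * Matrix.single c (0 : Fin 2) (1 : A) + q * Matrix.single c (1 : Fin 2) (1 : A) :=
    ⟨_, rfl⟩
  have hRQ : R * Q = 1 := by
    rw [hR, hQ, Matrix.smul_mul, Matrix.add_mul, Matrix.mul_add, Matrix.mul_add, e1, e2, e3, e4,
      add_zero, zero_add, ← smul_add, smul_smul, hb, one_smul]
    exact ffc_one_eq_single_add.symm
  refine ⟨Q, Matrix.isUnit_det_of_left_inverse hRQ, fun X => ?_⟩
  have l1 : Φ X * (P * Matrix.single c (0 : Fin 2) (1 : A)) =
      (X 0 0 • P + X 1 0 • q) * Matrix.single c (0 : Fin 2) (1 : A) := by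
    rw [← Matrix.mul_assoc, hXP]
  have l2 : Φ X * (q * Matrix.single c (1 : Fin 2) (1 : A)) =
      (X 0 1 • P + X 1 1 • q) * Matrix.single c (1 : Fin 2) (1 : A) := by
    rw [← Matrix.mul_assoc, hXq]
  have r1 : P * Matrix.single c (0 : Fin 2) (1 : A) * X =
      P * (X 0 0 • Matrix.single c (0 : Fin 2) (1 : A) + X 0 1 • Matrix.single c (1 : Fin 2) (1 : A)) := by
    rw [Matrix.mul_assoc, ffc_single_zero_mul]
  have r2 : q * Matrix.single c (1 : Fin 2) (1 : A) * X =
      q * (X 1 0 • Matrix.single c (0 : Fin 2) (1 : A) + X 1 1 • Matrix.single c (1 : Fin 2) (1 : A)) := by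
    rw [Matrix.mul_assoc, ffc_single_one_mul]
  have hl : Φ X * Q = (X 0 0 • P + X 1 0 • q) * Matrix.single c (0 : Fin 2) (1 : A) +
      (X 0 1 • P + X 1 1 • q) * Matrix.single c (1 : Fin 2) (1 : A) := by
    rw [hQ, Matrix.mul_add, l1, l2]
  have hr : Q * X =
      P * (X 0 0 • Matrix.single c (0 : Fin 2) (1 : A) + X 0 1 • Matrix.single c (1 : Fin 2) (1 : A)) +
      q * (X 1 0 • Matrix.single c (0 : Fin 2) (1 : A) +
        X 1 1 • Matrix.single c (1 : Fin 2) (1 : A)) := by
    rw [hQ, Matrix.add_mul, r1, r2]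
  rw [hl, hr]
  simp only [Matrix.add_mul, Matrix.mul_add, Matrix.smul_mul, Matrix.mul_smul]
  module

/-- **Skolem–Noether for `M₂` of a local ring**: every algebra endomorphism is inner. -/
theorem ffc_inner [IsLocalRing A]
    (Φ : Matrix (Fin 2) (Fin 2) A →ₐ[A] Matrix (Fin 2) (Fin 2) A) :
    ∃ Q : Matrix (Fin 2) (Fin 2) A, IsUnit Q.det ∧ ∀ X, Φ X * Q = Q * X := by
  classical
  obtain ⟨P, hP⟩ : ∃ P, P = Φ (Matrix.single 0 0 (1 : A)) := ⟨_, rfl⟩
  obtain ⟨q, hq⟩ : ∃ q, q = Φ (Matrix.single 1 0 (1 : A)) := ⟨_, rfl⟩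
  obtain ⟨u, hu⟩ : ∃ u, u = Φ (Matrix.single 0 1 (1 : A)) := ⟨_, rfl⟩
  have hXP : ∀ X : Matrix (Fin 2) (Fin 2) A, Φ X * P = X 0 0 • P + X 1 0 • q := by
    intro X
    rw [hP, hq, ← map_mul, ffc_mul_E11, map_add, map_smul, map_smul]
  have hXq : ∀ X : Matrix (Fin 2) (Fin 2) A, Φ X * q = X 0 1 • P + X 1 1 • q := by
    intro X
    rw [hP, hq, ← map_mul, ffc_mul_E21, map_add, map_smul, map_smul]
  have hPP : P * P = P := by rw [hP, ← map_mul, ffc_E11_mul_E11]
  have hPq : P * q = 0 := by rw [hP, hq, ← map_mul, ffc_E11_mul_E21, map_zero]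
  have huP : u * P = 0 := by rw [hP, hu, ← map_mul, ffc_E12_mul_E11, map_zero]
  have huq : u * q = P := by rw [hP, hu, hq, ← map_mul, ffc_E12_mul_E21]
  -- some entry of `P` is a unit
  have hone : (1 : Matrix (Fin 2) (Fin 2) A) = P + q * P * u := by
    rw [hP, hq, hu, ← map_mul, ← map_mul, ← map_add, ← ffc_one_eq, map_one]
  have hex : ∃ a c, IsUnit (P a c) := by
    by_contra hno
    have hm : ∀ a c, P a c ∈ IsLocalRing.maximalIdeal A := fun a c =>
      (IsLocalRing.mem_maximalIdeal _).mpr fun h => hno ⟨a, c, h⟩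
    have h00 : (1 : A) = P 0 0 + (q * P * u) 0 0 := by
      have := congrFun (congrFun hone 0) 0
      simpa using this
    have hmem : (1 : A) ∈ IsLocalRing.maximalIdeal A := by
      rw [h00]
      refine Ideal.add_mem _ (hm 0 0) ?_
      simp only [Matrix.mul_apply, Fin.sum_univ_two]
      refine Ideal.add_mem _ ?_ ?_ <;>
      · refine Ideal.mul_mem_right _ _ ?_
        refine Ideal.add_mem _ ?_ ?_ <;> exact Ideal.mul_mem_left _ _ (hm _ _)
    exact (Ideal.ne_top_iff_one _).mp (IsLocalRing.maximalIdeal.isMaximal A).ne_top hmem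
  obtain ⟨a, c, hac⟩ := hex
  obtain ⟨b, hb⟩ := hac.exists_left_inv
  exact ffc_inner_aux Φ P q u hXP hXq hPP hPq huP huq a c (P a c) b rfl hb

/-- the Cayley–Hamilton identity for `2 × 2` matrices -/
theorem ffc_cayley (X : Matrix (Fin 2) (Fin 2) A) :
    X * X - X.trace • X + X.det • (1 : Matrix (Fin 2) (Fin 2) A) = 0 := by
  ext i j
  fin_cases i <;> fin_cases j <;>
    simp [Matrix.mul_apply, Fin.sum_univ_two, Matrix.det_fin_two, Matrix.trace_fin_two,
      Matrix.one_apply] <;> ring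

variable {G : Type*} [Group G]

/-- **Rigidity (Carayol, Serre, Mazur)**: if the `ρ₁(g)` span `M₂(A)`, `A` local, and every `ρ₂(g)`
satisfies the characteristic polynomial of `ρ₁(g)`, then `ρ₂` is conjugate to `ρ₁`. -/
theorem ffc_rigid [IsLocalRing A] (ρ₁ ρ₂ : G →* Matrix (Fin 2) (Fin 2) A)
    (hspan : Submodule.span A (Set.range ρ₁) = ⊤)
    (hCH : ∀ g, ρ₂ g * ρ₂ g - (ρ₁ g).trace • ρ₂ g +
      (ρ₁ g).det • (1 : Matrix (Fin 2) (Fin 2) A) = 0) :
    ∃ Q : Matrix (Fin 2) (Fin 2) A, IsUnit Q.det ∧ ∀ g, ρ₂ g * Q = Q * ρ₁ g := by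
  obtain ⟨Φ, hΦ⟩ := ffc_blr ρ₁ ρ₂ hspan hCH
  obtain ⟨Q, hQ, hQX⟩ := ffc_inner Φ
  exact ⟨Q, hQ, fun g => by rw [← hΦ g, hQX]⟩

/-- Rigidity from equality of traces and determinants. -/
theorem ffc_rigid_of_trace_det [IsLocalRing A] (ρ₁ ρ₂ : G →* Matrix (Fin 2) (Fin 2) A)
    (hspan : Submodule.span A (Set.range ρ₁) = ⊤)
    (htr : ∀ g, (ρ₂ g).trace = (ρ₁ g).trace) (hdet : ∀ g, (ρ₂ g).det = (ρ₁ g).det) :
    ∃ Q : Matrix (Fin 2) (Fin 2) A, IsUnit Q.det ∧ ∀ g, ρ₂ g * Q = Q * ρ₁ g :=
  ffc_rigid ρ₁ ρ₂ hspan fun g => by rw [← htr, ← hdet]; exact ffc_cayley (ρ₂ g)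

end Inner

end Fermat.Agent.FF
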