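/-
Project FF, cell [CAR] (S32 from the S19 pipeline), leaf [CAR-LIFT] (helper21).

Lifting a `2`-dimensional residual representation to an Artinian "Hecke module" (Carayol's lemma,
in the form which needs NO reducedness of the Hecke algebra):
* `ffc_nak`        : Nakayama for a nilpotent ideal (no finiteness);
* `ffc_ker_one_tmul`: the kernel of `C → B̄ ⊗ C` is `𝔫 C`;
* `ffc_MatUnits`, `ffc_psi`, `ffc_psi_injective` : `2 × 2` matrix units give `M₂(B) → C`;
* `ffc_lift_alg`   : `B → B̄` onto with nilpotent kernel, `C` a faithful `B`-algebra spanned by the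
  image of a group whose elements satisfy quadratic equations lifting the characteristic
  polynomials of a representation `ρ̄` spanning `M₂(B̄)`; then `C ≅ M₂(B)`
  (Boston–Lenstra–Ribet over `B̄` on `B̄ ⊗ C`, idempotent lifting, exact matrix units, Nakayama);
* `ffc_lift`       : the module form: `ρ_B : G → M₂(B)` and an equivariant `B² ↪ E^s`.
Mathlib + `Car/BLR.lean` + `Car/Rigid.lean`, prefix `ffc_`.
-/
import Mathlib
import Fermat.Agent.FF.Car.Rigid

set_option autoImplicit false
set_option linter.unusedSimpArgs false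

namespace Fermat.Agent.FF

open Matrix
open scoped TensorProduct

section Nak

variable {B : Type*} [CommRing B] {C : Type*} [AddCommGroup C] [Module B C]

/-- **Nakayama for a nilpotent ideal** (no finiteness). -/
theorem ffc_nak (I : Ideal B) (r : ℕ) (hI : I ^ r = ⊥) (N : Submodule B C)
    (h : N ⊔ I • (⊤ : Submodule B C) = ⊤) : N = ⊤ := by
  have key : ∀ k : ℕ, N ⊔ (I ^ k) • (⊤ : Submodule B C) = ⊤ := by
    intro k
    induction k with
    | zero => rw [pow_zero, Ideal.one_eq_top, Submodule.top_smul, sup_top_eq]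
    | succ k ih =>
      rw [eq_top_iff]
      have h1 : (I ^ k) • (⊤ : Submodule B C) ≤ N ⊔ (I ^ (k + 1)) • (⊤ : Submodule B C) := by
        calc (I ^ k) • (⊤ : Submodule B C)
            = (I ^ k) • (N ⊔ I • (⊤ : Submodule B C)) := by rw [h]
          _ = (I ^ k) • N ⊔ (I ^ k) • (I • (⊤ : Submodule B C)) := Submodule.smul_sup _ _ _
          _ ≤ N ⊔ (I ^ (k + 1)) • (⊤ : Submodule B C) := by
            refine sup_le_sup Submodule.smul_le_right ?_
            rw [← Submodule.mul_smul, ← pow_succ]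
      calc (⊤ : Submodule B C) = N ⊔ (I ^ k) • (⊤ : Submodule B C) := ih.symm
        _ ≤ N ⊔ (I ^ (k + 1)) • (⊤ : Submodule B C) := sup_le le_sup_left h1
  have h2 := key r
  rwa [hI, Submodule.bot_smul, sup_bot_eq] at h2

end Nak

section Nil

variable {B : Type*} [CommRing B] {C : Type*} [Ring C] [Algebra B C]

theorem ffc_mul_mem_smul_top (I J : Ideal B) {x y : C} (hx : x ∈ I • (⊤ : Submodule B C))
    (hy : y ∈ J • (⊤ : Submodule B C)) : x * y ∈ (I * J) • (⊤ : Submodule B C) := by
  refine Submodule.smul_induction_on hx (fun a ha c _ => ?_) (fun x₁ x₂ h₁ h₂ => ?_)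
  · refine Submodule.smul_induction_on hy (fun b hb c' _ => ?_) (fun y₁ y₂ h₁ h₂ => ?_)
    · rw [smul_mul_smul_comm]
      exact Submodule.smul_mem_smul (Ideal.mul_mem_mul ha hb) Submodule.mem_top
    · rw [mul_add]
      exact Submodule.add_mem _ h₁ h₂
  · rw [add_mul]
    exact Submodule.add_mem _ h₁ h₂

theorem ffc_pow_mem_smul_top (I : Ideal B) {x : C} (hx : x ∈ I • (⊤ : Submodule B C)) (k : ℕ) :
    x ^ (k + 1) ∈ (I ^ (k + 1)) • (⊤ : Submodule B C) := by
  induction k with
  | zero => simpa using hx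
  | succ k ih =>
    have h := ffc_mul_mem_smul_top _ _ ih hx
    rwa [← pow_succ, ← pow_succ] at h

/-- the elements of `I C` are nilpotent when `I` is. -/
theorem ffc_isNilpotent_of_mem_smul_top (I : Ideal B) (r : ℕ) (hI : I ^ r = ⊥) {x : C}
    (hx : x ∈ I • (⊤ : Submodule B C)) : IsNilpotent x := by
  refine ⟨r + 1, ?_⟩
  have h := ffc_pow_mem_smul_top I hx r
  rw [pow_succ I, hI, Ideal.bot_mul, Submodule.bot_smul, Submodule.mem_bot] at h
  exact h

end Nil

section Ker

variable {B : Type*} [CommRing B] {Bbar : Type*} [CommRing Bbar] [Algebra B Bbar]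
  {C : Type*} [AddCommGroup C] [Module B C]

/-- the kernel of `C → B̄ ⊗ C` is `𝔫 C`, `𝔫 = ker (B → B̄)`. -/
theorem ffc_ker_one_tmul (hπ : Function.Surjective (algebraMap B Bbar)) {c : C}
    (h : (1 : Bbar) ⊗ₜ[B] c = 0) :
    c ∈ (RingHom.ker (algebraMap B Bbar)) • (⊤ : Submodule B C) := by
  have hπ' : Function.Surjective (Algebra.ofId B Bbar) := hπ
  have hI : RingHom.ker (Algebra.ofId B Bbar) = RingHom.ker (algebraMap B Bbar) := rfl
  rw [← hI]
  let e₁ : (B ⧸ RingHom.ker (Algebra.ofId B Bbar)) ≃ₐ[B] Bbar :=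
    Ideal.quotientKerAlgEquivOfSurjective hπ'
  let e₂ : (B ⧸ RingHom.ker (Algebra.ofId B Bbar)) ⊗[B] C ≃ₗ[B] Bbar ⊗[B] C :=
    TensorProduct.congr e₁.toLinearEquiv (LinearEquiv.refl B C)
  have h1 : ((1 : B ⧸ RingHom.ker (Algebra.ofId B Bbar)) ⊗ₜ[B] c) = 0 := by
    apply e₂.injective
    rw [map_zero, TensorProduct.congr_tmul, LinearEquiv.refl_apply, AlgEquiv.toLinearEquiv_apply,
      map_one, h]
  have h2 := congrArg (TensorProduct.quotTensorEquivQuotSMul C (RingHom.ker (Algebra.ofId B Bbar))) h1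
  rw [map_zero, ← map_one (Ideal.Quotient.mk _), TensorProduct.quotTensorEquivQuotSMul_mk_tmul,
    one_smul] at h2
  exact (Submodule.Quotient.mk_eq_zero _).mp h2

end Ker

section Units2

variable {B : Type*} [CommRing B] {C : Type*} [Ring C] [Algebra B C]

/-- a system of `2 × 2` matrix units `E₁₁ = e`, `E₁₂ = v`, `E₂₁ = u`, `E₂₂ = 1 - e`. -/
structure ffc_MatUnits (e u v : C) : Prop where
  ee : e * e = e
  ue : u * e = u
  eu : e * u = 0
  ev : e * v = v
  ve : v * e = 0
  vu : v * u = e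
  uv : u * v = 1 - e

/-- the linear map `X ↦ X₀₀ e + X₀₁ v + X₁₀ u + X₁₁ (1 - e)` -/
def ffc_psiLin (e u v : C) : Matrix (Fin 2) (Fin 2) B →ₗ[B] C where
  toFun X := X 0 0 • e + X 0 1 • v + X 1 0 • u + X 1 1 • (1 - e)
  map_add' X Y := by
    simp only [Matrix.add_apply]
    module
  map_smul' c X := by
    simp only [Matrix.smul_apply, smul_eq_mul, RingHom.id_apply]
    module

theorem ffc_psiLin_apply (e u v : C) (X : Matrix (Fin 2) (Fin 2) B) :
    ffc_psiLin e u v X = X 0 0 • e + X 0 1 • v + X 1 0 • u + X 1 1 • (1 - e) := rfl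

theorem ffc_psiLin_one (e u v : C) : ffc_psiLin (B := B) e u v 1 = 1 := by
  rw [ffc_psiLin_apply]
  simp

theorem ffc_psiLin_mul {e u v : C} (h : ffc_MatUnits e u v) (X Y : Matrix (Fin 2) (Fin 2) B) :
    ffc_psiLin e u v (X * Y) = ffc_psiLin e u v X * ffc_psiLin e u v Y := by
  obtain ⟨f, hf⟩ : ∃ f : C, f = 1 - e := ⟨_, rfl⟩
  have ee := h.ee
  have ue := h.ue
  have eu := h.eu
  have ev := h.ev
  have ve := h.ve
  have vu := h.vu
  have uv : u * v = f := by rw [hf]; exact h.uv
  have ef : e * f = 0 := by rw [hf, mul_sub, mul_one, ee, sub_self]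
  have fe : f * e = 0 := by rw [hf, sub_mul, one_mul, ee, sub_self]
  have ff : f * f = f := by rw [hf, mul_sub, mul_one, sub_mul, one_mul, ee, sub_self, sub_zero]
  have uu : u * u = 0 := by
    calc u * u = (u * e) * u := by rw [ue]
      _ = u * (e * u) := mul_assoc _ _ _
      _ = 0 := by rw [eu, mul_zero]
  have vv : v * v = 0 := by
    calc v * v = v * (e * v) := by rw [ev]
      _ = (v * e) * v := (mul_assoc _ _ _).symm
      _ = 0 := by rw [ve, zero_mul]
  have fu : f * u = u := by rw [hf, sub_mul, one_mul, eu, sub_zero]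
  have uf : u * f = 0 := by rw [hf, mul_sub, mul_one, ue, sub_self]
  have fv : f * v = 0 := by rw [hf, sub_mul, one_mul, ev, sub_self]
  have vf : v * f = v := by rw [hf, mul_sub, mul_one, ve, sub_zero]
  rw [ffc_psiLin_apply, ffc_psiLin_apply, ffc_psiLin_apply, ← hf]
  simp only [Matrix.mul_apply, Fin.sum_univ_two, add_mul, mul_add, smul_mul_smul_comm, ee, ue, eu,
    ev, ve, vu, uv, ef, fe, ff, uu, vv, fu, uf, fv, vf, smul_zero, add_zero, zero_add]
  module

/-- the algebra homomorphism `M₂(B) → C` defined by a system of matrix units -/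
def ffc_psi {e u v : C} (h : ffc_MatUnits e u v) : Matrix (Fin 2) (Fin 2) B →ₐ[B] C :=
  AlgHom.ofLinearMap (ffc_psiLin e u v) (ffc_psiLin_one e u v) (ffc_psiLin_mul h)

theorem ffc_psi_apply {e u v : C} (h : ffc_MatUnits e u v) (X : Matrix (Fin 2) (Fin 2) B) :
    ffc_psi h X = X 0 0 • e + X 0 1 • v + X 1 0 • u + X 1 1 • (1 - e) := rfl

theorem ffc_psi_injective {e u v : C} (h : ffc_MatUnits e u v)
    (hfaith : Function.Injective (algebraMap B C)) : Function.Injective (ffc_psi (B := B) h) := by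
  have key : ∀ b : B, b • e = 0 → b = 0 := by
    intro b hb
    apply hfaith
    rw [map_zero, Algebra.algebraMap_eq_smul_one]
    have h1 : (1 : C) = e + u * e * v := by
      rw [h.ue, h.uv]
      abel
    have h2 : b • (u * e * v) = u * (b • e) * v := by rw [mul_smul_comm, smul_mul_assoc]
    rw [h1, smul_add, hb, zero_add, h2, hb, mul_zero, zero_mul]
  rw [injective_iff_map_eq_zero]
  intro X hX
  rw [ffc_psi_apply] at hX
  have ef : e * (1 - e) = 0 := by rw [mul_sub, mul_one, h.ee, sub_self]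
  have fe : (1 - e) * e = 0 := by rw [sub_mul, one_mul, h.ee, sub_self]
  have fu : (1 - e) * u = u := by rw [sub_mul, one_mul, h.eu, sub_zero]
  have vf : v * (1 - e) = v := by rw [mul_sub, mul_one, h.ve, sub_zero]
  have vv : v * v = 0 := by
    calc v * v = v * (e * v) := by rw [h.ev]
      _ = (v * e) * v := (mul_assoc _ _ _).symm
      _ = 0 := by rw [h.ve, zero_mul]
  have uu : u * u = 0 := by
    calc u * u = (u * e) * u := by rw [h.ue]
      _ = u * (e * u) := mul_assoc _ _ _
      _ = 0 := by rw [h.eu, mul_zero]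
  have h00 : X 0 0 • e = 0 := by
    have := congrArg (fun c => e * c * e) hX
    simpa only [mul_add, add_mul, mul_smul_comm, smul_mul_assoc, h.ee, h.ev, h.ve, h.eu, ef,
      zero_mul, mul_zero, smul_zero, add_zero] using this
  have h01 : X 0 1 • e = 0 := by
    have := congrArg (fun c => e * c * u) hX
    simpa only [mul_add, add_mul, mul_smul_comm, smul_mul_assoc, h.ee, h.ev, h.vu, h.eu, ef,
      zero_mul, mul_zero, smul_zero, add_zero, zero_add] using this
  have h10 : X 1 0 • e = 0 := by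
    have := congrArg (fun c => v * c * e) hX
    simpa only [mul_add, add_mul, mul_smul_comm, smul_mul_assoc, h.ee, h.ve, h.vu, vv, vf,
      zero_mul, mul_zero, smul_zero, add_zero, zero_add] using this
  have h11 : X 1 1 • e = 0 := by
    have := congrArg (fun c => v * c * u) hX
    simpa only [mul_add, add_mul, mul_smul_comm, smul_mul_assoc, h.ee, h.ve, h.vu, h.eu, vv, vf, uu,
      zero_mul, mul_zero, smul_zero, add_zero, zero_add] using this
  ext i j
  fin_cases i <;> fin_cases j
  · exact key _ h00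
  · exact key _ h01
  · exact key _ h10
  · exact key _ h11

end Units2

section MatId

variable {A : Type*} [CommRing A]

theorem ffc_mat_id1 : (1 - Matrix.single 0 0 (1 : A)) * Matrix.single 1 0 (1 : A) *
    Matrix.single 0 0 (1 : A) = (Matrix.single 1 0 (1 : A) : Matrix (Fin 2) (Fin 2) A) := by
  ext i j
  fin_cases i <;> fin_cases j <;>
    simp [Matrix.mul_apply, Fin.sum_univ_two, Matrix.single_apply, Matrix.one_apply]

theorem ffc_mat_id2 : Matrix.single 0 0 (1 : A) * Matrix.single 0 1 (1 : A) *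
    (1 - Matrix.single 0 0 (1 : A)) = (Matrix.single 0 1 (1 : A) : Matrix (Fin 2) (Fin 2) A) := by
  ext i j
  fin_cases i <;> fin_cases j <;>
    simp [Matrix.mul_apply, Fin.sum_univ_two, Matrix.single_apply, Matrix.one_apply]

theorem ffc_mat_id3 : Matrix.single 0 1 (1 : A) * Matrix.single 1 0 (1 : A) =
    (Matrix.single 0 0 (1 : A) : Matrix (Fin 2) (Fin 2) A) := by
  ext i j
  fin_cases i <;> fin_cases j <;>
    simp [Matrix.mul_apply, Fin.sum_univ_two, Matrix.single_apply, Matrix.one_apply]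

theorem ffc_mat_id4 : (1 : Matrix (Fin 2) (Fin 2) A) - Matrix.single 0 0 (1 : A) -
    Matrix.single 1 0 (1 : A) * Matrix.single 0 1 (1 : A) = 0 := by
  ext i j
  fin_cases i <;> fin_cases j <;>
    simp [Matrix.mul_apply, Fin.sum_univ_two, Matrix.single_apply, Matrix.one_apply]

theorem ffc_mat_decomp (X : Matrix (Fin 2) (Fin 2) A) :
    X = X 0 0 • Matrix.single 0 0 (1 : A) + X 0 1 • Matrix.single 0 1 (1 : A) +
      X 1 0 • Matrix.single 1 0 (1 : A) + X 1 1 • (1 - Matrix.single 0 0 (1 : A)) := by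
  ext i j
  fin_cases i <;> fin_cases j <;>
    simp [Matrix.single_apply, Matrix.one_apply]

end MatId

section Main

variable {B : Type*} [CommRing B] {Bbar : Type*} [CommRing Bbar] [Algebra B Bbar]
  {C : Type*} [Ring C] [Algebra B C] {G : Type*} [Group G]

/-- an idempotent which is nilpotent vanishes -/
theorem ffc_idem_nilpotent {z : C} (h1 : z * z = z) (h2 : IsNilpotent z) : z = 0 := by
  obtain ⟨m, hm⟩ := h2
  have h3 : ∀ k : ℕ, z ^ (k + 1) = z := by
    intro k
    induction k with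
    | zero => rw [zero_add, pow_one]
    | succ k ih => rw [pow_succ, ih, h1]
  cases m with
  | zero =>
    rw [pow_zero] at hm
    rw [← mul_one z, hm, mul_zero]
  | succ m => rw [← h3 m, hm]

/-- **Lifting a matrix algebra structure along a nilpotent thickening.**  `B → B̄` onto with
nilpotent kernel, `C` a faithful `B`-algebra spanned by the image of a group `G` whose elements
satisfy quadratic equations over `B` reducing to the characteristic polynomials of a representation
`ρ̄ : G → GL₂(B̄)` which spans `M₂(B̄)`.  Then `C ≅ M₂(B)`. -/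
theorem ffc_lift_alg (hπ : Function.Surjective (algebraMap B Bbar))
    (r : ℕ) (hnil : (RingHom.ker (algebraMap B Bbar)) ^ r = ⊥)
    (hfaith : Function.Injective (algebraMap B C))
    (α : G →* C) (hspanC : Submodule.span B (Set.range α) = ⊤)
    (t d : G → B) (hCH : ∀ g, α g * α g - t g • α g + d g • 1 = 0)
    (ρbar : G →* Matrix (Fin 2) (Fin 2) Bbar)
    (hspan : Submodule.span Bbar (Set.range ρbar) = ⊤)
    (htr : ∀ g, algebraMap B Bbar (t g) = (ρbar g).trace)
    (hdet : ∀ g, algebraMap B Bbar (d g) = (ρbar g).det) :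
    ∃ Ψ : Matrix (Fin 2) (Fin 2) B →ₐ[B] C, Function.Bijective Ψ := by
  classical
  -- the reduction map
  obtain ⟨f, hf_apply⟩ : ∃ f : C →ₐ[B] Bbar ⊗[B] C, ∀ c, f c = (1 : Bbar) ⊗ₜ[B] c :=
    ⟨Algebra.TensorProduct.includeRight, fun c => rfl⟩
  have hker : ∀ c, f c = 0 → c ∈ (RingHom.ker (algebraMap B Bbar)) • (⊤ : Submodule B C) :=
    fun c hc => ffc_ker_one_tmul hπ (by rw [← hf_apply]; exact hc)
  have hnilp : ∀ x ∈ RingHom.ker (f : C →+* Bbar ⊗[B] C), IsNilpotent x := fun x hx =>
    ffc_isNilpotent_of_mem_smul_top _ r hnil (hker x hx)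
  have hnilp' : ∀ x : C, f x = 0 → IsNilpotent x := fun x hx => hnilp x hx
  have hf_smul : ∀ (b : B) (c : C), f (b • c) = (algebraMap B Bbar b) • f c := by
    intro b c
    rw [map_smul, algebraMap_smul]
  -- Boston–Lenstra–Ribet over `B̄`
  obtain ⟨α', hα'⟩ : ∃ α' : G →* Bbar ⊗[B] C, ∀ g, α' g = f (α g) :=
    ⟨(f : C →* Bbar ⊗[B] C).comp α, fun g => rfl⟩
  have hCH' : ∀ g, α' g * α' g - (ρbar g).trace • α' g + (ρbar g).det • 1 = 0 := by
    intro g
    have h1 := congrArg f (hCH g)
    rw [map_zero, map_add, map_sub, map_mul, hf_smul, hf_smul, map_one, htr, hdet] at h1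
    rw [hα']
    exact h1
  obtain ⟨Φ, hΦ⟩ := ffc_blr ρbar α' hspan hCH'
  have hfsurj : Function.Surjective f := by
    intro z
    induction z using TensorProduct.induction_on with
    | zero => exact ⟨0, map_zero f⟩
    | tmul b c =>
      obtain ⟨b', rfl⟩ := hπ b
      refine ⟨b' • c, ?_⟩
      rw [hf_smul, hf_apply, TensorProduct.smul_tmul', smul_eq_mul, mul_one]
    | add z w hz hw =>
      obtain ⟨a, rfl⟩ := hz
      obtain ⟨b, rfl⟩ := hw
      exact ⟨a + b, map_add f a b⟩
  have hΦrange : ∀ c : C, ∃ X : Matrix (Fin 2) (Fin 2) Bbar, Φ X = f c := by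
    intro c
    have hc : c ∈ Submodule.span B (Set.range α) := hspanC ▸ Submodule.mem_top
    induction hc using Submodule.span_induction with
    | mem c hc =>
      obtain ⟨g, rfl⟩ := hc
      exact ⟨ρbar g, by rw [hΦ g, hα']⟩
    | zero => exact ⟨0, by rw [map_zero, map_zero]⟩
    | add x y _ _ hx hy =>
      obtain ⟨X, hX⟩ := hx
      obtain ⟨Y, hY⟩ := hy
      exact ⟨X + Y, by rw [map_add, map_add, hX, hY]⟩
    | smul b x _ hx =>
      obtain ⟨X, hX⟩ := hx
      exact ⟨algebraMap B Bbar b • X, by rw [map_smul, hf_smul, hX]⟩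
  -- the idempotent
  have hE11 : IsIdempotentElem (Φ (Matrix.single 0 0 (1 : Bbar))) := by
    unfold IsIdempotentElem
    rw [← map_mul, ffc_E11_mul_E11]
  obtain ⟨e, he, hfe⟩ := exists_isIdempotentElem_eq_of_ker_isNilpotent
    (f : C →+* Bbar ⊗[B] C) hnilp _ (hfsurj _) hE11
  have hfe' : f e = Φ (Matrix.single 0 0 (1 : Bbar)) := hfe
  have hee : e * e = e := he
  obtain ⟨u₀, hu₀⟩ := hfsurj (Φ (Matrix.single 1 0 (1 : Bbar)))
  obtain ⟨v₀, hv₀⟩ := hfsurj (Φ (Matrix.single 0 1 (1 : Bbar)))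
  obtain ⟨u, hu⟩ : ∃ u : C, u = (1 - e) * u₀ * e := ⟨_, rfl⟩
  obtain ⟨v, hv⟩ : ∃ v : C, v = e * v₀ * (1 - e) := ⟨_, rfl⟩
  have hfu : f u = Φ (Matrix.single 1 0 (1 : Bbar)) := by
    rw [hu, map_mul, map_mul, map_sub, map_one, hfe', hu₀, ← map_one Φ, ← map_sub, ← map_mul,
      ← map_mul, ffc_mat_id1]
  have hfv : f v = Φ (Matrix.single 0 1 (1 : Bbar)) := by
    rw [hv, map_mul, map_mul, map_sub, map_one, hfe', hv₀, ← map_one Φ, ← map_sub, ← map_mul,
      ← map_mul, ffc_mat_id2]
  have hue : u * e = u := by rw [hu, mul_assoc, hee]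
  have heu : e * u = 0 := by
    rw [hu, ← mul_assoc, ← mul_assoc, mul_sub, mul_one, hee, sub_self, zero_mul, zero_mul]
  have hev : e * v = v := by rw [hv, ← mul_assoc, ← mul_assoc, hee]
  have hve : v * e = 0 := by
    rw [hv, mul_assoc, sub_mul, one_mul, hee, sub_self, mul_zero]
  -- the correction
  obtain ⟨n, hn⟩ : ∃ n : C, n = v * u - e := ⟨_, rfl⟩
  have hfn : f n = 0 := by
    rw [hn, map_sub, map_mul, hfv, hfu, hfe', ← map_mul, ffc_mat_id3, sub_self]
  have hen : e * n = n := by rw [hn, mul_sub, ← mul_assoc, hev, hee]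
  have hne : n * e = n := by rw [hn, sub_mul, mul_assoc, hue, hee]
  obtain ⟨w, hw⟩ := (hnilp' n hfn).isUnit_one_add
  have hcomm : Commute e (w : C) := by
    rw [hw]
    show e * (1 + n) = (1 + n) * e
    rw [mul_add, add_mul, mul_one, one_mul, hen, hne]
  have hcomm' : Commute e ((w⁻¹ : Cˣ) : C) := hcomm.units_inv_right
  obtain ⟨s, hs⟩ : ∃ s : C, s = ((w⁻¹ : Cˣ) : C) := ⟨_, rfl⟩
  have hs1 : s * (1 + n) = 1 := by rw [hs, ← hw]; exact Units.inv_mul w
  have hes : e * s = s * e := by rw [hs]; exact hcomm'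
  have hfs : f s = 1 := by
    have h1 := congrArg f hs1
    rw [map_mul, map_add, map_one, hfn, add_zero, mul_one] at h1
    exact h1
  obtain ⟨v', hv'⟩ : ∃ v' : C, v' = s * v := ⟨_, rfl⟩
  have hfv' : f v' = Φ (Matrix.single 0 1 (1 : Bbar)) := by
    rw [hv', map_mul, hfs, one_mul, hfv]
  have hvu : v * u = (1 + n) * e := by
    rw [add_mul, one_mul, hne, hn]
    abel
  have hv'u : v' * u = e := by
    rw [hv', mul_assoc, hvu, ← mul_assoc, hs1, one_mul]
  have hev' : e * v' = v' := by
    rw [hv', ← mul_assoc, hes, mul_assoc, hev]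
  have hv'e : v' * e = 0 := by
    rw [hv', mul_assoc, hve, mul_zero]
  have h1eu : (1 - e) * u = u := by rw [sub_mul, one_mul, heu, sub_zero]
  obtain ⟨z, hz⟩ : ∃ z : C, z = (1 - e) - u * v' := ⟨_, rfl⟩
  have hzz : z * z = z := by
    have h2 : (1 - e) * (1 - e) = 1 - e := by
      rw [mul_sub, mul_one, sub_mul, one_mul, hee, sub_self, sub_zero]
    have h3 : (1 - e) * (u * v') = u * v' := by rw [← mul_assoc, h1eu]
    have h4 : (u * v') * (1 - e) = u * v' := by
      rw [mul_sub, mul_one, mul_assoc, hv'e, mul_zero, sub_zero]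
    have h5 : (u * v') * (u * v') = u * v' := by
      rw [mul_assoc, ← mul_assoc v', hv'u, hev']
    have hgen : ∀ p q : C, p * p = p → p * q = q → q * p = q → q * q = q →
        (p - q) * (p - q) = p - q := by
      intro p q k2 k3 k4 k5
      rw [mul_sub, sub_mul, sub_mul, k2, k3, k4, k5]
      abel
    rw [hz]
    exact hgen _ _ h2 h3 h4 h5
  have hfz : f z = 0 := by
    rw [hz, map_sub, map_sub, map_one, map_mul, hfe', hfu, hfv', ← map_one Φ, ← map_sub, ← map_mul,
      ← map_sub, ffc_mat_id4, map_zero]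
  have hz0 : z = 0 := ffc_idem_nilpotent hzz (hnilp' z hfz)
  have huv' : u * v' = 1 - e := by
    rw [hz, sub_eq_zero] at hz0
    exact hz0.symm
  have hunits : ffc_MatUnits e u v' := ⟨hee, hue, heu, hev', hv'e, hv'u, huv'⟩
  refine ⟨ffc_psi hunits, ffc_psi_injective hunits hfaith, ?_⟩
  -- surjectivity by Nakayama
  have hfΨ : ∀ X : Matrix (Fin 2) (Fin 2) B,
      f (ffc_psi hunits X) = Φ (X.map (algebraMap B Bbar)) := by
    intro X
    rw [ffc_psi_apply, map_add, map_add, map_add, hf_smul, hf_smul, hf_smul, hf_smul, map_sub,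
      map_one, hfe', hfu, hfv']
    conv_rhs => rw [ffc_mat_decomp (X.map (algebraMap B Bbar))]
    simp only [map_add, map_smul, map_sub, map_one, Matrix.map_apply]
  have hsup : (LinearMap.range (ffc_psi (B := B) hunits).toLinearMap) ⊔
      (RingHom.ker (algebraMap B Bbar)) • (⊤ : Submodule B C) = ⊤ := by
    rw [eq_top_iff]
    intro c _
    obtain ⟨Xbar, hX⟩ := hΦrange c
    obtain ⟨X, rfl⟩ : ∃ X : Matrix (Fin 2) (Fin 2) B, X.map (algebraMap B Bbar) = Xbar := by
      choose g hg using hπ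
      exact ⟨Matrix.of fun i j => g (Xbar i j), by ext i j; exact hg (Xbar i j)⟩
    have h1 : f (c - ffc_psi hunits X) = 0 := by rw [map_sub, hfΨ, hX, sub_self]
    have h2 : c = ffc_psi hunits X + (c - ffc_psi hunits X) := by abel
    rw [h2]
    exact Submodule.add_mem_sup ⟨X, rfl⟩ (hker _ h1)
  have htop := ffc_nak _ r hnil _ hsup
  intro c
  have hc : c ∈ LinearMap.range (ffc_psi (B := B) hunits).toLinearMap := htop ▸ Submodule.mem_top
  obtain ⟨X, hX⟩ := hc
  exact ⟨X, hX⟩

/-- **Lifting a residual representation to an Artinian Hecke module** (Carayol's lemma in the form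
used for S32).  `B → B̄` onto with nilpotent kernel, `E` a faithful finite `B`-module with a linear
action `α` of a group `G` whose elements satisfy quadratic equations `X² - t(g) X + d(g)` over `B`
which reduce to the characteristic polynomials of a representation `ρ̄ : G → GL₂(B̄)` spanning
`M₂(B̄)`.  Then there is `ρ_B : G → M₂(B)` and an equivariant embedding `B² ↪ E^s`; and `ρ_B(g)`
satisfies the same quadratic equation. -/
theorem ffc_lift {E : Type*} [AddCommGroup E] [Module B E] [Module.Finite B E]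
    (hπ : Function.Surjective (algebraMap B Bbar))
    (r : ℕ) (hnil : (RingHom.ker (algebraMap B Bbar)) ^ r = ⊥)
    (hfaith : ∀ b : B, (∀ x : E, b • x = 0) → b = 0)
    (α : G →* Module.End B E) (t d : G → B)
    (hCH : ∀ g, α g * α g - t g • α g + d g • 1 = 0)
    (ρbar : G →* Matrix (Fin 2) (Fin 2) Bbar)
    (hspan : Submodule.span Bbar (Set.range ρbar) = ⊤)
    (htr : ∀ g, algebraMap B Bbar (t g) = (ρbar g).trace)
    (hdet : ∀ g, algebraMap B Bbar (d g) = (ρbar g).det) :
    ∃ (ρB : G →* Matrix (Fin 2) (Fin 2) B) (s : ℕ) (j : (Fin 2 → B) →ₗ[B] (Fin s → E)),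
      Function.Injective j ∧ (∀ g v i, j ((ρB g).mulVec v) i = α g (j v i)) ∧
      ∀ g, ρB g * ρB g - t g • ρB g + d g • 1 = 0 := by
  classical
  obtain ⟨Cs, hCs⟩ : ∃ Cs : Subalgebra B (Module.End B E), Cs = Algebra.adjoin B (Set.range α) :=
    ⟨_, rfl⟩
  have hαmem : ∀ g, α g ∈ Cs := fun g => hCs ▸ Algebra.subset_adjoin ⟨g, rfl⟩
  obtain ⟨αC, hαC⟩ : ∃ αC : G →* Cs, ∀ g, (αC g : Module.End B E) = α g :=
    ⟨α.codRestrict Cs.toSubmonoid hαmem, fun g => rfl⟩
  have hspanC : Submodule.span B (Set.range αC) = ⊤ := by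
    apply Submodule.map_injective_of_injective (f := Cs.val.toLinearMap) Subtype.val_injective
    rw [Submodule.map_span, Submodule.map_top]
    have h1 : (Cs.val.toLinearMap : Cs →ₗ[B] Module.End B E) '' Set.range αC = Set.range α := by
      ext x
      constructor
      · rintro ⟨_, ⟨g, rfl⟩, rfl⟩
        exact ⟨g, (hαC g).symm⟩
      · rintro ⟨g, rfl⟩
        exact ⟨αC g, ⟨g, rfl⟩, hαC g⟩
    rw [h1]
    have h2 : LinearMap.range (Cs.val.toLinearMap : Cs →ₗ[B] Module.End B E) =
        Subalgebra.toSubmodule Cs := by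
      ext x
      constructor
      · rintro ⟨y, rfl⟩
        exact y.2
      · intro hx
        exact ⟨⟨x, hx⟩, rfl⟩
    rw [h2, hCs, Algebra.adjoin_eq_span]
    congr 1
    have h3 : Submonoid.closure (Set.range α) = MonoidHom.mrange α := by
      rw [← MonoidHom.coe_mrange, Submonoid.closure_eq]
    rw [h3]
    rfl
  have hfaithC : Function.Injective (algebraMap B Cs) := by
    rw [injective_iff_map_eq_zero]
    intro b hb
    apply hfaith b
    intro x
    have h1 : ((algebraMap B Cs b : Cs) : Module.End B E) = 0 := by rw [hb]; rfl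
    have h2 : ((algebraMap B Cs b : Cs) : Module.End B E) = algebraMap B (Module.End B E) b := rfl
    rw [h2] at h1
    have h3 := congrArg (fun φ : Module.End B E => φ x) h1
    simpa [Module.algebraMap_end_apply] using h3
  have hCHC : ∀ g, αC g * αC g - t g • αC g + d g • 1 = 0 := by
    intro g
    apply Subtype.ext
    have := hCH g
    simpa [hαC] using this
  obtain ⟨Ψ, hΨ⟩ := ffc_lift_alg hπ r hnil hfaithC αC hspanC t d hCHC ρbar hspan htr hdet
  obtain ⟨Ψe, hΨe⟩ : ∃ Ψe : Matrix (Fin 2) (Fin 2) B ≃ₐ[B] Cs, ∀ X, Ψe X = Ψ X :=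
    ⟨AlgEquiv.ofBijective Ψ hΨ, fun X => rfl⟩
  obtain ⟨ρB, hρB⟩ : ∃ ρB : G →* Matrix (Fin 2) (Fin 2) B, ∀ g, ρB g = Ψe.symm (αC g) :=
    ⟨(Ψe.symm : Cs →* Matrix (Fin 2) (Fin 2) B).comp αC, fun g => rfl⟩
  obtain ⟨s, j, hj, hjX⟩ := ffc_embed (Cs.val.comp Ψe.toAlgHom) hfaith
  refine ⟨ρB, s, j, hj, fun g v i => ?_, fun g => ?_⟩
  · rw [hjX]
    congr 1
    show ((Ψe (ρB g) : Cs) : Module.End B E) = α g
    rw [hρB, AlgEquiv.apply_symm_apply, hαC]
  · have h1 := congrArg Ψe.symm (hCHC g)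
    rw [map_zero, map_add, map_sub, map_mul, map_smul, map_smul, map_one, ← hρB] at h1
    exact h1

end Main

end Fermat.Agent.FF
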