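/-
Project FF, cell [CAR] (S32 from the S19 pipeline), leaf [CAR-MOD], abstract part (helper21).

* `ffc_ar`      : Artin–Rees for a faithful finite module over a Noetherian ring: an element
                  mapping `X` into `J^N X`, `N ≫ 0`, lies in `J^n`;
* `ffc_quotAct` : the action induced on `X ⧸ J X`;
* `ffc_mod_abs` : the module-theoretic comparison: if a Noetherian ring `𝔸` acts faithfully on a
  finite module `X` with a commuting group action, `ν : 𝔸 → A'` is onto a local ring, `ρ₁ : G →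
  GL₂(A')` spans `M₂(A')`, and on every `X ⧸ (ker ν)^N X` the group elements satisfy quadratic
  equations over `𝔸` lifting the characteristic polynomials of `ρ₁`, then `A'²` (with `ρ₁`) is an
  equivariant quotient of a `G`-submodule of some `(X ⧸ (ker ν)^N X)^s`.
  [`B := 𝔸 ⧸ Ann(X ⧸ J^N X)` is Artinian with nilpotent `ker (B → A')`; `ffc_lift`; `ffc_rigid`.]
Mathlib + `Car/Lift.lean`, prefix `ffc_`.
-/
import Mathlib
import Fermat.Agent.FF.Car.Lift

set_option autoImplicit false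

namespace Fermat.Agent.FF

open Matrix

section AR

variable {R : Type*} [CommRing R] [IsNoetherianRing R] {X : Type*} [AddCommGroup X] [Module R X]
  [Module.Finite R X]

/-- **Artin–Rees for a faithful finite module**: an element which maps `X` into `J^N X`, `N ≫ 0`,
lies in `J^n`. -/
theorem ffc_ar (J : Ideal R) (hfaith : ∀ a : R, (∀ x : X, a • x = 0) → a = 0) (n : ℕ) :
    ∃ N : ℕ, ∀ a : R, (∀ x : X, a • x ∈ (J ^ N) • (⊤ : Submodule R X)) → a ∈ J ^ n := by
  classical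
  obtain ⟨s, m, hm⟩ := Module.Finite.exists_fin (R := R) (M := X)
  let φ : R →ₗ[R] (Fin s → X) := LinearMap.pi fun i => LinearMap.toSpanSingleton R X (m i)
  have hφ : ∀ a i, φ a i = a • m i := fun a i => rfl
  have hφinj : Function.Injective φ := by
    rw [injective_iff_map_eq_zero]
    intro a ha
    apply hfaith
    intro x
    have hx : x ∈ Submodule.span R (Set.range m) := hm ▸ Submodule.mem_top
    induction hx using Submodule.span_induction with
    | mem x hx =>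
      obtain ⟨i, rfl⟩ := hx
      rw [← hφ, ha]
      rfl
    | zero => rw [smul_zero]
    | add x y _ _ hx hy => rw [smul_add, hx, hy, add_zero]
    | smul c x _ hx => rw [smul_comm, hx, smul_zero]
  obtain ⟨k, hk⟩ := Ideal.exists_pow_inf_eq_pow_smul J (LinearMap.range φ)
  refine ⟨n + k, fun a ha => ?_⟩
  have h1 : φ a ∈ (J ^ (n + k)) • (⊤ : Submodule R (Fin s → X)) := by
    have h2 : φ a = ∑ i, LinearMap.single R (fun _ : Fin s => X) i (a • m i) := by
      funext j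
      rw [Finset.sum_apply]
      simp only [LinearMap.coe_single]
      rw [Finset.sum_eq_single j]
      · rw [Pi.single_eq_same, hφ]
      · intro i _ hij
        rw [Pi.single_eq_of_ne' hij]
      · intro h
        exact absurd (Finset.mem_univ j) h
    rw [h2]
    refine Submodule.sum_mem _ fun i _ => ?_
    have h3 : LinearMap.single R (fun _ : Fin s => X) i (a • m i) ∈
        Submodule.map (LinearMap.single R (fun _ : Fin s => X) i)
          ((J ^ (n + k)) • (⊤ : Submodule R X)) := Submodule.mem_map_of_mem (ha (m i))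
    rw [Submodule.map_smul''] at h3
    exact Submodule.smul_mono le_rfl le_top h3
  have h4 : φ a ∈ (J ^ (n + k)) • (⊤ : Submodule R (Fin s → X)) ⊓ LinearMap.range φ :=
    ⟨h1, ⟨a, rfl⟩⟩
  rw [hk (n + k) (Nat.le_add_left k n), Nat.add_sub_cancel] at h4
  have h5 : (J ^ n) • ((J ^ k) • (⊤ : Submodule R (Fin s → X)) ⊓ LinearMap.range φ) ≤
      Submodule.map φ (J ^ n) := by
    calc (J ^ n) • ((J ^ k) • (⊤ : Submodule R (Fin s → X)) ⊓ LinearMap.range φ)
        ≤ (J ^ n) • LinearMap.range φ := Submodule.smul_mono le_rfl inf_le_right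
      _ = (J ^ n) • Submodule.map φ ⊤ := by rw [LinearMap.range_eq_map]
      _ = Submodule.map φ ((J ^ n) • (⊤ : Submodule R R)) := (Submodule.map_smul'' _ _ _).symm
      _ = Submodule.map φ (J ^ n) := by rw [smul_eq_mul, Ideal.mul_top]
  obtain ⟨a', ha', haa'⟩ := h5 h4
  rw [← hφinj haa']
  exact ha'

end AR

section ModAbs

universe u v

variable {𝔸 : Type u} [CommRing 𝔸] {X : Type v} [AddCommGroup X] [Module 𝔸 X]
  {G : Type*} [Group G]

/-- the action induced on `X ⧸ J X` by an `𝔸`-linear action on `X` -/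
def ffc_quotAct (J : Ideal 𝔸) (ρX : G →* Module.End 𝔸 X) :
    G →* Module.End 𝔸 (X ⧸ J • (⊤ : Submodule 𝔸 X)) where
  toFun g := Submodule.mapQ _ _ (ρX g) (by
    rw [← Submodule.map_le_iff_le_comap, Submodule.map_smul'']
    exact Submodule.smul_mono le_rfl le_top)
  map_one' := by
    apply Submodule.linearMap_qext
    ext x
    simp
  map_mul' g h := by
    apply Submodule.linearMap_qext
    ext x
    simp [Module.End.mul_apply]

theorem ffc_quotAct_mk (J : Ideal 𝔸) (ρX : G →* Module.End 𝔸 X) (g : G) (x : X) :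
    ffc_quotAct J ρX g (Submodule.Quotient.mk x) = Submodule.Quotient.mk (ρX g x) := rfl

/-- auxiliary form of `ffc_mod_abs` for an arbitrary stable submodule `E` -/
theorem ffc_mod_abs_aux [Module.Finite 𝔸 X] {A' : Type*} [CommRing A']
    [IsLocalRing A'] (ν : 𝔸 →+* A') (hν : Function.Surjective ν)
    (ρX : G →* Module.End 𝔸 X)
    (ρ₁ : G →* Matrix (Fin 2) (Fin 2) A') (hspan : Submodule.span A' (Set.range ρ₁) = ⊤)
    (E : Submodule 𝔸 X) (αE : G →* Module.End 𝔸 (X ⧸ E))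
    (hαE : ∀ g x, αE g (Submodule.Quotient.mk x) = Submodule.Quotient.mk (ρX g x))
    (hN : ∀ a : 𝔸, (∀ x : X, a • x ∈ E) → ν a = 0)
    (N : ℕ) (hJN : ∀ a ∈ (RingHom.ker ν) ^ N, ∀ x : X, a • x ∈ E)
    (hCH : ∀ g : G, ∃ a d : 𝔸, ν a = (ρ₁ g).trace ∧ ν d = (ρ₁ g).det ∧
      ∀ x : X, ρX g (ρX g x) - a • ρX g x + d • x ∈ E) :
    ∃ (s : ℕ) (W : Type u) (_ : AddCommGroup W) (actW : G →* AddMonoid.End W)
      (j : W →+ (Fin s → X ⧸ E)) (f : W →+ (Fin 2 → A')),
      Function.Injective j ∧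
      (∀ (g : G) (w : W) (i : Fin s), j (actW g w) i = αE g (j w i)) ∧
      Function.Surjective f ∧ ∀ (g : G) (w : W), f (actW g w) = (ρ₁ g).mulVec (f w) := by
  classical
  -- the Artinian ring `B`
  let _ : Module (𝔸 ⧸ Module.annihilator 𝔸 (X ⧸ E)) (X ⧸ E) := Module.quotientAnnihilator
  have hsmul : ∀ (a : 𝔸) (y : X ⧸ E),
      (Ideal.Quotient.mk (Module.annihilator 𝔸 (X ⧸ E)) a) • y = a • y := fun a y => rfl
  have hann : ∀ a : 𝔸, a ∈ Module.annihilator 𝔸 (X ⧸ E) → ν a = 0 := by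
    intro a ha
    apply hN
    intro x
    have h1 : a • (Submodule.Quotient.mk x : X ⧸ E) = 0 := Module.mem_annihilator.mp ha _
    rw [← Submodule.Quotient.mk_smul, Submodule.Quotient.mk_eq_zero] at h1
    exact h1
  have hJN' : ∀ a ∈ (RingHom.ker ν) ^ N, a ∈ Module.annihilator 𝔸 (X ⧸ E) := by
    intro a ha
    rw [Module.mem_annihilator]
    intro y
    obtain ⟨x, rfl⟩ := Submodule.Quotient.mk_surjective E y
    rw [← Submodule.Quotient.mk_smul, Submodule.Quotient.mk_eq_zero]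
    exact hJN a ha x
  obtain ⟨νB, hνB⟩ : ∃ νB : (𝔸 ⧸ Module.annihilator 𝔸 (X ⧸ E)) →+* A',
      ∀ a, νB (Ideal.Quotient.mk _ a) = ν a :=
    ⟨Ideal.Quotient.lift _ ν hann, fun a => rfl⟩
  have hνBsurj : Function.Surjective νB := by
    intro c
    obtain ⟨a, rfl⟩ := hν c
    exact ⟨Ideal.Quotient.mk _ a, hνB a⟩
  let _ : Algebra (𝔸 ⧸ Module.annihilator 𝔸 (X ⧸ E)) A' := νB.toAlgebra
  have halg : ∀ b, algebraMap (𝔸 ⧸ Module.annihilator 𝔸 (X ⧸ E)) A' b = νB b := fun b => rfl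
  have hnil : (RingHom.ker (algebraMap (𝔸 ⧸ Module.annihilator 𝔸 (X ⧸ E)) A')) ^ N = ⊥ := by
    have h1 : RingHom.ker (algebraMap (𝔸 ⧸ Module.annihilator 𝔸 (X ⧸ E)) A') ≤
        (RingHom.ker ν).map (Ideal.Quotient.mk (Module.annihilator 𝔸 (X ⧸ E))) := by
      intro b hb
      obtain ⟨a, rfl⟩ := Ideal.Quotient.mk_surjective b
      rw [RingHom.mem_ker, halg, hνB] at hb
      exact Ideal.mem_map_of_mem _ hb
    rw [eq_bot_iff]
    refine (Ideal.pow_right_mono h1 N).trans ?_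
    rw [← Ideal.map_pow, Ideal.map_le_iff_le_comap]
    intro a ha
    rw [Ideal.mem_comap, Ideal.mem_bot, Ideal.Quotient.eq_zero_iff_mem]
    exact hJN' a ha
  have hfaithB : ∀ b : 𝔸 ⧸ Module.annihilator 𝔸 (X ⧸ E), (∀ y : X ⧸ E, b • y = 0) → b = 0 := by
    intro b hb
    obtain ⟨a, rfl⟩ := Ideal.Quotient.mk_surjective b
    rw [Ideal.Quotient.eq_zero_iff_mem, Module.mem_annihilator]
    intro y
    rw [← hsmul]
    exact hb y
  have hfinB : Module.Finite (𝔸 ⧸ Module.annihilator 𝔸 (X ⧸ E)) (X ⧸ E) := by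
    have h1 : Module.Finite 𝔸 (X ⧸ E) := inferInstance
    obtain ⟨S, hS⟩ := h1.fg_top
    refine ⟨⟨S, ?_⟩⟩
    rw [eq_top_iff]
    intro y hy0
    clear hy0
    have hy : y ∈ Submodule.span 𝔸 (S : Set (X ⧸ E)) := hS ▸ Submodule.mem_top
    induction hy using Submodule.span_induction with
    | mem y hy => exact Submodule.subset_span hy
    | zero => exact Submodule.zero_mem _
    | add y z _ _ hy hz => exact Submodule.add_mem _ hy hz
    | smul a y _ hy =>
      rw [← hsmul]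
      exact Submodule.smul_mem _ _ hy
  -- the action on `X ⧸ E`
  obtain ⟨α, hα⟩ : ∃ α : G →* Module.End (𝔸 ⧸ Module.annihilator 𝔸 (X ⧸ E)) (X ⧸ E),
      ∀ g y, α g y = αE g y :=
    ⟨{ toFun := fun g =>
        { toFun := fun y => αE g y
          map_add' := fun y z => map_add _ y z
          map_smul' := fun b y => by
            obtain ⟨a, rfl⟩ := Ideal.Quotient.mk_surjective b
            exact map_smul (αE g) a y }
       map_one' := LinearMap.ext fun y => by
        show αE 1 y = y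
        rw [map_one]
        rfl
       map_mul' := fun g h => LinearMap.ext fun y => by
        show αE (g * h) y = αE g (αE h y)
        rw [map_mul]
        rfl }, fun g y => rfl⟩
  -- the Cayley–Hamilton data
  choose a d ha hd hCHx using hCH
  obtain ⟨t, ht⟩ : ∃ t : G → 𝔸 ⧸ Module.annihilator 𝔸 (X ⧸ E),
      ∀ g, t g = Ideal.Quotient.mk _ (a g) := ⟨fun g => Ideal.Quotient.mk _ (a g), fun g => rfl⟩
  obtain ⟨dd, hdd⟩ : ∃ dd : G → 𝔸 ⧸ Module.annihilator 𝔸 (X ⧸ E),
      ∀ g, dd g = Ideal.Quotient.mk _ (d g) := ⟨fun g => Ideal.Quotient.mk _ (d g), fun g => rfl⟩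
  have hCHE : ∀ g, α g * α g - t g • α g + dd g • 1 = 0 := by
    intro g
    apply LinearMap.ext
    intro y
    obtain ⟨x, rfl⟩ := Submodule.Quotient.mk_surjective E y
    show α g (α g (Submodule.Quotient.mk x)) - t g • α g (Submodule.Quotient.mk x) +
      dd g • Submodule.Quotient.mk x = 0
    rw [hα, hα, hαE, hαE, ht, hdd, hsmul, hsmul, ← Submodule.Quotient.mk_smul,
      ← Submodule.Quotient.mk_smul, ← Submodule.Quotient.mk_sub, ← Submodule.Quotient.mk_add,
      Submodule.Quotient.mk_eq_zero]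
    exact hCHx g x
  have htr : ∀ g, algebraMap (𝔸 ⧸ Module.annihilator 𝔸 (X ⧸ E)) A' (t g) = (ρ₁ g).trace := by
    intro g
    rw [halg, ht, hνB, ha]
  have hdet : ∀ g, algebraMap (𝔸 ⧸ Module.annihilator 𝔸 (X ⧸ E)) A' (dd g) = (ρ₁ g).det := by
    intro g
    rw [halg, hdd, hνB, hd]
  obtain ⟨ρB, s, j, hj, hjeq, hρB⟩ :=
    ffc_lift hνBsurj N hnil hfaithB α t dd hCHE ρ₁ hspan htr hdet
  -- push forward to `A'` and compare with `ρ₁`
  obtain ⟨ρ₂, hρ₂⟩ : ∃ ρ₂ : G →* Matrix (Fin 2) (Fin 2) A', ∀ g, ρ₂ g = νB.mapMatrix (ρB g) :=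
    ⟨(RingHom.toMonoidHom (νB.mapMatrix (m := Fin 2))).comp ρB, fun g => rfl⟩
  have hCH₂ : ∀ g, ρ₂ g * ρ₂ g - (ρ₁ g).trace • ρ₂ g + (ρ₁ g).det • 1 = 0 := by
    intro g
    have h1 := congrArg (νB.mapMatrix) (hρB g)
    rw [map_zero, map_add, map_sub, map_mul] at h1
    have h2 : νB.mapMatrix (t g • ρB g) = νB (t g) • νB.mapMatrix (ρB g) := by
      ext i j
      simp
    have h3 : νB.mapMatrix (dd g • (1 : Matrix (Fin 2) (Fin 2) _)) = νB (dd g) • 1 := by
      ext i j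
      simp only [RingHom.mapMatrix_apply, Matrix.map_apply, Matrix.smul_apply, Matrix.one_apply,
        smul_eq_mul, mul_ite, mul_one, mul_zero]
      split_ifs
      · rfl
      · exact map_zero νB
    rw [h2, h3, ← halg, htr, ← halg (dd g), hdet, ← hρ₂] at h1
    exact h1
  obtain ⟨Q, hQ, hQeq⟩ := ffc_rigid ρ₁ ρ₂ hspan hCH₂
  have hQ1 : Q⁻¹ * Q = 1 := Matrix.nonsing_inv_mul Q hQ
  have hQ2 : Q * Q⁻¹ = 1 := Matrix.mul_nonsing_inv Q hQ
  have hQconj : ∀ g, Q⁻¹ * ρ₂ g = ρ₁ g * Q⁻¹ := by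
    intro g
    calc Q⁻¹ * ρ₂ g = Q⁻¹ * ρ₂ g * (Q * Q⁻¹) := by rw [hQ2, mul_one]
      _ = Q⁻¹ * (ρ₂ g * Q) * Q⁻¹ := by simp only [mul_assoc]
      _ = Q⁻¹ * (Q * ρ₁ g) * Q⁻¹ := by rw [hQeq]
      _ = (Q⁻¹ * Q) * ρ₁ g * Q⁻¹ := by simp only [mul_assoc]
      _ = ρ₁ g * Q⁻¹ := by rw [hQ1, one_mul]
  -- the subquotient
  obtain ⟨actW, hactW⟩ : ∃ actW : G →* AddMonoid.End (Fin 2 → 𝔸 ⧸ Module.annihilator 𝔸 (X ⧸ E)),
      ∀ g w, actW g w = (ρB g).mulVec w :=
    ⟨{ toFun := fun g => ((ρB g).mulVecLin).toAddMonoidHom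
       map_one' := AddMonoidHom.ext fun w => by
        show (ρB 1).mulVec w = w
        rw [map_one, Matrix.one_mulVec]
       map_mul' := fun g h => AddMonoidHom.ext fun w => by
        show (ρB (g * h)).mulVec w = (ρB g).mulVec ((ρB h).mulVec w)
        rw [map_mul, Matrix.mulVec_mulVec] }, fun g w => rfl⟩
  obtain ⟨f, hf⟩ : ∃ f : (Fin 2 → 𝔸 ⧸ Module.annihilator 𝔸 (X ⧸ E)) →+ (Fin 2 → A'),
      ∀ w, f w = Q⁻¹.mulVec (fun i => νB (w i)) :=
    ⟨(Q⁻¹.mulVecLin.toAddMonoidHom).comp ((νB : _ →+ A').compLeft (Fin 2)), fun w => rfl⟩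
  refine ⟨s, Fin 2 → 𝔸 ⧸ Module.annihilator 𝔸 (X ⧸ E), inferInstance, actW, j.toAddMonoidHom, f,
    hj, fun g w i => ?_, fun c => ?_, fun g w => ?_⟩
  · show j (actW g w) i = αE g (j w i)
    rw [hactW, hjeq, hα]
  · choose v hv using fun i => hνBsurj (Q.mulVec c i)
    refine ⟨v, ?_⟩
    rw [hf]
    have h1 : (fun i => νB (v i)) = Q.mulVec c := funext hv
    rw [h1, Matrix.mulVec_mulVec, hQ1, Matrix.one_mulVec]
  · rw [hf, hf, hactW]
    have h1 : (fun i => νB ((ρB g).mulVec w i)) = (ρ₂ g).mulVec (fun i => νB (w i)) := by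
      rw [hρ₂]
      funext i
      simp only [Matrix.mulVec, dotProduct, map_sum, map_mul, RingHom.mapMatrix_apply,
        Matrix.map_apply]
    rw [h1, Matrix.mulVec_mulVec, Matrix.mulVec_mulVec, hQconj]

/-- **The module-theoretic comparison (abstract form).**  `𝔸` a Noetherian ring acting faithfully on
a finite module `X` with a commuting action of a group `G`; `ν : 𝔸 → A'` a surjection onto a local
ring, `J = ker ν`; `ρ₁ : G → GL₂(A')` spanning `M₂(A')`; for every `N` and `g` the operator `g` on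
`X ⧸ J^N X` satisfies a quadratic equation over `𝔸` lifting the characteristic polynomial of
`ρ₁ g`.  Then, for some `N` and `s`, the `G`-module `A'²` (via `ρ₁`) is a quotient of a
`G`-submodule of `(X ⧸ J^N X)^s`. -/
theorem ffc_mod_abs [IsNoetherianRing 𝔸] [Module.Finite 𝔸 X] {A' : Type*} [CommRing A']
    [IsLocalRing A'] (ν : 𝔸 →+* A') (hν : Function.Surjective ν)
    (hfaith : ∀ a : 𝔸, (∀ x : X, a • x = 0) → a = 0)
    (ρX : G →* Module.End 𝔸 X)
    (ρ₁ : G →* Matrix (Fin 2) (Fin 2) A') (hspan : Submodule.span A' (Set.range ρ₁) = ⊤)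
    (hCH : ∀ (N : ℕ) (g : G), ∃ a d : 𝔸, ν a = (ρ₁ g).trace ∧ ν d = (ρ₁ g).det ∧
      ∀ x : X, ρX g (ρX g x) - a • ρX g x + d • x ∈
        ((RingHom.ker ν) ^ N) • (⊤ : Submodule 𝔸 X)) :
    ∃ (N s : ℕ) (W : Type u) (_ : AddCommGroup W) (actW : G →* AddMonoid.End W)
      (j : W →+ (Fin s → X ⧸ ((RingHom.ker ν) ^ N) • (⊤ : Submodule 𝔸 X)))
      (f : W →+ (Fin 2 → A')),
      Function.Injective j ∧
      (∀ (g : G) (w : W) (i : Fin s), j (actW g w) i = ffc_quotAct _ ρX g (j w i)) ∧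
      Function.Surjective f ∧ ∀ (g : G) (w : W), f (actW g w) = (ρ₁ g).mulVec (f w) := by
  obtain ⟨N, hN⟩ := ffc_ar (RingHom.ker ν) hfaith 1
  rw [pow_one] at hN
  refine ⟨N, ?_⟩
  exact ffc_mod_abs_aux ν hν ρX ρ₁ hspan _ (ffc_quotAct _ ρX) (fun g x => rfl)
    (fun a ha => hN a ha) N
    (fun a ha x => Submodule.smul_mem_smul ha Submodule.mem_top) (hCH N)

end ModAbs

end Fermat.Agent.FF
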