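/-
Project FF, cell [CAR] (S32 from S19), leaf [CAR-MOD], concrete form (helper21).  Prefix `ffc_ia_`.

Setting: `Λ` a commutative ring (`ℤ_p`), `T` a flat noetherian local `Λ`-algebra, `Tp` a finite free
`Λ`-module (the Tate module) with a commutative finite `Λ`-algebra `𝕋c ↪ End_Λ Tp` (the Hecke
algebra), a `Λ`-algebra map `lam : 𝕋c → T`, a group `G` acting on `Tp` commuting with `𝕋c`, a
character `ε : G → Λ`, an ideal `I ≠ ⊤` of `T` containing a power of `ϖ ∈ Λ` with `T / ϖ^M` finite,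
a representation `ρ₁ : G → GL₂(T/I)` spanning `M₂(T/I)` with determinant `ε`, whose traces are
approximated by Hecke operators `c` with `c ≡ ρ g + ε g ρ g⁻¹ mod ϖ^m` on `Tp` (`ur_approx`).

* `ffc_ia_Theta`, `ffc_ia_module` : `X := T ⊗ Tp` as a (faithful: `ffc_ia_Theta_injective`) module
  over `𝔸 := T ⊗ 𝕋c`; `ffc_ia_rhoX` the `𝔸`-linear action of `G`; `ffc_ia_mu : 𝔸 → T`;
* `ffc_ia_CH` : the Cayley–Hamilton congruence on `X`; `ffc_ia_reps`, `ffc_ia_q0`;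
* **`ffc_inst_main`** : there are `E` (a `G`-quotient of `Tp^r` through `(Tp/ϖ^M)^r`), and
  `W ↪ E^s`, `W ↠ (T/I)²` equivariant (`ffc_mod_abs` applied to `𝔸`, `X`, `ν : 𝔸 → T → T/I`).
-/
import Mathlib
import Fermat.Agent.FF.Car.ModAbs

set_option autoImplicit false
set_option linter.style.haveILetI false

noncomputable section

namespace Fermat.Agent.FF

open scoped TensorProduct

section InstAbs

variable {Λ : Type} [CommRing Λ]
  {T : Type} [CommRing T] [Algebra Λ T]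
  {Tp : Type} [AddCommGroup Tp] [Module Λ Tp]
  {𝕋c : Type} [CommRing 𝕋c] [Algebra Λ 𝕋c]

/-- the base change of the Hecke action: `T ⊗ 𝕋c → End_T (T ⊗ Tp)` -/
def ffc_ia_Theta (ι : 𝕋c →ₐ[Λ] Module.End Λ Tp) :
    (T ⊗[Λ] 𝕋c) →ₐ[T] Module.End T (T ⊗[Λ] Tp) :=
  (LinearMap.tensorProductEnd Λ T Tp).comp (Algebra.TensorProduct.map (AlgHom.id T T) ι)

theorem ffc_ia_Theta_tmul (ι : 𝕋c →ₐ[Λ] Module.End Λ Tp) (t : T) (c : 𝕋c) :
    ffc_ia_Theta (T := T) ι (t ⊗ₜ[Λ] c) = t • (ι c).baseChange T := by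
  simp [ffc_ia_Theta, LinearMap.tensorProductEnd, LinearMap.tensorProduct]

theorem ffc_ia_Theta_tmul_apply (ι : 𝕋c →ₐ[Λ] Module.End Λ Tp) (t : T) (c : 𝕋c) (t' : T)
    (v : Tp) :
    ffc_ia_Theta (T := T) ι (t ⊗ₜ[Λ] c) (t' ⊗ₜ[Λ] v) = (t * t') ⊗ₜ[Λ] (ι c v) := by
  rw [ffc_ia_Theta_tmul, LinearMap.smul_apply, LinearMap.baseChange_tmul, TensorProduct.smul_tmul',
    smul_eq_mul]

/-- faithfulness -/
theorem ffc_ia_Theta_injective [Module.Flat Λ T] [Module.Free Λ Tp] [Module.Finite Λ Tp]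
    (ι : 𝕋c →ₐ[Λ] Module.End Λ Tp) (hι : Function.Injective ι) :
    Function.Injective (ffc_ia_Theta (T := T) ι) := by
  have : Module.FinitePresentation Λ Tp := Module.finitePresentation_of_projective Λ Tp
  have hbc := Module.FinitePresentation.isBaseChange_map Λ Tp Tp T
  have h1 : ∀ a : T ⊗[Λ] 𝕋c, (ffc_ia_Theta (T := T) ι a : Module.End T (T ⊗[Λ] Tp)) =
      hbc.equiv ((ι.toLinearMap.lTensor T) a) := by
    intro a
    induction a using TensorProduct.induction_on with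
    | zero => simp
    | tmul t c =>
      rw [ffc_ia_Theta_tmul, LinearMap.lTensor_tmul, IsBaseChange.equiv_tmul]
      rfl
    | add x y hx hy => rw [map_add, hx, hy, map_add, map_add]
  have h2 : Function.Injective (ι.toLinearMap.lTensor T) :=
    Module.Flat.lTensor_preserves_injective_linearMap _ hι
  intro a b hab
  apply h2
  apply hbc.equiv.injective
  rw [← h1, ← h1, hab]

/-- the `T ⊗ 𝕋c`-module structure on `T ⊗ Tp` -/
@[reducible] def ffc_ia_module (ι : 𝕋c →ₐ[Λ] Module.End Λ Tp) :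
    Module (T ⊗[Λ] 𝕋c) (T ⊗[Λ] Tp) :=
  Module.compHom (T ⊗[Λ] Tp) (ffc_ia_Theta (T := T) ι).toRingHom

theorem ffc_ia_smul_def (ι : 𝕋c →ₐ[Λ] Module.End Λ Tp) (a : T ⊗[Λ] 𝕋c) (x : T ⊗[Λ] Tp) :
    letI := ffc_ia_module (T := T) ι
    a • x = ffc_ia_Theta (T := T) ι a x := rfl

theorem ffc_ia_isScalarTower (ι : 𝕋c →ₐ[Λ] Module.End Λ Tp) :
    letI := ffc_ia_module (T := T) ι
    IsScalarTower T (T ⊗[Λ] 𝕋c) (T ⊗[Λ] Tp) := by
  letI := ffc_ia_module (T := T) ι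
  refine ⟨fun t a x => ?_⟩
  rw [ffc_ia_smul_def, ffc_ia_smul_def, map_smul, LinearMap.smul_apply]

/-- the Galois action on `T ⊗ Tp`, linear over `T ⊗ 𝕋c` -/
def ffc_ia_rhoX (ι : 𝕋c →ₐ[Λ] Module.End Λ Tp) {G : Type} [Group G]
    (ρ : G →* Module.End Λ Tp) (hcomm : ∀ c g, Commute (ι c) (ρ g)) :
    letI := ffc_ia_module (T := T) ι
    G →* Module.End (T ⊗[Λ] 𝕋c) (T ⊗[Λ] Tp) :=
  letI := ffc_ia_module (T := T) ι
  { toFun := fun g =>
      { toFun := fun x => (ρ g).baseChange T x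
        map_add' := fun x y => map_add _ x y
        map_smul' := fun a x => by
          rw [RingHom.id_apply, ffc_ia_smul_def, ffc_ia_smul_def]
          induction a using TensorProduct.induction_on with
          | zero => simp
          | tmul t c =>
            rw [ffc_ia_Theta_tmul, LinearMap.smul_apply, LinearMap.smul_apply, map_smul]
            congr 1
            rw [← LinearMap.comp_apply, ← LinearMap.comp_apply, ← LinearMap.baseChange_comp,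
              ← LinearMap.baseChange_comp]
            congr 2
            exact (hcomm c g).eq.symm
          | add a b ha hb =>
            rw [map_add, LinearMap.add_apply, LinearMap.add_apply, map_add, ha, hb] }
    map_one' := by
      apply LinearMap.ext
      intro x
      show (ρ 1).baseChange T x = x
      rw [map_one, LinearMap.baseChange_one]
      rfl
    map_mul' := fun g h => by
      apply LinearMap.ext
      intro x
      show (ρ (g * h)).baseChange T x = (ρ g).baseChange T ((ρ h).baseChange T x)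
      rw [map_mul, LinearMap.baseChange_mul]
      rfl }

theorem ffc_ia_rhoX_apply (ι : 𝕋c →ₐ[Λ] Module.End Λ Tp) {G : Type} [Group G]
    (ρ : G →* Module.End Λ Tp) (hcomm : ∀ c g, Commute (ι c) (ρ g)) (g : G) (x : T ⊗[Λ] Tp) :
    letI := ffc_ia_module (T := T) ι
    ffc_ia_rhoX (T := T) ι ρ hcomm g x = (ρ g).baseChange T x := rfl

/-- the augmentation `T ⊗ 𝕋c → T` -/
def ffc_ia_mu (lam : 𝕋c →ₐ[Λ] T) : (T ⊗[Λ] 𝕋c) →ₐ[T] T :=
  Algebra.TensorProduct.lift (AlgHom.id T T) lam (fun _ _ => Commute.all _ _)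

theorem ffc_ia_mu_tmul (lam : 𝕋c →ₐ[Λ] T) (t : T) (c : 𝕋c) :
    ffc_ia_mu lam (t ⊗ₜ[Λ] c) = t * lam c := by
  simp [ffc_ia_mu]

/-- elements of `T ⊗ Tp` with small values -/
theorem ffc_ia_baseChange_small (F : Module.End Λ Tp) (ϖ : Λ) (m : ℕ)
    (hF : ∀ v, ∃ y, F v = ϖ ^ m • y) (x : T ⊗[Λ] Tp) :
    ∃ z : T ⊗[Λ] Tp, F.baseChange T x = (algebraMap Λ T ϖ ^ m) • z := by
  induction x using TensorProduct.induction_on with
  | zero => exact ⟨0, by simp⟩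
  | tmul t v =>
    obtain ⟨y, hy⟩ := hF v
    refine ⟨t ⊗ₜ[Λ] y, ?_⟩
    rw [LinearMap.baseChange_tmul, hy, TensorProduct.tmul_smul, ← map_pow, algebraMap_smul]
  | add a b ha hb =>
    obtain ⟨z₁, h₁⟩ := ha
    obtain ⟨z₂, h₂⟩ := hb
    exact ⟨z₁ + z₂, by rw [map_add, h₁, h₂, smul_add]⟩

/-- the Cayley–Hamilton congruence on `T ⊗ Tp` -/
theorem ffc_ia_CH (ι : 𝕋c →ₐ[Λ] Module.End Λ Tp) {G : Type} [Group G]
    (ρ : G →* Module.End Λ Tp) (hcomm : ∀ c g, Commute (ι c) (ρ g)) (ε : G →* Λ) (ϖ : Λ) (g : G)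
    (m : ℕ) (c : 𝕋c) (hc : ∀ v, ∃ y, (ι c - (ρ g + ε g • ρ g⁻¹)) v = ϖ ^ m • y)
    (x : T ⊗[Λ] Tp) :
    letI := ffc_ia_module (T := T) ι
    ∃ z : T ⊗[Λ] Tp, ffc_ia_rhoX (T := T) ι ρ hcomm g (ffc_ia_rhoX (T := T) ι ρ hcomm g x) -
      ((1 : T) ⊗ₜ[Λ] c) • ffc_ia_rhoX (T := T) ι ρ hcomm g x +
      (algebraMap Λ (T ⊗[Λ] 𝕋c) (ε g)) • x = (algebraMap Λ T ϖ ^ m) • z := by
  letI := ffc_ia_module (T := T) ι
  let F : Module.End Λ Tp := ρ g * ρ g - ι c * ρ g + ε g • 1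
  have hF : ∀ v, ∃ y, F v = ϖ ^ m • y := by
    intro v
    obtain ⟨y, hy⟩ := hc (ρ g v)
    refine ⟨-y, ?_⟩
    rw [smul_neg, ← hy]
    have h1 : ρ g⁻¹ (ρ g v) = v := by
      rw [← Module.End.mul_apply, ← map_mul, inv_mul_cancel, map_one, Module.End.one_apply]
    simp only [F, LinearMap.sub_apply, LinearMap.add_apply, Module.End.mul_apply,
      LinearMap.smul_apply, Module.End.one_apply, h1]
    abel
  obtain ⟨z, hz⟩ := ffc_ia_baseChange_small (T := T) F ϖ m hF x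
  refine ⟨z, ?_⟩
  rw [← hz, ffc_ia_rhoX_apply, ffc_ia_rhoX_apply, ffc_ia_smul_def, ffc_ia_smul_def,
    ffc_ia_Theta_tmul, one_smul]
  have h2 : ffc_ia_Theta (T := T) ι (algebraMap Λ (T ⊗[Λ] 𝕋c) (ε g)) x = ε g • x := by
    rw [IsScalarTower.algebraMap_apply Λ T (T ⊗[Λ] 𝕋c), AlgHom.commutes,
      Module.algebraMap_end_apply, algebraMap_smul]
  rw [h2]
  simp only [F, LinearMap.baseChange_add, LinearMap.baseChange_sub, LinearMap.baseChange_mul,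
    LinearMap.baseChange_smul, LinearMap.baseChange_one, LinearMap.sub_apply,
    LinearMap.add_apply, Module.End.mul_apply, LinearMap.smul_apply, Module.End.one_apply]

/-- representatives of `T ⊗ Tp` modulo `ϖ` -/
theorem ffc_ia_reps (ϖT : T) [Finite (T ⧸ Ideal.span {ϖT})] :
    ∃ (r : ℕ) (t : Fin r → T), ∀ x : T ⊗[Λ] Tp, ∃ (y : Fin r → Tp) (z : T ⊗[Λ] Tp),
      x = ∑ i, t i ⊗ₜ[Λ] y i + ϖT • z := by
  classical
  obtain ⟨r, ⟨e⟩⟩ := Finite.exists_equiv_fin (T ⧸ Ideal.span {ϖT})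
  have hsurj : Function.Surjective (Ideal.Quotient.mk (Ideal.span {ϖT})) :=
    Ideal.Quotient.mk_surjective
  refine ⟨r, fun i => Function.surjInv hsurj (e.symm i), fun x => ?_⟩
  induction x using TensorProduct.induction_on with
  | zero => exact ⟨0, 0, by simp⟩
  | tmul t' v =>
    have h1 : Ideal.Quotient.mk (Ideal.span {ϖT})
        (t' - Function.surjInv hsurj (e.symm (e (Ideal.Quotient.mk _ t')))) = 0 := by
      rw [map_sub, Function.surjInv_eq hsurj, Equiv.symm_apply_apply, sub_self]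
    rw [Ideal.Quotient.eq_zero_iff_mem, Ideal.mem_span_singleton'] at h1
    obtain ⟨u, hu⟩ := h1
    refine ⟨Pi.single (e (Ideal.Quotient.mk _ t')) v, u ⊗ₜ[Λ] v, ?_⟩
    rw [Finset.sum_eq_single (e (Ideal.Quotient.mk _ t'))]
    · rw [Pi.single_eq_same, TensorProduct.smul_tmul', smul_eq_mul, ← TensorProduct.add_tmul,
        mul_comm, hu, add_sub_cancel]
    · intro b _ hb
      rw [Pi.single_eq_of_ne hb, TensorProduct.tmul_zero]
    · intro h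
      exact absurd (Finset.mem_univ _) h
  | add a b ha hb =>
    obtain ⟨y₁, z₁, h₁⟩ := ha
    obtain ⟨y₂, z₂, h₂⟩ := hb
    refine ⟨y₁ + y₂, z₁ + z₂, ?_⟩
    simp only [Pi.add_apply, TensorProduct.tmul_add, Finset.sum_add_distrib, smul_add]
    rw [h₁, h₂]
    abel

/-- the map `(x_i) ↦ ∑ t_i ⊗ x_i` -/
def ffc_ia_q0 {r : ℕ} (t : Fin r → T) : (Fin r → Tp) →+ (T ⊗[Λ] Tp) :=
  ∑ i, ((TensorProduct.mk Λ T Tp (t i)).toAddMonoidHom.comp
    (Pi.evalAddMonoidHom (fun _ : Fin r => Tp) i))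

theorem ffc_ia_q0_apply {r : ℕ} (t : Fin r → T) (x : Fin r → Tp) :
    ffc_ia_q0 (Λ := Λ) t x = ∑ i, t i ⊗ₜ[Λ] x i := by
  simp [ffc_ia_q0]

/-- **[CAR-MOD], concrete form.** -/
theorem ffc_inst_main [IsLocalRing T] [IsNoetherianRing T] [Module.Flat Λ T]
    [Module.Free Λ Tp] [Module.Finite Λ Tp] [Module.Finite Λ 𝕋c]
    (ι : 𝕋c →ₐ[Λ] Module.End Λ Tp) (hι : Function.Injective ι) (lam : 𝕋c →ₐ[Λ] T)
    {G : Type} [Group G] (ρ : G →* Module.End Λ Tp) (hcomm : ∀ c g, Commute (ι c) (ρ g))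
    (ε : G →* Λ) (ϖ : Λ)
    (hfin : ∀ M : ℕ, Finite (T ⧸ Ideal.span {algebraMap Λ T ϖ ^ M}))
    (I : Ideal T) (hI : I ≠ ⊤) (n : ℕ) (hϖ : algebraMap Λ T ϖ ^ n ∈ I)
    (ρ₁ : G →* Matrix (Fin 2) (Fin 2) (T ⧸ I))
    (hspan : Submodule.span (T ⧸ I) (Set.range ρ₁) = ⊤)
    (hdet : ∀ g, Ideal.Quotient.mk I (algebraMap Λ T (ε g)) = (ρ₁ g).det)
    (happrox : ∀ (g : G) (m : ℕ), ∃ c : 𝕋c, Ideal.Quotient.mk I (lam c) = (ρ₁ g).trace ∧
      ∀ v, ∃ y, (ι c - (ρ g + ε g • ρ g⁻¹)) v = ϖ ^ m • y) :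
    ∃ (E : Type) (_ : AddCommGroup E) (actE : G →* AddMonoid.End E) (M r : ℕ)
      (q₀ : (Fin r → Tp) →+ E),
      Function.Surjective q₀ ∧ (∀ g x, q₀ (fun i => ρ g (x i)) = actE g (q₀ x)) ∧
      (∀ x : Fin r → Tp, (∀ i, ∃ y, x i = ϖ ^ M • y) → q₀ x = 0) ∧
      ∃ (s : ℕ) (W : Type) (_ : AddCommGroup W) (actW : G →* AddMonoid.End W)
        (j : W →+ (Fin s → E)) (f : W →+ (Fin 2 → T ⧸ I)),
        Function.Injective j ∧ (∀ g w i, j (actW g w) i = actE g (j w i)) ∧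
        Function.Surjective f ∧ ∀ g w, f (actW g w) = (ρ₁ g).mulVec (f w) := by
  letI := ffc_ia_module (T := T) ι
  haveI := ffc_ia_isScalarTower (T := T) ι
  haveI : Module.Finite (T ⊗[Λ] 𝕋c) (T ⊗[Λ] Tp) :=
    Module.Finite.of_restrictScalars_finite T _ _
  haveI : IsNoetherianRing (T ⊗[Λ] 𝕋c) := IsNoetherianRing.of_finite T _
  haveI : Nontrivial (T ⧸ I) := Ideal.Quotient.nontrivial_iff.mpr hI
  haveI : IsLocalRing (T ⧸ I) :=
    IsLocalRing.of_surjective' (Ideal.Quotient.mk I) Ideal.Quotient.mk_surjective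
  let ν : (T ⊗[Λ] 𝕋c) →+* (T ⧸ I) := (Ideal.Quotient.mk I).comp (ffc_ia_mu lam).toRingHom
  have hν_tmul : ∀ (t : T) (c : 𝕋c), ν (t ⊗ₜ[Λ] c) = Ideal.Quotient.mk I (t * lam c) := by
    intro t c
    show Ideal.Quotient.mk I (ffc_ia_mu lam (t ⊗ₜ[Λ] c)) = _
    rw [ffc_ia_mu_tmul]
  have hν_alg : ∀ t : T, ν (algebraMap T (T ⊗[Λ] 𝕋c) t) = Ideal.Quotient.mk I t := by
    intro t
    show Ideal.Quotient.mk I (ffc_ia_mu lam (algebraMap T (T ⊗[Λ] 𝕋c) t)) = _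
    rw [AlgHom.commutes]
    rfl
  have hν : Function.Surjective ν := by
    intro y
    obtain ⟨t, rfl⟩ := Ideal.Quotient.mk_surjective y
    exact ⟨algebraMap T (T ⊗[Λ] 𝕋c) t, hν_alg t⟩
  have hfaith : ∀ a : T ⊗[Λ] 𝕋c, (∀ x : T ⊗[Λ] Tp, a • x = 0) → a = 0 := by
    intro a ha
    apply ffc_ia_Theta_injective (T := T) ι hι
    rw [map_zero]
    exact LinearMap.ext ha
  have hϖν : algebraMap T (T ⊗[Λ] 𝕋c) (algebraMap Λ T ϖ ^ n) ∈ RingHom.ker ν := by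
    rw [RingHom.mem_ker, hν_alg, Ideal.Quotient.eq_zero_iff_mem]
    exact hϖ
  have hkey : ∀ (N : ℕ) (z : T ⊗[Λ] Tp), (algebraMap Λ T ϖ ^ (n * N)) • z ∈
      ((RingHom.ker ν) ^ N) • (⊤ : Submodule (T ⊗[Λ] 𝕋c) (T ⊗[Λ] Tp)) := by
    intro N z
    have h1 : (algebraMap Λ T ϖ ^ (n * N)) • z =
        ((algebraMap T (T ⊗[Λ] 𝕋c) (algebraMap Λ T ϖ ^ n)) ^ N) • z := by
      rw [← map_pow (algebraMap T (T ⊗[Λ] 𝕋c)), algebraMap_smul, ← pow_mul]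
    rw [h1]
    exact Submodule.smul_mem_smul (Ideal.pow_mem_pow hϖν N) Submodule.mem_top
  have hCH : ∀ (N : ℕ) (g : G), ∃ a d : T ⊗[Λ] 𝕋c, ν a = (ρ₁ g).trace ∧ ν d = (ρ₁ g).det ∧
      ∀ x : T ⊗[Λ] Tp, ffc_ia_rhoX (T := T) ι ρ hcomm g (ffc_ia_rhoX (T := T) ι ρ hcomm g x) -
        a • ffc_ia_rhoX (T := T) ι ρ hcomm g x + d • x ∈
        ((RingHom.ker ν) ^ N) • (⊤ : Submodule (T ⊗[Λ] 𝕋c) (T ⊗[Λ] Tp)) := by
    intro N g
    obtain ⟨c, hc1, hc2⟩ := happrox g (n * N)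
    refine ⟨(1 : T) ⊗ₜ[Λ] c, algebraMap Λ (T ⊗[Λ] 𝕋c) (ε g), ?_, ?_, fun x => ?_⟩
    · rw [hν_tmul, one_mul, hc1]
    · rw [IsScalarTower.algebraMap_apply Λ T (T ⊗[Λ] 𝕋c), hν_alg, hdet]
    · obtain ⟨z, hz⟩ := ffc_ia_CH (T := T) ι ρ hcomm ε ϖ g (n * N) c hc2 x
      rw [hz]
      exact hkey N z
  obtain ⟨N, s, W, iW, actW, j, f, hj, hje, hf, hfe⟩ :=
    ffc_mod_abs ν hν hfaith (ffc_ia_rhoX (T := T) ι ρ hcomm) ρ₁ hspan hCH
  haveI := hfin (n * N)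
  obtain ⟨r, t, ht⟩ := ffc_ia_reps (Λ := Λ) (Tp := Tp) (algebraMap Λ T ϖ ^ (n * N))
  let P : Submodule (T ⊗[Λ] 𝕋c) (T ⊗[Λ] Tp) :=
    ((RingHom.ker ν) ^ N) • (⊤ : Submodule (T ⊗[Λ] 𝕋c) (T ⊗[Λ] Tp))
  let actE : G →* AddMonoid.End ((T ⊗[Λ] Tp) ⧸ P) :=
    { toFun := fun g => (ffc_quotAct ((RingHom.ker ν) ^ N) (ffc_ia_rhoX (T := T) ι ρ hcomm) g).toAddMonoidHom
      map_one' := by
        rw [map_one]
        rfl
      map_mul' := fun g h => by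
        rw [map_mul]
        rfl }
  refine ⟨(T ⊗[Λ] Tp) ⧸ P, inferInstance, actE, n * N, r,
    P.mkQ.toAddMonoidHom.comp (ffc_ia_q0 (Λ := Λ) t), ?_, ?_, ?_, s, W, iW, actW, j, f, hj, hje,
    hf, hfe⟩
  · intro y
    obtain ⟨x, rfl⟩ := P.mkQ_surjective y
    obtain ⟨y', z, hx⟩ := ht x
    refine ⟨y', ?_⟩
    show P.mkQ (ffc_ia_q0 (Λ := Λ) t y') = P.mkQ x
    rw [ffc_ia_q0_apply, hx, map_add, left_eq_add]
    exact (Submodule.Quotient.mk_eq_zero P).mpr (hkey N z)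
  · intro g x
    show P.mkQ (ffc_ia_q0 (Λ := Λ) t (fun i => ρ g (x i))) =
      ffc_quotAct ((RingHom.ker ν) ^ N) (ffc_ia_rhoX (T := T) ι ρ hcomm) g
        (P.mkQ (ffc_ia_q0 (Λ := Λ) t x))
    rw [ffc_ia_q0_apply, ffc_ia_q0_apply]
    show _ = P.mkQ (ffc_ia_rhoX (T := T) ι ρ hcomm g (∑ i, t i ⊗ₜ[Λ] x i))
    rw [map_sum (ffc_ia_rhoX (T := T) ι ρ hcomm g)]
    refine congrArg P.mkQ (Finset.sum_congr rfl fun i _ => ?_)
    rw [ffc_ia_rhoX_apply, LinearMap.baseChange_tmul]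
  · intro x hx
    show P.mkQ (ffc_ia_q0 (Λ := Λ) t x) = 0
    rw [ffc_ia_q0_apply, map_sum]
    refine Finset.sum_eq_zero fun i _ => ?_
    obtain ⟨y, hy⟩ := hx i
    have h1 : t i ⊗ₜ[Λ] (ϖ ^ (n * N) • y) = (algebraMap Λ T ϖ ^ (n * N)) • (t i ⊗ₜ[Λ] y) := by
      rw [TensorProduct.tmul_smul, ← map_pow, algebraMap_smul]
    rw [hy, h1]
    exact (Submodule.Quotient.mk_eq_zero P).mpr (hkey N _)

end InstAbs

end Fermat.Agent.FF
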