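/-
Project FF, cell [CAR] (S32 from the S19 pipeline), leaf [CAR-ORD] (helper21).

Closure properties of `ff_IsOrder` (FF/Seams.lean): "having an order" is inherited by
* `ffc_ord_sub`  : subobjects (restriction of functions along an injective equivariant map),
* `ffc_ord_pi`   : finite powers `Fin s → M` (algebra generated by the coordinate pull-backs),
* `ffc_ord_quot` : quotients (functions constant on the fibres of a surjective equivariant map);
  this uses Galois descent of linear independence (`ffc_ord_li`), integrality of the values, the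
  trace along the kernel (`ffc_ord_trace_mem`) and Lagrange interpolation,
* `ffc_ord_subquot` : Galois-stable subquotients of finite powers.
Prefix `ffc_ord_`.
-/
import Mathlib
import Fermat.Agent.FF.Seams
import Fermat.Agent.S28.FrontEnd.Zl

set_option autoImplicit false

noncomputable section

namespace Fermat.Agent.FF

variable {ℓ : ℕ}

/-- pull-back of functions along a map, as an algebra homomorphism -/
def ffc_ord_pull (ℓ : ℕ) {M M' : Type} (j : M' → M) : (M → ff_Qb) →ₐ[ff_R ℓ] (M' → ff_Qb) :=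
  AlgHom.pi (fun x' => Pi.evalAlgHom (ff_R ℓ) (fun _ : M => ff_Qb) (j x'))

theorem ffc_ord_pull_apply {M M' : Type} (j : M' → M) (φ : M → ff_Qb) (x' : M') :
    ffc_ord_pull ℓ j φ x' = φ (j x') := rfl

/-! ### Decomposable functions -/

section Dec

variable {M : Type} [AddCommGroup M]

/-- `φ (x + y) = ∑ aᵢ x * bᵢ y` with `aᵢ, bᵢ ∈ H`. -/
def ffc_ord_Dec (H : Set (M → ff_Qb)) (φ : M → ff_Qb) : Prop :=
  ∃ (n : ℕ) (a b : Fin n → M → ff_Qb), (∀ i, a i ∈ H) ∧ (∀ i, b i ∈ H) ∧
    ∀ x y : M, φ (x + y) = ∑ i, a i x * b i y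

theorem ffc_ord_dec_of_fintype {H : Set (M → ff_Qb)} {φ : M → ff_Qb} {ι : Type*} [Fintype ι]
    (a b : ι → M → ff_Qb) (ha : ∀ i, a i ∈ H) (hb : ∀ i, b i ∈ H)
    (h : ∀ x y : M, φ (x + y) = ∑ i, a i x * b i y) : ffc_ord_Dec H φ := by
  classical
  let e := Fintype.equivFin ι
  refine ⟨Fintype.card ι, fun i => a (e.symm i), fun i => b (e.symm i), fun i => ha _,
    fun i => hb _, fun x y => ?_⟩
  rw [h x y]
  exact (Fintype.sum_equiv e.symm _ _ fun i => rfl).symm

theorem ffc_ord_dec_add {H : Set (M → ff_Qb)} {φ ψ : M → ff_Qb} (hφ : ffc_ord_Dec H φ)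
    (hψ : ffc_ord_Dec H ψ) : ffc_ord_Dec H (φ + ψ) := by
  obtain ⟨n, a, b, ha, hb, h⟩ := hφ
  obtain ⟨m, a', b', ha', hb', h'⟩ := hψ
  refine ffc_ord_dec_of_fintype (ι := Fin n ⊕ Fin m) (Sum.elim a a') (Sum.elim b b') ?_ ?_ ?_
  · rintro (i | i)
    · exact ha i
    · exact ha' i
  · rintro (i | i)
    · exact hb i
    · exact hb' i
  · intro x y
    rw [Pi.add_apply, h, h', Fintype.sum_sum_type]
    rfl

theorem ffc_ord_dec_mul {H : Set (M → ff_Qb)} (hmul : ∀ f g, f ∈ H → g ∈ H → f * g ∈ H)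
    {φ ψ : M → ff_Qb} (hφ : ffc_ord_Dec H φ) (hψ : ffc_ord_Dec H ψ) : ffc_ord_Dec H (φ * ψ) := by
  obtain ⟨n, a, b, ha, hb, h⟩ := hφ
  obtain ⟨m, a', b', ha', hb', h'⟩ := hψ
  refine ffc_ord_dec_of_fintype (ι := Fin n × Fin m) (fun p => a p.1 * a' p.2)
    (fun p => b p.1 * b' p.2) (fun p => hmul _ _ (ha _) (ha' _)) (fun p => hmul _ _ (hb _) (hb' _))
    ?_
  intro x y
  rw [Pi.mul_apply, h, h', Finset.sum_mul_sum, ← Finset.sum_product']
  refine Finset.sum_congr rfl fun p _ => ?_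
  simp only [Pi.mul_apply]
  ring

theorem ffc_ord_dec_const {H : Set (M → ff_Qb)} (c : M → ff_Qb) (hc : c ∈ H)
    (h1 : (1 : M → ff_Qb) ∈ H) (hconst : ∀ x y, c x = c y) : ffc_ord_Dec H c := by
  refine ⟨1, fun _ => c, fun _ => 1, fun _ => hc, fun _ => h1, fun x y => ?_⟩
  rw [Fin.sum_univ_one]
  show c (x + y) = c x * 1
  rw [mul_one]
  exact hconst _ _

theorem ffc_ord_dec_mono {H H' : Set (M → ff_Qb)} (hHH' : H ⊆ H') {φ : M → ff_Qb}
    (hφ : ffc_ord_Dec H φ) : ffc_ord_Dec H' φ := by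
  obtain ⟨n, a, b, ha, hb, h⟩ := hφ
  exact ⟨n, a, b, fun i => hHH' (ha i), fun i => hHH' (hb i), h⟩

end Dec

/-! ### Subobjects -/

section Sub

variable {M M' : Type} [AddCommGroup M] [AddCommGroup M'] [DistribMulAction ff_GQ M]
  [DistribMulAction ff_GQ M']

/-- **Subobjects**: an order restricts along an injective equivariant additive map. -/
theorem ffc_ord_sub (j : M' →+ M) (hj : Function.Injective j)
    (hje : ∀ (σ : ff_GQ) (x : M'), j (σ • x) = σ • j x)
    {H : Subalgebra (ff_R ℓ) (M → ff_Qb)} (hH : ff_IsOrder ℓ M H) :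
    ff_IsOrder ℓ M' (H.map (ffc_ord_pull ℓ j)) := by
  refine ⟨?_, ?_, ?_, ?_⟩
  · intro ψ hψ σ x
    obtain ⟨φ, hφ, rfl⟩ := Subalgebra.mem_map.mp hψ
    rw [ffc_ord_pull_apply, ffc_ord_pull_apply, hje, hH.equiv φ hφ]
  · have := hH.fin
    let f : H →ₗ[ff_R ℓ] ↥(H.map (ffc_ord_pull ℓ j)) :=
      { toFun := fun φ => ⟨ffc_ord_pull ℓ j φ.1, ⟨φ.1, φ.2, rfl⟩⟩
        map_add' := fun φ ψ => Subtype.ext (map_add _ _ _)
        map_smul' := fun c φ => Subtype.ext (map_smul _ _ _) }
    refine Module.Finite.of_surjective f ?_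
    rintro ⟨_, φ, hφ, rfl⟩
    exact ⟨⟨φ, hφ⟩, rfl⟩
  · intro x y hxy
    obtain ⟨φ, hφ, h⟩ := hH.sep (j x) (j y) (fun h => hxy (hj h))
    exact ⟨ffc_ord_pull ℓ j φ, ⟨φ, hφ, rfl⟩, h⟩
  · intro ψ hψ
    obtain ⟨φ, hφ, rfl⟩ := Subalgebra.mem_map.mp hψ
    obtain ⟨n, a, b, ha, hb, h⟩ := hH.comul φ hφ
    refine ⟨n, fun i => ffc_ord_pull ℓ j (a i), fun i => ffc_ord_pull ℓ j (b i),
      fun i => ⟨a i, ha i, rfl⟩, fun i => ⟨b i, hb i, rfl⟩, fun x y => ?_⟩
    simp only [ffc_ord_pull_apply]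
    rw [map_add, h]

end Sub

/-! ### Finite powers -/

section Pi

variable {M : Type} [AddCommGroup M] [DistribMulAction ff_GQ M]

theorem ffc_ord_finite_map {X Y : Type} (f : (X → ff_Qb) →ₐ[ff_R ℓ] (Y → ff_Qb))
    (H : Subalgebra (ff_R ℓ) (X → ff_Qb)) [Module.Finite (ff_R ℓ) H] :
    Module.Finite (ff_R ℓ) ↥(H.map f) := by
  let g : H →ₗ[ff_R ℓ] ↥(H.map f) :=
    { toFun := fun φ => ⟨f φ.1, ⟨φ.1, φ.2, rfl⟩⟩
      map_add' := fun φ ψ => Subtype.ext (map_add _ _ _)
      map_smul' := fun c φ => Subtype.ext (map_smul _ _ _) }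
  refine Module.Finite.of_surjective g ?_
  rintro ⟨_, φ, hφ, rfl⟩
  exact ⟨⟨φ, hφ⟩, rfl⟩

theorem ffc_ord_algebraMap_apply {X : Type} (r : ff_R ℓ) (x : X) :
    algebraMap (ff_R ℓ) (X → ff_Qb) r x = algebraMap ℚ ff_Qb (r : ℚ) := rfl

theorem ffc_ord_algebraMap_fixed {X : Type} (r : ff_R ℓ) (x y : X) (σ : ff_GQ) :
    algebraMap (ff_R ℓ) (X → ff_Qb) r x = σ (algebraMap (ff_R ℓ) (X → ff_Qb) r y) := by
  rw [ffc_ord_algebraMap_apply, ffc_ord_algebraMap_apply, AlgEquiv.commutes]

/-- **Finite powers**: the algebra generated by the pull-backs of an order along the coordinate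
projections is an order of `Fin s → M`. -/
theorem ffc_ord_pi (s : ℕ) {H : Subalgebra (ff_R ℓ) (M → ff_Qb)} (hH : ff_IsOrder ℓ M H) :
    ff_IsOrder ℓ (Fin s → M)
      (⨆ i : Fin s, H.map (ffc_ord_pull ℓ (fun x : Fin s → M => x i))) := by
  have hfinH := hH.fin
  refine ⟨?_, ?_, ?_, ?_⟩
  · intro f hf
    refine Algebra.iSup_induction
      (motive := fun f : (Fin s → M) → ff_Qb => ∀ (σ : ff_GQ) (x : Fin s → M), f (σ • x) = σ (f x))
      _ hf ?_ ?_ ?_ ?_
    · intro i f hf
      obtain ⟨φ, hφ, rfl⟩ := Subalgebra.mem_map.mp hf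
      intro σ x
      rw [ffc_ord_pull_apply, ffc_ord_pull_apply, Pi.smul_apply, hH.equiv φ hφ]
    · intro f g hf hg σ x
      rw [Pi.add_apply, Pi.add_apply, hf, hg, map_add]
    · intro f g hf hg σ x
      rw [Pi.mul_apply, Pi.mul_apply, hf, hg, map_mul]
    · intro r σ x
      exact ffc_ord_algebraMap_fixed r _ _ σ
  · rw [← Finset.sup_univ_eq_iSup]
    refine Finset.sup_induction
      (p := fun B : Subalgebra (ff_R ℓ) ((Fin s → M) → ff_Qb) => Module.Finite (ff_R ℓ) ↥B)
      Subalgebra.finite_bot (fun B hB C hC => ?_) (fun i _ => ffc_ord_finite_map _ H)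
    exact Subalgebra.finite_sup B C
  · intro x y hxy
    obtain ⟨i, hi⟩ := Function.ne_iff.mp hxy
    obtain ⟨φ, hφ, h⟩ := hH.sep (x i) (y i) hi
    exact ⟨ffc_ord_pull ℓ (fun x : Fin s → M => x i) φ,
      Algebra.mem_iSup_of_mem i ⟨φ, hφ, rfl⟩, h⟩
  · intro f hf
    refine Algebra.iSup_induction
      (motive := ffc_ord_Dec
        (↑(⨆ i : Fin s, H.map (ffc_ord_pull ℓ (fun x : Fin s → M => x i))) : Set _))
      _ hf ?_ ?_ ?_ ?_
    · intro i f hf
      obtain ⟨φ, hφ, rfl⟩ := Subalgebra.mem_map.mp hf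
      obtain ⟨n, a, b, ha, hb, h⟩ := hH.comul φ hφ
      refine ⟨n, fun k => ffc_ord_pull ℓ (fun x : Fin s → M => x i) (a k),
        fun k => ffc_ord_pull ℓ (fun x : Fin s → M => x i) (b k),
        fun k => Algebra.mem_iSup_of_mem i ⟨a k, ha k, rfl⟩,
        fun k => Algebra.mem_iSup_of_mem i ⟨b k, hb k, rfl⟩, fun x y => ?_⟩
      simp only [ffc_ord_pull_apply]
      rw [Pi.add_apply, h]
    · intro f g hf hg
      exact ffc_ord_dec_add hf hg
    · intro f g hf hg
      exact ffc_ord_dec_mul (fun f g hf hg => mul_mem hf hg) hf hg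
    · intro r
      exact ffc_ord_dec_const _ (Subalgebra.algebraMap_mem _ r) (one_mem _) (fun x y => rfl)

end Pi

section LI

/-- Instance-path repair: the default `Algebra ℚ (AlgebraicClosure ℚ)` is the division-ring one. -/
local instance ffc_ord_qbarIsAlgebraic : Algebra.IsAlgebraic ℚ ff_Qb :=
  AlgebraicClosure.isAlgebraic ℚ

local instance ffc_ord_qbarIsAlgClosure : IsAlgClosure ℚ ff_Qb := ⟨inferInstance, inferInstance⟩

/-- the fixed field of `G_ℚ` is `ℚ` -/
theorem ffc_ord_fixed {z : ff_Qb} (h : ∀ σ : ff_GQ, σ z = z) :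
    ∃ q : ℚ, algebraMap ℚ ff_Qb q = z :=
  (InfiniteGalois.mem_range_algebraMap_iff_fixed (k := ℚ) (K := ff_Qb) z).mpr h

/-- **Galois descent of linear independence**: `ℚ`-linearly independent equivariant functions are
`Q̄`-linearly independent. -/
theorem ffc_ord_li_rat {M : Type} [MulAction ff_GQ M] {ι : Type*} (v : ι → (M → ff_Qb))
    (hv : ∀ (i : ι) (σ : ff_GQ) (x : M), v i (σ • x) = σ (v i x))
    (hli : LinearIndependent ℚ v) : LinearIndependent ff_Qb v := by
  classical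
  rw [linearIndependent_iff']
  intro s
  induction s using Finset.induction_on with
  | empty => intro c _ i hi; exact absurd hi (Finset.notMem_empty i)
  | insert a s has ih =>
    intro c hc
    have hca : c a = 0 := by
      by_contra hca
      have h1 : v a + ∑ j ∈ s, (c j / c a) • v j = 0 := by
        have h := congrArg (fun f => (c a)⁻¹ • f) hc
        simp only [smul_zero] at h
        rw [Finset.sum_insert has, smul_add, smul_smul, inv_mul_cancel₀ hca, one_smul,
          Finset.smul_sum] at h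
        rw [← h]
        congr 1
        refine Finset.sum_congr rfl fun j _ => ?_
        rw [smul_smul, div_eq_inv_mul]
      have h2 : ∀ σ : ff_GQ, v a + ∑ j ∈ s, σ (c j / c a) • v j = 0 := by
        intro σ
        funext x
        have h := congrArg σ (congrFun h1 (σ⁻¹ • x))
        simp only [Pi.add_apply, Finset.sum_apply, Pi.smul_apply, smul_eq_mul, Pi.zero_apply,
          map_add, map_sum, map_mul, map_zero] at h ⊢
        rw [← h]
        congr 1
        · rw [← hv, smul_inv_smul]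
        · refine Finset.sum_congr rfl fun j _ => ?_
          rw [← hv, smul_inv_smul]
      have h3 : ∀ σ : ff_GQ, ∀ j ∈ s, σ (c j / c a) = c j / c a := by
        intro σ j hj
        have h4 : ∑ j ∈ s, (σ (c j / c a) - c j / c a) • v j = 0 := by
          have h5 := h2 σ
          rw [← h1] at h5
          have h6 := add_left_cancel h5
          simp only [sub_smul, Finset.sum_sub_distrib, h6, sub_self]
        exact sub_eq_zero.mp (ih _ h4 j hj)
      have h7 : ∀ j, ∃ r : ℚ, j ∈ s → algebraMap ℚ ff_Qb r = c j / c a := by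
        intro j
        by_cases hj : j ∈ s
        · obtain ⟨r, hr⟩ := ffc_ord_fixed (fun σ => h3 σ j hj)
          exact ⟨r, fun _ => hr⟩
        · exact ⟨0, fun h => absurd h hj⟩
      choose r hr using h7
      have h8 : ∑ j ∈ insert a s, (if j = a then (1 : ℚ) else r j) • v j = 0 := by
        rw [Finset.sum_insert has, if_pos rfl, one_smul, ← h1]
        congr 1
        refine Finset.sum_congr rfl fun j hj => ?_
        have hja : j ≠ a := fun h => has (h ▸ hj)
        rw [if_neg hja, ← hr j hj, algebraMap_smul]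
      have h9 := linearIndependent_iff'.mp hli _ _ h8 a (Finset.mem_insert_self a s)
      rw [if_pos rfl] at h9
      exact one_ne_zero h9
    intro i hi
    rcases Finset.mem_insert.mp hi with rfl | hi'
    · exact hca
    · refine ih c ?_ i hi'
      rw [Finset.sum_insert has, hca, zero_smul, zero_add] at hc
      exact hc

/-- `ℚ` is the fraction field of `ℤ_(ℓ)` -/
instance ffc_ord_isFractionRing : IsFractionRing (ff_R ℓ) ℚ := by
  refine IsFractionRing.of_field (ff_R ℓ) ℚ fun z => ⟨(z.num : ff_R ℓ), (z.den : ff_R ℓ), ?_⟩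
  show z = (((z.num : ff_R ℓ) : ff_R ℓ) : ℚ) / (((z.den : ff_R ℓ) : ff_R ℓ) : ℚ)
  rw [Subring.coe_intCast, Subring.coe_natCast, Rat.num_div_den]

/-- `ℤ_(ℓ)`-linearly independent equivariant functions are `Q̄`-linearly independent. -/
theorem ffc_ord_li {M : Type} [MulAction ff_GQ M] {ι : Type*} (v : ι → (M → ff_Qb))
    (hv : ∀ (i : ι) (σ : ff_GQ) (x : M), v i (σ • x) = σ (v i x))
    (hli : LinearIndependent (ff_R ℓ) v) : LinearIndependent ff_Qb v :=
  ffc_ord_li_rat v hv ((LinearIndependent.iff_fractionRing (ff_R ℓ) ℚ).mp hli)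

/-- a `G_ℚ`-fixed element of `Q̄` which is integral over `ℤ_(ℓ)` lies in `ℤ_(ℓ)` -/
theorem ffc_ord_mem_of_fixed_integral [Fact ℓ.Prime] {z : ff_Qb} (hfix : ∀ σ : ff_GQ, σ z = z)
    (hint : IsIntegral (ff_R ℓ) z) : ∃ r : ff_R ℓ, algebraMap (ff_R ℓ) ff_Qb r = z := by
  obtain ⟨q, rfl⟩ := ffc_ord_fixed hfix
  rw [isIntegral_algebraMap_iff (FaithfulSMul.algebraMap_injective ℚ ff_Qb)] at hint
  obtain ⟨r, hr⟩ := IsIntegrallyClosed.isIntegral_iff.mp hint
  exact ⟨r, by rw [IsScalarTower.algebraMap_apply (ff_R ℓ) ℚ ff_Qb, hr]⟩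

/-- the values of the elements of a finite subalgebra are integral -/
theorem ffc_ord_isIntegral_apply {M : Type} (H : Subalgebra (ff_R ℓ) (M → ff_Qb))
    [Module.Finite (ff_R ℓ) H] {φ : M → ff_Qb} (hφ : φ ∈ H) (x : M) :
    IsIntegral (ff_R ℓ) (φ x) := by
  have h1 : IsIntegral (ff_R ℓ) (⟨φ, hφ⟩ : H) := Algebra.IsIntegral.isIntegral _
  have h2 : IsIntegral (ff_R ℓ) φ := h1.map H.val
  exact h2.map (Pi.evalAlgHom (ff_R ℓ) (fun _ : M => ff_Qb) x)

/-- **the trace along a finite Galois-stable set of translations preserves an order** -/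
theorem ffc_ord_trace_mem [Fact ℓ.Prime] {M : Type} [AddCommGroup M] [DistribMulAction ff_GQ M]
    {H : Subalgebra (ff_R ℓ) (M → ff_Qb)} (hH : ff_IsOrder ℓ M H) (K : Finset M)
    (hK : ∀ (σ : ff_GQ), ∀ k ∈ K, σ • k ∈ K) {φ : M → ff_Qb} (hφ : φ ∈ H) :
    (fun x => ∑ k ∈ K, φ (x + k)) ∈ H := by
  have := hH.fin
  obtain ⟨n, a, b, ha, hb, h⟩ := hH.comul φ hφ
  have hβ : ∀ i, ∃ r : ff_R ℓ, algebraMap (ff_R ℓ) ff_Qb r = ∑ k ∈ K, b i k := by
    intro i
    refine ffc_ord_mem_of_fixed_integral (fun σ => ?_)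
      (IsIntegral.sum _ fun k _ => ffc_ord_isIntegral_apply H (hb i) k)
    rw [map_sum]
    refine Finset.sum_nbij' (fun k => σ • k) (fun k => σ⁻¹ • k) (fun k hk => hK σ k hk)
      (fun k hk => hK σ⁻¹ k hk) (fun k _ => inv_smul_smul σ k) (fun k _ => smul_inv_smul σ k)
      (fun k _ => ?_)
    rw [hH.equiv (b i) (hb i)]
  choose r hr using hβ
  have h1 : (fun x => ∑ k ∈ K, φ (x + k)) = ∑ i, r i • a i := by
    funext x
    simp only [h, Finset.sum_apply, Pi.smul_apply]
    rw [Finset.sum_comm]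
    refine Finset.sum_congr rfl fun i _ => ?_
    rw [← Finset.mul_sum, ← hr i, Algebra.smul_def, mul_comm]
  rw [h1]
  exact Subalgebra.sum_mem _ fun i _ => Subalgebra.smul_mem _ (ha i) _

/-- **Lagrange interpolation**: the `Q̄`-span of a point-separating subalgebra of functions on a
finite set contains the indicator functions. -/
theorem ffc_ord_single_mem_span {M : Type} [Finite M] [DecidableEq M]
    (H : Subalgebra (ff_R ℓ) (M → ff_Qb))
    (hsep : ∀ x y : M, x ≠ y → ∃ φ ∈ H, φ x ≠ φ y) (x : M) :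
    Pi.single x (1 : ff_Qb) ∈ Submodule.span ff_Qb (H : Set (M → ff_Qb)) := by
  classical
  have := Fintype.ofFinite M
  have hspan : (Algebra.adjoin ff_Qb (H : Set (M → ff_Qb))).toSubmodule =
      Submodule.span ff_Qb (H : Set (M → ff_Qb)) := by
    rw [Algebra.adjoin_eq_span]
    congr 1
    exact congrArg (fun S : Submonoid (M → ff_Qb) => (S : Set (M → ff_Qb)))
      (Submonoid.closure_eq H.toSubmonoid)
  rw [← hspan, Subalgebra.mem_toSubmodule]
  have hφ : ∀ z : M, ∃ φ : M → ff_Qb, φ ∈ H ∧ (z ≠ x → φ x ≠ φ z) := by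
    intro z
    by_cases hz : z = x
    · exact ⟨1, one_mem _, fun h => absurd hz h⟩
    · obtain ⟨φ, hφ, h⟩ := hsep x z (Ne.symm hz)
      exact ⟨φ, hφ, fun _ => h⟩
  choose φ hφH hφx using hφ
  have h1 : Pi.single x (1 : ff_Qb) = ∏ z ∈ Finset.univ.erase x,
      (φ z x - φ z z)⁻¹ • (φ z - algebraMap ff_Qb (M → ff_Qb) (φ z z)) := by
    funext y
    rw [Finset.prod_apply]
    by_cases hy : y = x
    · subst hy
      rw [Pi.single_eq_same]
      symm
      refine Finset.prod_eq_one fun z hz => ?_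
      have hzy : z ≠ y := Finset.ne_of_mem_erase hz
      rw [Pi.smul_apply, Pi.sub_apply, Pi.algebraMap_apply, Algebra.algebraMap_self_apply,
        smul_eq_mul, inv_mul_cancel₀ (sub_ne_zero.mpr (hφx z hzy))]
    · rw [Pi.single_eq_of_ne hy]
      symm
      refine Finset.prod_eq_zero (Finset.mem_erase.mpr ⟨hy, Finset.mem_univ y⟩) ?_
      rw [Pi.smul_apply, Pi.sub_apply, Pi.algebraMap_apply, Algebra.algebraMap_self_apply,
        sub_self, smul_zero]
  rw [h1]
  refine Subalgebra.prod_mem _ fun z _ => Subalgebra.smul_mem _ (Subalgebra.sub_mem _ ?_ ?_) _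
  · exact Algebra.subset_adjoin (hφH z)
  · exact Subalgebra.algebraMap_mem _ _

end LI

/-! ### Quotients -/

section Quot

variable {M M'' : Type} [AddCommGroup M] [AddCommGroup M''] [DistribMulAction ff_GQ M]
  [DistribMulAction ff_GQ M'']

omit [DistribMulAction ff_GQ M] [DistribMulAction ff_GQ M''] in
/-- descending a function which is constant on the fibres of a surjective homomorphism -/
theorem ffc_ord_descend (q : M →+ M'') (hq : Function.Surjective q) (f : M → ff_Qb)
    (hf : ∀ z k : M, q k = 0 → f (z + k) = f z) : ∃ ψ : M'' → ff_Qb, ∀ z, ψ (q z) = f z := by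
  refine ⟨fun x'' => f (Function.surjInv hq x''), fun z => ?_⟩
  have h1 : q (Function.surjInv hq (q z)) = q z := Function.surjInv_eq hq (q z)
  have h2 : Function.surjInv hq (q z) = z + (Function.surjInv hq (q z) - z) := by abel
  show f (Function.surjInv hq (q z)) = f z
  rw [h2]
  exact hf z _ (by rw [map_sub, h1, sub_self])

theorem ffc_ord_isTorsionFree (X : Type) (H : Subalgebra (ff_R ℓ) (X → ff_Qb)) :
    Module.IsTorsionFree (ff_R ℓ) H := by
  have : Module.IsTorsionFree (ff_R ℓ) (X → ff_Qb) := Module.IsTorsionFree.trans ℚ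
  exact Function.Injective.moduleIsTorsionFree (fun φ : H => (φ : X → ff_Qb))
    Subtype.val_injective (fun _ _ => rfl)

/-- the members of a basis of a finite equivariant subalgebra are `Q̄`-linearly independent -/
theorem ffc_ord_basis_li {X : Type} [MulAction ff_GQ X] (H : Subalgebra (ff_R ℓ) (X → ff_Qb))
    (hequiv : ∀ φ ∈ H, ∀ (σ : ff_GQ) (x : X), φ (σ • x) = σ (φ x))
    {ι : Type*} (bas : Module.Basis ι (ff_R ℓ) H) :
    LinearIndependent ff_Qb (fun j => ((bas j : H) : X → ff_Qb)) := by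
  refine ffc_ord_li (ℓ := ℓ) _ (fun j σ x => hequiv _ (bas j).2 σ x) ?_
  have h := bas.linearIndependent.map' H.val.toLinearMap
    (LinearMap.ker_eq_bot.mpr Subtype.val_injective)
  exact h

theorem ffc_ord_basis_expand {X : Type} (H : Subalgebra (ff_R ℓ) (X → ff_Qb))
    {ι : Type*} [Fintype ι] (bas : Module.Basis ι (ff_R ℓ) H) {φ : X → ff_Qb} (hφ : φ ∈ H) :
    φ = ∑ j, (bas.repr ⟨φ, hφ⟩ j) • ((bas j : H) : X → ff_Qb) := by
  have h := congrArg H.val (bas.sum_repr ⟨φ, hφ⟩)
  rw [map_sum] at h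
  simp only [map_smul] at h
  exact h.symm

/-- **Quotients**: the functions of an order which are constant on the fibres of a surjective
equivariant homomorphism form an order of the quotient. -/
theorem ffc_ord_quot [Fact ℓ.Prime] [Finite M] (q : M →+ M'') (hq : Function.Surjective q)
    (hqe : ∀ (σ : ff_GQ) (x : M), q (σ • x) = σ • q x)
    {H : Subalgebra (ff_R ℓ) (M → ff_Qb)} (hH : ff_IsOrder ℓ M H) :
    ff_IsOrder ℓ M'' (H.comap (ffc_ord_pull ℓ q)) := by
  classical
  have hfinH := hH.fin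
  have := Fintype.ofFinite M
  -- equivariance
  have hequiv : ∀ ψ ∈ H.comap (ffc_ord_pull ℓ q), ∀ (σ : ff_GQ) (x : M''),
      ψ (σ • x) = σ (ψ x) := by
    intro ψ hψ σ x''
    obtain ⟨x, rfl⟩ := hq x''
    rw [← hqe]
    exact hH.equiv _ hψ σ x
  -- finiteness
  have hfin : Module.Finite (ff_R ℓ) ↥(H.comap (ffc_ord_pull ℓ q)) := by
    let f : ↥(H.comap (ffc_ord_pull ℓ q)) →ₗ[ff_R ℓ] H :=
      { toFun := fun ψ => ⟨ffc_ord_pull ℓ q ψ.1, ψ.2⟩
        map_add' := fun ψ₁ ψ₂ => Subtype.ext (map_add _ _ _)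
        map_smul' := fun c ψ => Subtype.ext (map_smul _ _ _) }
    refine Module.Finite.of_injective f ?_
    intro ψ₁ ψ₂ h
    apply Subtype.ext
    funext x''
    obtain ⟨x, rfl⟩ := hq x''
    exact congrFun (congrArg Subtype.val h) x
  -- the kernel
  obtain ⟨K, hK⟩ : ∃ K : Finset M, ∀ k, k ∈ K ↔ q k = 0 :=
    ⟨Finset.univ.filter fun k => q k = 0, fun k => by simp⟩
  have hKσ : ∀ (σ : ff_GQ), ∀ k ∈ K, σ • k ∈ K := by
    intro σ k hk
    rw [hK] at hk ⊢
    rw [hqe, hk, smul_zero]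
  -- the trace
  have htr_inv : ∀ (g : M → ff_Qb) (z k₀ : M), q k₀ = 0 →
      ∑ k ∈ K, g (z + k₀ + k) = ∑ k ∈ K, g (z + k) := by
    intro g z k₀ hk₀
    refine Finset.sum_nbij' (fun k => k₀ + k) (fun k => -k₀ + k) (fun k hk => ?_) (fun k hk => ?_)
      (fun k _ => neg_add_cancel_left k₀ k) (fun k _ => add_neg_cancel_left k₀ k)
      (fun k _ => by rw [add_assoc])
    · rw [hK] at hk ⊢
      rw [map_add, hk₀, hk, add_zero]
    · rw [hK] at hk ⊢
      rw [map_add, map_neg, hk₀, hk, neg_zero, add_zero]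
  have htr : ∀ g ∈ H, ∃ ψ ∈ H.comap (ffc_ord_pull ℓ q), ∀ z, ψ (q z) = ∑ k ∈ K, g (z + k) := by
    intro g hg
    obtain ⟨ψ, hψ⟩ := ffc_ord_descend q hq (fun x => ∑ k ∈ K, g (x + k))
      (fun z k₀ hk₀ => htr_inv g z k₀ hk₀)
    refine ⟨ψ, ?_, hψ⟩
    rw [Subalgebra.mem_comap]
    have h1 : ffc_ord_pull ℓ q ψ = fun x => ∑ k ∈ K, g (x + k) := funext hψ
    rw [h1]
    exact ffc_ord_trace_mem hH K hKσ hg
  refine ⟨hequiv, hfin, ?_, ?_⟩
  · -- separation
    intro x'' y'' hxy
    by_contra hno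
    have hno' : ∀ ψ ∈ H.comap (ffc_ord_pull ℓ q), ψ x'' = ψ y'' := by
      intro ψ hψ
      by_contra h
      exact hno ⟨ψ, hψ, h⟩
    obtain ⟨x, rfl⟩ := hq x''
    obtain ⟨y, rfl⟩ := hq y''
    have hP : ∀ g ∈ Submodule.span ff_Qb (H : Set (M → ff_Qb)),
        ∑ k ∈ K, g (x + k) = ∑ k ∈ K, g (y + k) := by
      intro g hg
      induction hg using Submodule.span_induction with
      | mem g hg =>
        obtain ⟨ψ, hψ, h⟩ := htr g hg
        rw [← h x, ← h y]
        exact hno' ψ hψ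
      | zero => simp
      | add g₁ g₂ _ _ h₁ h₂ =>
        simp only [Pi.add_apply, Finset.sum_add_distrib, h₁, h₂]
      | smul c g _ h =>
        simp only [Pi.smul_apply, smul_eq_mul, ← Finset.mul_sum, h]
    have h1 := hP _ (ffc_ord_single_mem_span H hH.sep x)
    have h2 : ∑ k ∈ K, (Pi.single x (1 : ff_Qb) : M → ff_Qb) (x + k) = 1 := by
      rw [Finset.sum_eq_single_of_mem (0 : M) ((hK 0).mpr (map_zero q))]
      · rw [add_zero, Pi.single_eq_same]
      · intro k _ hk0
        rw [Pi.single_eq_of_ne]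
        intro h
        exact hk0 (add_eq_left.mp h)
    have h3 : ∑ k ∈ K, (Pi.single x (1 : ff_Qb) : M → ff_Qb) (y + k) = 0 := by
      refine Finset.sum_eq_zero fun k hk => ?_
      rw [Pi.single_eq_of_ne]
      intro h
      apply hxy
      rw [← h, map_add, (hK k).mp hk, add_zero]
    rw [h2, h3] at h1
    exact one_ne_zero h1
  · -- comultiplication
    intro ψ hψ
    have hφ : (fun z => ψ (q z)) ∈ H := hψ
    obtain ⟨n, a, b, ha, hb, h⟩ := hH.comul _ hφ
    -- a basis of `H`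
    have := ffc_ord_isTorsionFree M H
    have : Module.Free (ff_R ℓ) H := Module.free_of_finite_type_torsion_free'
    obtain ⟨ι, _, bas⟩ : ∃ (ι : Type) (_ : Fintype ι), Nonempty (Module.Basis ι (ff_R ℓ) H) :=
      ⟨Fin (Module.finrank (ff_R ℓ) H), inferInstance, ⟨Module.finBasis (ff_R ℓ) H⟩⟩
    obtain ⟨bas⟩ := bas
    have hli := ffc_ord_basis_li H hH.equiv bas
    -- a basis of the quotient order
    have := ffc_ord_isTorsionFree M'' (H.comap (ffc_ord_pull ℓ q))
    have : Module.Free (ff_R ℓ) ↥(H.comap (ffc_ord_pull ℓ q)) :=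
      Module.free_of_finite_type_torsion_free'
    obtain ⟨ι'', _, bas''⟩ : ∃ (ι'' : Type) (_ : Fintype ι''),
        Nonempty (Module.Basis ι'' (ff_R ℓ) ↥(H.comap (ffc_ord_pull ℓ q))) :=
      ⟨Fin (Module.finrank (ff_R ℓ) ↥(H.comap (ffc_ord_pull ℓ q))), inferInstance,
        ⟨Module.finBasis (ff_R ℓ) _⟩⟩
    obtain ⟨bas''⟩ := bas''
    have hli'' := ffc_ord_basis_li (H.comap (ffc_ord_pull ℓ q)) hequiv bas''
    -- step 1: expand the `b i`
    obtain ⟨A, hA⟩ : ∃ A : ι → (M → ff_Qb), A = fun j => ∑ i, (bas.repr ⟨b i, hb i⟩ j) • a i :=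
      ⟨_, rfl⟩
    have hAH : ∀ j, A j ∈ H := by
      intro j
      rw [hA]
      exact Subalgebra.sum_mem _ fun i _ => Subalgebra.smul_mem _ (ha i) _
    have h1 : ∀ x y : M, ψ (q (x + y)) = ∑ j, A j x * ((bas j : H) : M → ff_Qb) y := by
      intro x y
      rw [h x y, hA]
      simp only [Finset.sum_apply, Pi.smul_apply, Finset.sum_mul]
      rw [Finset.sum_comm]
      refine Finset.sum_congr rfl fun i _ => ?_
      conv_lhs => rw [ffc_ord_basis_expand H bas (hb i)]
      simp only [Finset.sum_apply, Pi.smul_apply, Finset.mul_sum]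
      refine Finset.sum_congr rfl fun j _ => ?_
      rw [Algebra.smul_def, Algebra.smul_def]
      ring
    -- step 2: the `A j` are constant on the fibres
    have hAinv : ∀ j, ∀ z k : M, q k = 0 → A j (z + k) = A j z := by
      intro j z k hk
      have h2 : ∑ j, (A j (z + k) - A j z) • ((bas j : H) : M → ff_Qb) = 0 := by
        funext y
        simp only [Finset.sum_apply, Pi.smul_apply, smul_eq_mul, sub_mul, Finset.sum_sub_distrib,
          Pi.zero_apply]
        rw [← h1, ← h1, add_right_comm, map_add q (z + y) k, hk, add_zero, sub_self]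
      exact sub_eq_zero.mp (Fintype.linearIndependent_iff.mp hli _ h2 j)
    have hA'' : ∀ j, ∃ A'' ∈ H.comap (ffc_ord_pull ℓ q), ∀ z, A'' (q z) = A j z := by
      intro j
      obtain ⟨A'', hA''⟩ := ffc_ord_descend q hq (A j) (hAinv j)
      refine ⟨A'', ?_, hA''⟩
      rw [Subalgebra.mem_comap]
      have h3 : ffc_ord_pull ℓ q A'' = A j := funext hA''
      rw [h3]
      exact hAH j
    choose A'' hA''mem hA''eq using hA''
    -- step 3: expand the `A'' j`
    obtain ⟨B, hB⟩ : ∃ B : ι'' → (M → ff_Qb),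
        B = fun m => ∑ j, (bas''.repr ⟨A'' j, hA''mem j⟩ m) • ((bas j : H) : M → ff_Qb) :=
      ⟨_, rfl⟩
    have hBH : ∀ m, B m ∈ H := by
      intro m
      rw [hB]
      exact Subalgebra.sum_mem _ fun j _ => Subalgebra.smul_mem _ (bas j).2 _
    have h4 : ∀ x y : M, ψ (q (x + y)) =
        ∑ m, ((bas'' m : ↥(H.comap (ffc_ord_pull ℓ q))) : M'' → ff_Qb) (q x) * B m y := by
      intro x y
      rw [h1 x y, hB]
      simp only [Finset.sum_apply, Pi.smul_apply, Finset.mul_sum]
      rw [Finset.sum_comm]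
      refine Finset.sum_congr rfl fun j _ => ?_
      rw [← hA''eq j x]
      conv_lhs => rw [ffc_ord_basis_expand (H.comap (ffc_ord_pull ℓ q)) bas'' (hA''mem j)]
      simp only [Finset.sum_apply, Pi.smul_apply, Finset.sum_mul]
      refine Finset.sum_congr rfl fun m _ => ?_
      rw [Algebra.smul_def, Algebra.smul_def]
      ring
    -- step 4: the `B m` are constant on the fibres
    have hBinv : ∀ m, ∀ z k : M, q k = 0 → B m (z + k) = B m z := by
      intro m z k hk
      have h5 : ∑ m, (B m (z + k) - B m z) •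
          ((bas'' m : ↥(H.comap (ffc_ord_pull ℓ q))) : M'' → ff_Qb) = 0 := by
        funext x''
        obtain ⟨x, rfl⟩ := hq x''
        simp only [Finset.sum_apply, Pi.smul_apply, smul_eq_mul, sub_mul, Finset.sum_sub_distrib,
          Pi.zero_apply]
        have h6 : ∀ w : M, ∑ m, B m w *
            ((bas'' m : ↥(H.comap (ffc_ord_pull ℓ q))) : M'' → ff_Qb) (q x) = ψ (q (x + w)) := by
          intro w
          rw [h4 x w]
          exact Finset.sum_congr rfl fun m _ => mul_comm _ _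
        rw [h6, h6, ← add_assoc, map_add q (x + z) k, hk, add_zero, sub_self]
      exact sub_eq_zero.mp (Fintype.linearIndependent_iff.mp hli'' _ h5 m)
    have hB'' : ∀ m, ∃ B'' ∈ H.comap (ffc_ord_pull ℓ q), ∀ z, B'' (q z) = B m z := by
      intro m
      obtain ⟨B'', hB''⟩ := ffc_ord_descend q hq (B m) (hBinv m)
      refine ⟨B'', ?_, hB''⟩
      rw [Subalgebra.mem_comap]
      have h3 : ffc_ord_pull ℓ q B'' = B m := funext hB''
      rw [h3]
      exact hBH m
    choose B'' hB''mem hB''eq using hB''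
    -- step 5
    refine ffc_ord_dec_of_fintype (ι := ι'')
      (fun m => ((bas'' m : ↥(H.comap (ffc_ord_pull ℓ q))) : M'' → ff_Qb)) B''
      (fun m => (bas'' m).2) hB''mem ?_
    intro x'' y''
    obtain ⟨x, rfl⟩ := hq x''
    obtain ⟨y, rfl⟩ := hq y''
    rw [← map_add, h4 x y]
    exact Finset.sum_congr rfl fun m _ => by rw [hB''eq]

end Quot

/-! ### Subquotients of finite powers -/

section SubQuot

variable {M W M'' : Type} [AddCommGroup M] [AddCommGroup W] [AddCommGroup M'']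
  [DistribMulAction ff_GQ M] [DistribMulAction ff_GQ W] [DistribMulAction ff_GQ M'']

/-- **Subquotients**: if `M` has an order, `W` embeds equivariantly into a finite power of `M` and
surjects equivariantly onto `M''`, then `M''` has an order. -/
theorem ffc_ord_subquot [Fact ℓ.Prime] [Finite M]
    (hM : ∃ H : Subalgebra (ff_R ℓ) (M → ff_Qb), ff_IsOrder ℓ M H) (s : ℕ)
    (j : W →+ (Fin s → M)) (hj : Function.Injective j)
    (hje : ∀ (σ : ff_GQ) (w : W), j (σ • w) = σ • j w)
    (f : W →+ M'') (hf : Function.Surjective f)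
    (hfe : ∀ (σ : ff_GQ) (w : W), f (σ • w) = σ • f w) :
    ∃ H'' : Subalgebra (ff_R ℓ) (M'' → ff_Qb), ff_IsOrder ℓ M'' H'' := by
  obtain ⟨H, hH⟩ := hM
  have hsub := ffc_ord_sub j hj hje (ffc_ord_pi s hH)
  have : Finite W := Finite.of_injective j hj
  exact ⟨_, ffc_ord_quot f hf hfe hsub⟩

omit [DistribMulAction ff_GQ W] [AddCommGroup W] in
/-- the same for a Galois-stable subgroup of a finite power -/
theorem ffc_ord_subquot_addSubgroup [Fact ℓ.Prime] [Finite M]
    (hM : ∃ H : Subalgebra (ff_R ℓ) (M → ff_Qb), ff_IsOrder ℓ M H) (s : ℕ)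
    (W : AddSubgroup (Fin s → M)) (hW : ∀ (σ : ff_GQ), ∀ w ∈ W, σ • w ∈ W)
    (f : W →+ M'') (hf : Function.Surjective f)
    (hfe : ∀ (σ : ff_GQ) (w : W), f ⟨σ • (w : Fin s → M), hW σ w w.2⟩ = σ • f w) :
    ∃ H'' : Subalgebra (ff_R ℓ) (M'' → ff_Qb), ff_IsOrder ℓ M'' H'' := by
  let _ : DistribMulAction ff_GQ W :=
    { smul := fun σ w => ⟨σ • (w : Fin s → M), hW σ w w.2⟩
      one_smul := fun w => Subtype.ext (one_smul _ _)
      mul_smul := fun σ τ w => Subtype.ext (mul_smul _ _ _)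
      smul_zero := fun σ => Subtype.ext (smul_zero _)
      smul_add := fun σ w w' => Subtype.ext (smul_add _ _ _) }
  exact ffc_ord_subquot hM s W.subtype Subtype.val_injective (fun _ _ => rfl) f hf
    (fun σ w => hfe σ w)

end SubQuot

end Fermat.Agent.FF
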