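/-
Project FF, cell [CAR] (S32 from S19), leaf [CAR-MOD] + [CAR-ORD] combined (helper21).
Prefix `ffc_io_`.

* `ffc_io_subquot_ker` : the subquotient closure of `ff_IsOrder` in its most flexible form:
  `j : W → M^s`, `f : W ↠ M''` equivariant for an arbitrary family `act σ : W → W`, with
  `ker j ⊆ ker f`; then `M''` is finite and has an order as soon as `M` has one;
* **`ffc_inst_order`** : in the situation of `ffc_inst_main` (with `G = G_ℚ`), if every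
  `Tp / ϖ^M Tp` embeds equivariantly in a finite `G_ℚ`-module with an order, then every equivariant
  quotient `M''` of `(T/I)²` has an order.
-/
import Mathlib
import Fermat.Agent.FF.Car.OrdClosure
import Fermat.Agent.FF.Car.InstAbs

set_option autoImplicit false
set_option linter.style.haveILetI false

noncomputable section

namespace Fermat.Agent.FF

open scoped TensorProduct

section SubquotKer

variable {ℓ : ℕ} {M M'' W : Type} [AddCommGroup M] [DistribMulAction ff_GQ M]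
  [AddCommGroup M''] [DistribMulAction ff_GQ M''] [AddCommGroup W]

/-- **Subquotients, kernel form.** -/
theorem ffc_io_subquot_ker [Fact ℓ.Prime] [Finite M]
    (hM : ∃ H : Subalgebra (ff_R ℓ) (M → ff_Qb), ff_IsOrder ℓ M H) (s : ℕ)
    (act : ff_GQ → W → W) (j : W →+ (Fin s → M))
    (hje : ∀ (σ : ff_GQ) (w : W), j (act σ w) = σ • j w)
    (f : W →+ M'') (hf : Function.Surjective f)
    (hfe : ∀ (σ : ff_GQ) (w : W), f (act σ w) = σ • f w)
    (hker : ∀ w : W, j w = 0 → f w = 0) :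
    Finite M'' ∧ ∃ H'' : Subalgebra (ff_R ℓ) (M'' → ff_Qb), ff_IsOrder ℓ M'' H'' := by
  have hW : ∀ (σ : ff_GQ), ∀ w ∈ j.range, σ • w ∈ j.range := by
    rintro σ _ ⟨w, rfl⟩
    exact ⟨act σ w, hje σ w⟩
  have hsurj : Function.Surjective j.rangeRestrict := j.rangeRestrict_surjective
  have hk : j.rangeRestrict.ker ≤ f.ker := by
    intro w hw
    rw [AddMonoidHom.mem_ker] at hw ⊢
    apply hker
    have := congrArg Subtype.val hw
    simpa using this
  let f' : j.range →+ M'' :=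
    j.rangeRestrict.liftOfRightInverse (Function.surjInv hsurj)
      (Function.rightInverse_surjInv hsurj) ⟨f, hk⟩
  have hf' : ∀ w : W, f' (j.rangeRestrict w) = f w := fun w =>
    AddMonoidHom.liftOfRightInverse_comp_apply _ _ _ ⟨f, hk⟩ w
  have hf's : Function.Surjective f' := by
    intro y
    obtain ⟨w, rfl⟩ := hf y
    exact ⟨j.rangeRestrict w, hf' w⟩
  refine ⟨Finite.of_surjective f' hf's, ?_⟩
  refine ffc_ord_subquot_addSubgroup hM s j.range hW f' hf's ?_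
  rintro σ ⟨_, w, rfl⟩
  have h1 : (⟨σ • j w, hW σ _ ⟨w, rfl⟩⟩ : j.range) = j.rangeRestrict (act σ w) :=
    Subtype.ext (hje σ w).symm
  have h2 : (⟨j w, ⟨w, rfl⟩⟩ : j.range) = j.rangeRestrict w := rfl
  rw [h1, h2, hf', hf', hfe]

end SubquotKer

section InstOrder

variable {Λ : Type} [CommRing Λ]
  {T : Type} [CommRing T] [Algebra Λ T]
  {Tp : Type} [AddCommGroup Tp] [Module Λ Tp]
  {𝕋c : Type} [CommRing 𝕋c] [Algebra Λ 𝕋c]

/-- **[CAR-MOD] + [CAR-ORD].** -/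
theorem ffc_inst_order {ℓ : ℕ} [Fact ℓ.Prime] [IsLocalRing T] [IsNoetherianRing T]
    [Module.Flat Λ T] [Module.Free Λ Tp] [Module.Finite Λ Tp] [Module.Finite Λ 𝕋c]
    (ι : 𝕋c →ₐ[Λ] Module.End Λ Tp) (hι : Function.Injective ι) (lam : 𝕋c →ₐ[Λ] T)
    (ρ : ff_GQ →* Module.End Λ Tp) (hcomm : ∀ c g, Commute (ι c) (ρ g))
    (ε : ff_GQ →* Λ) (ϖ : Λ)
    (hfin : ∀ M : ℕ, Finite (T ⧸ Ideal.span {algebraMap Λ T ϖ ^ M}))
    (I : Ideal T) (hI : I ≠ ⊤) (n : ℕ) (hϖ : algebraMap Λ T ϖ ^ n ∈ I)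
    (ρ₁ : ff_GQ →* Matrix (Fin 2) (Fin 2) (T ⧸ I))
    (hspan : Submodule.span (T ⧸ I) (Set.range ρ₁) = ⊤)
    (hdet : ∀ g, Ideal.Quotient.mk I (algebraMap Λ T (ε g)) = (ρ₁ g).det)
    (happrox : ∀ (g : ff_GQ) (m : ℕ), ∃ c : 𝕋c, Ideal.Quotient.mk I (lam c) = (ρ₁ g).trace ∧
      ∀ v, ∃ y, (ι c - (ρ g + ε g • ρ g⁻¹)) v = ϖ ^ m • y)
    (hQ : ∀ M : ℕ, ∃ (Q : Type) (_ : AddCommGroup Q) (_ : DistribMulAction ff_GQ Q)
      (_ : Finite Q) (πQ : Tp →+ Q),
      (∃ H : Subalgebra (ff_R ℓ) (Q → ff_Qb), ff_IsOrder ℓ Q H) ∧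
      (∀ (σ : ff_GQ) (x : Tp), πQ (ρ σ x) = σ • πQ x) ∧
      ∀ x : Tp, πQ x = 0 → ∃ y, x = ϖ ^ M • y)
    {M'' : Type} [AddCommGroup M''] [DistribMulAction ff_GQ M'']
    (fV : (Fin 2 → T ⧸ I) →+ M'') (hfV : Function.Surjective fV)
    (hfVe : ∀ (σ : ff_GQ) (c : Fin 2 → T ⧸ I), fV ((ρ₁ σ).mulVec c) = σ • fV c) :
    ∃ H'' : Subalgebra (ff_R ℓ) (M'' → ff_Qb), ff_IsOrder ℓ M'' H'' := by
  obtain ⟨E, iE, actE, M, r, q₀, hq₀s, hq₀e, hq₀k, s, W, iW, actW, j, f, hj, hje, hf, hfe⟩ :=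
    ffc_inst_main ι hι lam ρ hcomm ε ϖ hfin I hI n hϖ ρ₁ hspan hdet happrox
  obtain ⟨Q, iQ1, iQ2, iQ3, πQ, hQord, hπe, hπk⟩ := hQ M
  letI : DistribMulAction ff_GQ E := DistribMulAction.compHom E actE
  have hact : ∀ (σ : ff_GQ) (y : E), σ • y = actE σ y := fun _ _ => rfl
  -- step 1: an order on `E`
  obtain ⟨hEfin, hEord⟩ := ffc_io_subquot_ker (M'' := E) hQord r
    (fun σ (x : Fin r → Tp) i => ρ σ (x i)) (AddMonoidHom.compLeft πQ (Fin r))
    (fun σ x => by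
      funext i
      exact hπe σ (x i))
    q₀ hq₀s (fun σ x => by rw [hact]; exact hq₀e σ x)
    (fun x hx => hq₀k x fun i => hπk (x i) (congrFun hx i))
  -- step 2: an order on `M''`
  refine (ffc_io_subquot_ker (M'' := M'') hEord s (fun σ w => actW σ w) j
    (fun σ w => by
      funext i
      exact hje σ w i)
    (fV.comp f) (hfV.comp hf) (fun σ w => ?_) (fun w hw => ?_)).2
  · rw [AddMonoidHom.comp_apply, AddMonoidHom.comp_apply, hfe, hfVe]
  · have h0 : w = 0 := hj (by rw [hw, map_zero])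
    rw [h0, map_zero]

end InstOrder

end Fermat.Agent.FF
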