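/-
Project FF, cell [CAR] (S32 from S19): facts about `ℤ_p`-algebras and finite quotients (helper21).
Prefix `ffc_pa_`.

* `ffc_pa_hom_ext_of_pow`, `ffc_pa_ringHom_ext` : a ring homomorphism from `ℤ_[p]` to a ring in which
  `p` is nilpotent / to a separated local ring with `p ∈ 𝔪` is unique;
* `ffc_pa_eps_compat` : `ℤ_[p] → T` maps the `ℤ_[p]`-valued cyclotomic character to the `T`-valued;
* `ffc_pa_flat` : a `ℤ_[p]`-algebra on which `p` is a non-zero-divisor is flat;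
* `ffc_pa_finite_of_le`, `ffc_pa_finite_quot`, `ffc_pa_finite_residue` : finiteness of quotients of a
  finite algebra over a DVR with finite residue field;
* `ffc_pa_pow_mem_of_finite` : elements of the maximal ideal are nilpotent modulo an ideal of finite
  index.
-/
import Mathlib
import Fermat.Agent.JT3.Algebra.CycloAdic

set_option autoImplicit false

namespace Fermat.Agent.FF

open IsLocalRing Fermat.Agent.JT3

section Hom

variable {p : ℕ} [Fact p.Prime]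

theorem ffc_pa_hom_ext_of_pow {R : Type*} [CommRing R] (n : ℕ) (h : ((p : ℕ) : R) ^ n = 0)
    (φ₁ φ₂ : ℤ_[p] →+* R) : φ₁ = φ₂ := by
  have key : ∀ (φ : ℤ_[p] →+* R) (z : ℤ_[p]), φ z = ((z.appr n : ℕ) : R) := by
    intro φ z
    have h1 := PadicInt.appr_spec n z
    rw [Ideal.mem_span_singleton'] at h1
    obtain ⟨y, hy⟩ := h1
    have h2 : z = ((z.appr n : ℕ) : ℤ_[p]) + y * (p : ℤ_[p]) ^ n := by rw [hy]; ring
    have h3 := congrArg φ h2
    rw [map_add, map_mul, map_pow, map_natCast, map_natCast, h, mul_zero, add_zero] at h3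
    exact h3
  ext z
  rw [key φ₁ z, key φ₂ z]

theorem ffc_pa_ringHom_ext {T : Type*} [CommRing T] [IsLocalRing T]
    [IsHausdorff (maximalIdeal T) T] (hpT : (p : T) ∈ maximalIdeal T) (φ₁ φ₂ : ℤ_[p] →+* T) :
    φ₁ = φ₂ := by
  ext z
  rw [← sub_eq_zero]
  refine IsHausdorff.haus (I := maximalIdeal T) inferInstance _ fun n => ?_
  rw [SModEq.zero, smul_eq_mul, Ideal.mul_top]
  have h1 : ((p : ℕ) : T ⧸ maximalIdeal T ^ n) ^ n = 0 := by
    rw [← map_natCast (Ideal.Quotient.mk (maximalIdeal T ^ n)), ← map_pow,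
      Ideal.Quotient.eq_zero_iff_mem]
    exact Ideal.pow_mem_pow hpT n
  have h2 := ffc_pa_hom_ext_of_pow n h1 ((Ideal.Quotient.mk (maximalIdeal T ^ n)).comp φ₁)
    ((Ideal.Quotient.mk (maximalIdeal T ^ n)).comp φ₂)
  have h3 := RingHom.congr_fun h2 z
  rw [RingHom.comp_apply, RingHom.comp_apply, ← sub_eq_zero, ← map_sub,
    Ideal.Quotient.eq_zero_iff_mem] at h3
  exact h3

theorem ffc_pa_eps_compat {T : Type*} [CommRing T] [IsLocalRing T]
    [IsAdicComplete (maximalIdeal T) T] (hpT : (p : T) ∈ maximalIdeal T)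
    (h : (p : ℤ_[p]) ∈ maximalIdeal ℤ_[p])
    (g : AlgebraicClosure ℚ ≃ₐ[ℚ] AlgebraicClosure ℚ) :
    cya_padicHom p T hpT (cya_eps p ℤ_[p] h g) = cya_eps p T hpT g := by
  rw [cya_eps_apply, cya_eps_apply]
  exact RingHom.congr_fun (ffc_pa_ringHom_ext hpT
    ((cya_padicHom p T hpT).comp (cya_padicHom p ℤ_[p] h)) (cya_padicHom p T hpT)) _

theorem ffc_pa_flat {T : Type*} [CommRing T] [Algebra ℤ_[p] T]
    (hreg : ∀ t : T, (p : T) * t = 0 → t = 0) : Module.Flat ℤ_[p] T := by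
  rw [Module.Flat.flat_iff_torsion_eq_bot_of_isBezout, eq_bot_iff]
  intro t ht
  rw [Submodule.mem_torsion_iff] at ht
  obtain ⟨⟨z, hz⟩, hzt⟩ := ht
  have hz0 : z ≠ 0 := nonZeroDivisors.ne_zero hz
  rw [Submodule.mem_bot]
  have hpow : ∀ k : ℕ, ∀ t : T, (p : T) ^ k * t = 0 → t = 0 := by
    intro k
    induction k with
    | zero => intro t h; simpa using h
    | succ k ih =>
      intro t h
      apply ih
      apply hreg
      rw [← mul_assoc, ← pow_succ']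
      exact h
  have h1 := PadicInt.unitCoeff_spec hz0
  have h2 : z • t = algebraMap ℤ_[p] T (PadicInt.unitCoeff hz0 : ℤ_[p]) *
      ((p : T) ^ z.valuation * t) := by
    rw [Algebra.smul_def]
    conv_lhs => rw [h1]
    rw [map_mul, map_pow, map_natCast, mul_assoc]
  have hu : IsUnit (algebraMap ℤ_[p] T (PadicInt.unitCoeff hz0 : ℤ_[p])) :=
    (Units.isUnit _).map _
  have h3 : z • t = 0 := hzt
  rw [h2, hu.mul_right_eq_zero] at h3
  exact hpow _ t h3

end Hom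

section Finite

theorem ffc_pa_finite_of_le {𝒪 T : Type*} [CommRing 𝒪] [CommRing T] [Algebra 𝒪 T]
    [Module.Finite 𝒪 T] (I : Ideal 𝒪) [Finite (𝒪 ⧸ I)] (J : Ideal T)
    (h : ∀ r ∈ I, algebraMap 𝒪 T r ∈ J) : Finite (T ⧸ J) := by
  have h0 : Finite (T ⧸ (⊤ : Submodule 𝒪 T)) := inferInstance
  have h1 : Finite (T ⧸ I • (⊤ : Submodule 𝒪 T)) :=
    Submodule.finite_quotient_smul I Module.Finite.fg_top
  have hle : I • (⊤ : Submodule 𝒪 T) ≤ LinearMap.ker (Ideal.Quotient.mkₐ 𝒪 J).toLinearMap := by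
    rw [Submodule.smul_le]
    intro r hr t _
    rw [LinearMap.mem_ker]
    show Ideal.Quotient.mk J (r • t) = 0
    rw [Ideal.Quotient.eq_zero_iff_mem, Algebra.smul_def]
    exact Ideal.mul_mem_right _ _ (h r hr)
  refine Finite.of_surjective
    (Submodule.liftQ (I • (⊤ : Submodule 𝒪 T)) (Ideal.Quotient.mkₐ 𝒪 J).toLinearMap hle) ?_
  intro y
  obtain ⟨t, rfl⟩ := Ideal.Quotient.mk_surjective y
  exact ⟨Submodule.Quotient.mk t, rfl⟩

theorem ffc_pa_finite_dvr_quot {𝒪 : Type*} [CommRing 𝒪] [IsDomain 𝒪] [IsDiscreteValuationRing 𝒪]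
    [Finite (ResidueField 𝒪)] (a : 𝒪) (ha : a ≠ 0) : Finite (𝒪 ⧸ Ideal.span {a}) := by
  obtain ⟨ϖ, hϖ⟩ := IsDiscreteValuationRing.exists_irreducible 𝒪
  obtain ⟨k, u, rfl⟩ := IsDiscreteValuationRing.eq_unit_mul_pow_irreducible ha hϖ
  have h1 : Ideal.span {(u : 𝒪) * ϖ ^ k} = maximalIdeal 𝒪 ^ k := by
    rw [Ideal.span_singleton_mul_left_unit u.isUnit, ← Ideal.span_singleton_pow,
      hϖ.maximalIdeal_eq]
  rw [h1]
  have : Finite (𝒪 ⧸ maximalIdeal 𝒪) := ‹Finite (ResidueField 𝒪)›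
  exact Ideal.finite_quotient_pow (IsNoetherian.noetherian _) k

theorem ffc_pa_finite_quot {𝒪 T : Type*} [CommRing 𝒪] [IsDomain 𝒪] [IsDiscreteValuationRing 𝒪]
    [Finite (ResidueField 𝒪)] [CommRing T] [Algebra 𝒪 T] [Module.Finite 𝒪 T] (a : 𝒪)
    (ha : a ≠ 0) : Finite (T ⧸ Ideal.span {algebraMap 𝒪 T a}) := by
  have := ffc_pa_finite_dvr_quot a ha
  refine ffc_pa_finite_of_le (Ideal.span {a}) _ fun r hr => ?_
  rw [Ideal.mem_span_singleton'] at hr
  obtain ⟨c, rfl⟩ := hr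
  rw [map_mul]
  exact Ideal.mul_mem_left _ _ (Ideal.mem_span_singleton_self _)

theorem ffc_pa_finite_residue {𝒪 T : Type*} [CommRing 𝒪] [IsLocalRing 𝒪]
    [Finite (ResidueField 𝒪)] [CommRing T] [IsLocalRing T] [Algebra 𝒪 T] [Module.Finite 𝒪 T]
    [IsLocalHom (algebraMap 𝒪 T)] : Finite (ResidueField T) := by
  have : Finite (𝒪 ⧸ maximalIdeal 𝒪) := ‹Finite (ResidueField 𝒪)›
  exact ffc_pa_finite_of_le (maximalIdeal 𝒪) (maximalIdeal T) fun r hr =>
    map_nonunit (algebraMap 𝒪 T) r hr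

theorem ffc_pa_pow_mem_of_finite {T : Type*} [CommRing T] [IsLocalRing T] (I : Ideal T)
    [Finite (T ⧸ I)] (x : T) (hx : x ∈ maximalIdeal T) : ∃ n : ℕ, x ^ n ∈ I := by
  obtain ⟨a, b, hab, h⟩ := Finite.exists_ne_map_eq_of_infinite
    (fun k : ℕ => Ideal.Quotient.mk I (x ^ k))
  have key : ∀ a b : ℕ, a < b → Ideal.Quotient.mk I (x ^ a) = Ideal.Quotient.mk I (x ^ b) →
      x ^ a ∈ I := by
    intro a b hlt h
    have h1 : x ^ a - x ^ b ∈ I := by
      rw [← Ideal.Quotient.eq_zero_iff_mem, map_sub, h, sub_self]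
    have h2 : x ^ (b - a) ∈ maximalIdeal T :=
      Ideal.pow_mem_of_mem _ hx _ (Nat.sub_pos_of_lt hlt)
    have hu : IsUnit (1 - x ^ (b - a)) := isUnit_one_sub_self_of_mem_nonunits _ h2
    have h3 : x ^ a * (1 - x ^ (b - a)) = x ^ a - x ^ b := by
      rw [mul_sub, mul_one, ← pow_add, Nat.add_sub_cancel' hlt.le]
    rw [← h3] at h1
    obtain ⟨v, hv⟩ := hu
    have h4 : x ^ a = x ^ a * (1 - x ^ (b - a)) * (v⁻¹ : Tˣ) := by
      rw [← hv, mul_assoc, Units.mul_inv, mul_one]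
    rw [h4]
    exact Ideal.mul_mem_right _ _ h1
  rcases hab.lt_or_gt with hlt | hlt
  · exact ⟨a, key a b hlt h⟩
  · exact ⟨b, key b a hlt h.symm⟩

end Finite

end Fermat.Agent.FF
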