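/-
Project FF, cell [CAR] (S32 from S19): the reduction modulo `I` of a rank-two representation, in
matrix form (helper21).  Prefix `ffc_rm_`.

For `ρ : GaloisRepAdic T` and an ideal `I` of `T`:
* `ffc_rm_rho1 ρ I : G_ℚ →* M₂(T/I)` (matrices in a basis of `ρ.V`, reduced modulo `I`), with
  `ffc_rm_trace`, `ffc_rm_det`, `ffc_rm_span` (the `ρ₁ g` span `M₂(T/I)` when the `ρ g` span `End V`);
* `ffc_rm_action ρ I` : the `G_ℚ`-module structure of `ρ.V ⧸ I • ⊤` (`σ • y = ρ.levelAction I σ y`);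
* `ffc_rm_fV ρ I : (T/I)² →+ ρ.V ⧸ I • ⊤`, surjective and equivariant.
-/
import Mathlib
import Fermat.Agent.FF.Seams

set_option autoImplicit false

noncomputable section

namespace Fermat.Agent.FF

open Module

section RepMod

variable {T : Type} [CommRing T] [IsLocalRing T] (ρ : GaloisRepAdic T) (I : Ideal T)

/-- a basis of the rank-two module -/
def ffc_rm_basis : Basis (Fin 2) T ρ.V := Module.finBasisOfFinrankEq T ρ.V ρ.finrank_eq

/-- the matrices of `ρ`, modulo `I` -/
def ffc_rm_rho1 : ff_GQ →* Matrix (Fin 2) (Fin 2) (T ⧸ I) where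
  toFun g := (LinearMap.toMatrix (ffc_rm_basis ρ) (ffc_rm_basis ρ) (ρ.ρ g)).map
    (Ideal.Quotient.mk I)
  map_one' := by
    rw [map_one, LinearMap.toMatrix_one, Matrix.map_one _ (map_zero _) (map_one _)]
  map_mul' g h := by
    rw [map_mul, LinearMap.toMatrix_mul, Matrix.map_mul]

theorem ffc_rm_rho1_apply (g : ff_GQ) :
    ffc_rm_rho1 ρ I g = (LinearMap.toMatrix (ffc_rm_basis ρ) (ffc_rm_basis ρ) (ρ.ρ g)).map
      (Ideal.Quotient.mk I) := rfl

theorem ffc_rm_trace (g : ff_GQ) :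
    (ffc_rm_rho1 ρ I g).trace = Ideal.Quotient.mk I (LinearMap.trace T ρ.V (ρ.ρ g)) := by
  rw [ffc_rm_rho1_apply, LinearMap.trace_eq_matrix_trace T (ffc_rm_basis ρ),
    AddMonoidHom.map_trace (Ideal.Quotient.mk I)]

theorem ffc_rm_det (g : ff_GQ) :
    (ffc_rm_rho1 ρ I g).det = Ideal.Quotient.mk I (LinearMap.det (ρ.ρ g)) := by
  rw [ffc_rm_rho1_apply, ← LinearMap.det_toMatrix (ffc_rm_basis ρ), RingHom.map_det]
  rfl

theorem ffc_rm_span (h : Submodule.span T (Set.range ρ.ρ) = ⊤) :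
    Submodule.span (T ⧸ I) (Set.range (ffc_rm_rho1 ρ I)) = ⊤ := by
  have h1 : ∀ f ∈ Submodule.span T (Set.range ρ.ρ),
      (LinearMap.toMatrix (ffc_rm_basis ρ) (ffc_rm_basis ρ) f).map (Ideal.Quotient.mk I) ∈
        Submodule.span (T ⧸ I) (Set.range (ffc_rm_rho1 ρ I)) := by
    intro f hf
    induction hf using Submodule.span_induction with
    | mem x hx =>
      obtain ⟨g, rfl⟩ := hx
      exact Submodule.subset_span ⟨g, rfl⟩
    | zero =>
      rw [map_zero, Matrix.map_zero _ (map_zero _)]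
      exact Submodule.zero_mem _
    | add x y _ _ hx hy =>
      rw [map_add, Matrix.map_add _ (map_add _)]
      exact Submodule.add_mem _ hx hy
    | smul c x _ hx =>
      have h2 : (LinearMap.toMatrix (ffc_rm_basis ρ) (ffc_rm_basis ρ) (c • x)).map
          (Ideal.Quotient.mk I) = Ideal.Quotient.mk I c •
            (LinearMap.toMatrix (ffc_rm_basis ρ) (ffc_rm_basis ρ) x).map
              (Ideal.Quotient.mk I) := by
        rw [map_smul]
        ext i j
        simp
      rw [h2]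
      exact Submodule.smul_mem _ _ hx
  rw [eq_top_iff]
  intro M' _
  let M : Matrix (Fin 2) (Fin 2) T := fun i j =>
    Function.surjInv Ideal.Quotient.mk_surjective (M' i j)
  have hM : M.map (Ideal.Quotient.mk I) = M' := by
    ext i j
    exact Function.surjInv_eq Ideal.Quotient.mk_surjective (M' i j)
  have h3 := h1 (Matrix.toLin (ffc_rm_basis ρ) (ffc_rm_basis ρ) M) (by rw [h]; trivial)
  rw [LinearMap.toMatrix_toLin, hM] at h3
  exact h3

/-- the Galois action on `V / I V` -/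
@[reducible] def ffc_rm_action :
    DistribMulAction ff_GQ (ρ.V ⧸ I • (⊤ : Submodule T ρ.V)) where
  smul σ y := ρ.levelAction I σ y
  one_smul y := by
    induction y using Submodule.Quotient.induction_on with
    | H x =>
      show ρ.levelAction I 1 (Submodule.Quotient.mk x) = Submodule.Quotient.mk x
      rw [GaloisRepAdic.levelAction, Submodule.mapQ_apply, map_one]
      rfl
  mul_smul σ τ y := by
    induction y using Submodule.Quotient.induction_on with
    | H x =>
      show ρ.levelAction I (σ * τ) (Submodule.Quotient.mk x) =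
        ρ.levelAction I σ (ρ.levelAction I τ (Submodule.Quotient.mk x))
      rw [GaloisRepAdic.levelAction, GaloisRepAdic.levelAction, GaloisRepAdic.levelAction,
        Submodule.mapQ_apply, Submodule.mapQ_apply, Submodule.mapQ_apply, map_mul]
      rfl
  smul_zero σ := map_zero _
  smul_add σ x y := map_add _ x y

theorem ffc_rm_smul_def (σ : ff_GQ) (y : ρ.V ⧸ I • (⊤ : Submodule T ρ.V)) :
    letI := ffc_rm_action ρ I
    σ • y = ρ.levelAction I σ y := rfl

/-- coordinates: `(T/I)² → V / I V` -/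
def ffc_rm_fV : (Fin 2 → T ⧸ I) →+ (ρ.V ⧸ I • (⊤ : Submodule T ρ.V)) :=
  (Fintype.linearCombination (T ⧸ I)
    (fun i => (Submodule.Quotient.mk (ffc_rm_basis ρ i) :
      ρ.V ⧸ I • (⊤ : Submodule T ρ.V)))).toAddMonoidHom

theorem ffc_rm_fV_repr (v : ρ.V) :
    ffc_rm_fV ρ I (fun i => Ideal.Quotient.mk I ((ffc_rm_basis ρ).repr v i)) =
      Submodule.Quotient.mk v := by
  show Fintype.linearCombination (T ⧸ I)
    (fun i => (Submodule.Quotient.mk (ffc_rm_basis ρ i) :
      ρ.V ⧸ I • (⊤ : Submodule T ρ.V))) _ = _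
  rw [Fintype.linearCombination_apply]
  conv_rhs => rw [← (ffc_rm_basis ρ).sum_repr v]
  rw [← Submodule.mkQ_apply, map_sum]
  refine Finset.sum_congr rfl fun i _ => ?_
  rfl

theorem ffc_rm_exists_repr (c : Fin 2 → T ⧸ I) :
    ∃ v : ρ.V, c = fun i => Ideal.Quotient.mk I ((ffc_rm_basis ρ).repr v i) := by
  refine ⟨(ffc_rm_basis ρ).equivFun.symm
    (fun i => Function.surjInv Ideal.Quotient.mk_surjective (c i)), ?_⟩
  funext i
  rw [← Basis.equivFun_apply, LinearEquiv.apply_symm_apply,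
    Function.surjInv_eq Ideal.Quotient.mk_surjective]

theorem ffc_rm_fV_surjective : Function.Surjective (ffc_rm_fV ρ I) := by
  intro y
  obtain ⟨v, rfl⟩ := Submodule.Quotient.mk_surjective _ y
  exact ⟨_, ffc_rm_fV_repr ρ I v⟩

theorem ffc_rm_fV_equivariant (σ : ff_GQ) (c : Fin 2 → T ⧸ I) :
    ffc_rm_fV ρ I ((ffc_rm_rho1 ρ I σ).mulVec c) = ρ.levelAction I σ (ffc_rm_fV ρ I c) := by
  obtain ⟨v, rfl⟩ := ffc_rm_exists_repr ρ I c
  have h1 : (ffc_rm_rho1 ρ I σ).mulVec
      (fun i => Ideal.Quotient.mk I ((ffc_rm_basis ρ).repr v i)) =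
      fun i => Ideal.Quotient.mk I ((ffc_rm_basis ρ).repr (ρ.ρ σ v) i) := by
    funext i
    rw [← LinearMap.toMatrix_mulVec_repr (ffc_rm_basis ρ) (ffc_rm_basis ρ) (ρ.ρ σ) v,
      RingHom.map_mulVec]
    rfl
  rw [h1, ffc_rm_fV_repr, ffc_rm_fV_repr, GaloisRepAdic.levelAction, Submodule.mapQ_apply]

end RepMod

end Fermat.Agent.FF
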