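/-
Project FF, cell [CAR]: **S32 FROM THE SEAMS OF S19** (helper21).  Prefix `ffc_s32_`.

`H.ρ.IsFlatAt p` for a Hecke-Galois datum `H` of level `N` (the hypothesis `p ∤ N` of S32 is only
used to feed [LOC]): for every ideal `I` of finite index of `T`, `V / I V` is a subquotient of a
finite power of `J₀(N)[p ^ M]` (Carayol's lemma in the module form `ffc_inst_order`; the Hecke-valued
Cayley–Hamilton congruence is `ur_approx`, the determinant is `sst_det_eq_eps`), orders pass to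
subquotients (`FF/Car/OrdClosure.lean`), and an order is a finite flat Hopf algebra ([HO]).

* `ffc_s32_order`      : `V / I V` has an order, from a Tate package whose finite levels have orders;
* `ffc_S32_of_tate`    : `IsFlatAt` from such a Tate package and [HO];
* **`ffc_S32_of_seams`** : the statement of S32 from `ff_SeamHO` and
  `hORD : ∀ k, ∃ H, ff_IsOrder p J₀(N)[p ^ k] H`;
* **`ffc_S32_of_S19_seams`** : the statement of S32 from `ff_SeamHO`, `ff_SeamDESC` and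
  `ff_SeamLocal N ℓ k` (for the primes `ℓ ∤ N`) — the same three seams as `ff_S19_of_seams`.
-/
import Mathlib
import Fermat.Agent.FF.Car.InstOrd
import Fermat.Agent.FF.Car.Padic
import Fermat.Agent.FF.Car.RepMod
import Fermat.Agent.JT3.Unram.Final
import Fermat.Agent.SS.Transfer
import Fermat.Agent.JT3.Tate.Inputs
import Fermat.Agent.FF.Assembly

set_option autoImplicit false
set_option linter.style.haveILetI false
set_option linter.unusedSectionVars false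

noncomputable section

namespace Fermat.Agent.FF

open IsLocalRing Fermat.Agent.JT3 Fermat.Agent.SS

variable {p : ℕ} {N : ℕ} [NeZero N] {S : Finset ℕ}
  {𝒪 : Type} [CommRing 𝒪] [IsDomain 𝒪] [IsDiscreteValuationRing 𝒪]
  [IsAdicComplete (IsLocalRing.maximalIdeal 𝒪) 𝒪]
  {θ : CuspForm.heckeAlgebra N 2 (↑S : Set ℕ) →+* IsLocalRing.ResidueField 𝒪}
  {T : Type} [CommRing T] [IsLocalRing T] [IsNoetherianRing T]
  [IsAdicComplete (IsLocalRing.maximalIdeal T) T] [Algebra 𝒪 T] [IsLocalHom (algebraMap 𝒪 T)]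
  [Module.Finite 𝒪 T] [Module.Free 𝒪 T]

/-- the Hecke algebra of the Tate module is commutative -/
@[reducible] def ffc_s32_commRing [Fact p.Prime] (D : pk_Tate p N S) :
    CommRing ↥(Algebra.adjoin ℤ_[p] (pk_heckeSet N S D.Tl)) :=
  { (inferInstance : Ring ↥(Algebra.adjoin ℤ_[p] (pk_heckeSet N S D.Tl))) with
    mul_comm := fun a b =>
      (Algebra.isMulCommutative_adjoin ℤ_[p] (s := pk_heckeSet N S D.Tl) (by
        rintro _ ⟨ℓ, -, rfl⟩ _ ⟨ℓ', -, rfl⟩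
        exact (D.Tl_comm ℓ ℓ').eq)).is_comm.comm a b }

theorem ffc_s32_finite [Fact p.Prime] (D : pk_Tate p N S) :
    Module.Finite ℤ_[p] ↥(Algebra.adjoin ℤ_[p] (pk_heckeSet N S D.Tl)) := by
  haveI : IsNoetherian ℤ_[p] (Module.End ℤ_[p] D.Tp) :=
    isNoetherian_of_isNoetherianRing_of_finite _ _
  exact Module.IsNoetherian.finite ℤ_[p]
    ↥(Subalgebra.toSubmodule (Algebra.adjoin ℤ_[p] (pk_heckeSet N S D.Tl)))

theorem ffc_s32_comm [Fact p.Prime] (D : pk_Tate p N S)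
    (c : ↥(Algebra.adjoin ℤ_[p] (pk_heckeSet N S D.Tl)))
    (g : AlgebraicClosure ℚ ≃ₐ[ℚ] AlgebraicClosure ℚ) :
    Commute ((Algebra.adjoin ℤ_[p] (pk_heckeSet N S D.Tl)).val c) (D.ρ g) := by
  refine (Algebra.commute_of_mem_adjoin_of_forall_mem_commute c.2 ?_).symm
  rintro _ ⟨ℓ, -, rfl⟩
  exact (D.Tl_ρ ℓ g).symm

/-- **the order on `V / I V`** -/
theorem ffc_s32_order [Fact p.Prime] [Finite (ResidueField 𝒪)] [CharZero 𝒪]
    (D : pk_Tate p N S) (hD : ur_EigenGen D)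
    (hQ : ∀ M : ℕ, ∃ (Q : Type) (_ : AddCommGroup Q) (_ : DistribMulAction ff_GQ Q)
      (_ : Finite Q) (πQ : D.Tp →+ Q),
      (∃ H : Subalgebra (ff_R p) (Q → ff_Qb), ff_IsOrder p Q H) ∧
      (∀ (σ : ff_GQ) (x : D.Tp), πQ (D.ρ σ x) = σ • πQ x) ∧
      ∀ x : D.Tp, πQ x = 0 → ∃ y, x = (p : ℤ_[p]) ^ M • y)
    (hp𝒪 : (p : 𝒪) ∈ maximalIdeal 𝒪) (hpS : p ∈ S)
    (hNS : ∀ q : ℕ, q.Prime → q ∣ N → q ∈ S)
    (H : CuspForm.HeckeGaloisRepDatum N (↑S : Set ℕ) 𝒪 θ T)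
    (I : Ideal T) [Finite (T ⧸ I)] :
    letI := ffc_rm_action H.ρ I
    ∃ H'' : Subalgebra (ff_R p) ((H.ρ.V ⧸ I • (⊤ : Submodule T H.ρ.V)) → ff_Qb),
      ff_IsOrder p (H.ρ.V ⧸ I • (⊤ : Submodule T H.ρ.V)) H'' := by
  letI := ffc_rm_action H.ρ I
  by_cases hI : I = ⊤
  · -- the trivial module
    have hsub : Subsingleton (H.ρ.V ⧸ I • (⊤ : Submodule T H.ρ.V)) := by
      refine ⟨fun a b => ?_⟩
      obtain ⟨x, rfl⟩ := Submodule.Quotient.mk_surjective _ a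
      obtain ⟨y, rfl⟩ := Submodule.Quotient.mk_surjective _ b
      rw [Submodule.Quotient.eq]
      have h1 : (1 : T) • (x - y) ∈ I • (⊤ : Submodule T H.ρ.V) :=
        Submodule.smul_mem_smul (by rw [hI]; trivial) Submodule.mem_top
      rwa [one_smul] at h1
    obtain ⟨Q, iQ1, iQ2, iQ3, πQ, hQord, -, -⟩ := hQ 0
    exact (ffc_io_subquot_ker (M'' := H.ρ.V ⧸ I • (⊤ : Submodule T H.ρ.V)) hQord 0
      (fun σ w => σ • w) 0 (fun σ w => by funext i; exact i.elim0) (AddMonoidHom.id _)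
      Function.surjective_id (fun _ _ => rfl) (fun w _ => Subsingleton.elim _ _)).2
  · have hpT : (p : T) ∈ maximalIdeal T := by
      have h1 := map_nonunit (algebraMap 𝒪 T) (p : 𝒪) hp𝒪
      rwa [map_natCast] at h1
    letI : Algebra ℤ_[p] T := (cya_padicHom p T hpT).toAlgebra
    have halg : ∀ z : ℤ_[p], algebraMap ℤ_[p] T z = cya_padicHom p T hpT z := fun _ => rfl
    have hpalg : algebraMap ℤ_[p] T (p : ℤ_[p]) = (p : T) := map_natCast _ _
    have hp0 : (p : 𝒪) ≠ 0 := Nat.cast_ne_zero.mpr (Fact.out : p.Prime).ne_zero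
    -- flatness
    have hreg : ∀ t : T, (p : T) * t = 0 → t = 0 := by
      intro t ht
      have h1 : (p : 𝒪) • t = 0 := by rw [Algebra.smul_def, map_natCast]; exact ht
      exact (smul_eq_zero.mp h1).resolve_left hp0
    haveI : Module.Flat ℤ_[p] T := ffc_pa_flat hreg
    -- the Hecke algebra
    letI := ffc_s32_commRing D
    haveI := ffc_s32_finite D
    obtain ⟨lam₀, hlam₀⟩ := hD T H.π
    let lam : ↥(Algebra.adjoin ℤ_[p] (pk_heckeSet N S D.Tl)) →ₐ[ℤ_[p]] T :=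
      { lam₀ with
        commutes' := fun z => RingHom.congr_fun (ffc_pa_ringHom_ext hpT
          (lam₀.comp (algebraMap ℤ_[p] ↥(Algebra.adjoin ℤ_[p] (pk_heckeSet N S D.Tl))))
          (algebraMap ℤ_[p] T)) z }
    have hlam : ∀ c, lam c = lam₀ c := fun _ => rfl
    -- `𝔪 ^ n ≤ I`
    obtain ⟨n, hn⟩ : ∃ k : ℕ, maximalIdeal T ^ k ≤ I :=
      Ideal.exists_pow_le_of_le_radical_of_fg
        (fun x hx => ffc_pa_pow_mem_of_finite I x hx) (IsNoetherian.noetherian _)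
    refine ffc_inst_order (ℓ := p) (Algebra.adjoin ℤ_[p] (pk_heckeSet N S D.Tl)).val
      Subtype.val_injective lam D.ρ (ffc_s32_comm D) (cya_eps p ℤ_[p] ur_p_mem) (p : ℤ_[p])
      ?_ I hI n ?_ (ffc_rm_rho1 H.ρ I)
      (ffc_rm_span _ _ (ur_tr_span_eq_top H.ρ H.residual_absIrr)) ?_ ?_ hQ
      (ffc_rm_fV H.ρ I) (ffc_rm_fV_surjective _ _)
      (fun σ c => ffc_rm_fV_equivariant H.ρ I σ c)
    · intro M
      rw [hpalg]
      have h1 := ffc_pa_finite_quot (T := T) ((p : 𝒪) ^ M) (pow_ne_zero _ hp0)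
      rwa [map_pow, map_natCast] at h1
    · rw [hpalg]
      exact hn (Ideal.pow_mem_pow hpT n)
    · intro g
      rw [ffc_rm_det, sst_det_eq_eps H hpT hpS hNS g, halg, ffc_pa_eps_compat]
    · intro g m
      obtain ⟨c, hc1, hc2⟩ := ur_approx D H hpS hNS lam₀ hlam₀ g n m
      refine ⟨c, ?_, fun v => ?_⟩
      · rw [ffc_rm_trace, hlam, eq_comm, ← sub_eq_zero, ← map_sub,
          Ideal.Quotient.eq_zero_iff_mem]
        exact hn hc1
      · have h1 := hc2 v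
        rw [PadicInt.maximalIdeal_eq_span_p, Ideal.span_singleton_pow,
          Submodule.ideal_span_singleton_smul, Submodule.mem_smul_pointwise_iff_exists] at h1
        obtain ⟨y, -, hy⟩ := h1
        exact ⟨y, hy.symm⟩

/-- **S32 from a Tate package whose finite levels carry orders** (and [HO]). -/
theorem ffc_S32_of_tate [Fact p.Prime] [Finite (ResidueField 𝒪)] [CharZero 𝒪]
    (D : pk_Tate p N S) (hD : ur_EigenGen D)
    (hQ : ∀ M : ℕ, ∃ (Q : Type) (_ : AddCommGroup Q) (_ : DistribMulAction ff_GQ Q)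
      (_ : Finite Q) (πQ : D.Tp →+ Q),
      (∃ H : Subalgebra (ff_R p) (Q → ff_Qb), ff_IsOrder p Q H) ∧
      (∀ (σ : ff_GQ) (x : D.Tp), πQ (D.ρ σ x) = σ • πQ x) ∧
      ∀ x : D.Tp, πQ x = 0 → ∃ y, x = (p : ℤ_[p]) ^ M • y)
    (hHO : ff_SeamHO)
    (hp𝒪 : (p : 𝒪) ∈ maximalIdeal 𝒪) (hpS : p ∈ S)
    (hNS : ∀ q : ℕ, q.Prime → q ∣ N → q ∈ S)
    (H : CuspForm.HeckeGaloisRepDatum N (↑S : Set ℕ) 𝒪 θ T) :
    H.ρ.IsFlatAt p := by
  refine ⟨ffc_pa_finite_residue (𝒪 := 𝒪), fun I hI => ?_⟩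
  letI := ffc_rm_action H.ρ I
  haveI : Finite (T ⧸ I) := hI
  obtain ⟨H'', hH''⟩ := ffc_s32_order D hD hQ hp𝒪 hpS hNS H I
  haveI : Finite (H.ρ.V ⧸ I • (⊤ : Submodule T H.ρ.V)) :=
    Finite.of_surjective _ (ffc_rm_fV_surjective H.ρ I)
  obtain ⟨H', i1, i2, h1, h2, h3, e, he1, he2⟩ := hHO p _ H'' hH''
  exact ⟨H', i1, i2, h1, h2, h3, e, he1, fun σ f g hfg => he2 σ f g hfg⟩

/-- the projection of the Tate module of `J₀(N)` to the `p ^ M`-torsion -/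
def ffc_s32_proj (N p : ℕ) [NeZero N] [Fact p.Prime] (M : ℕ) :
    tj_T N p →+ ↥(Submodule.torsionBy ℤ (ModularCurve.JZero N) ((p : ℤ) ^ M)) where
  toFun x := ⟨x.1 M, by
    rw [Submodule.mem_torsionBy_iff]
    have h1 : ((p : ℤ) ^ M) • (x.1 M) = (p ^ M : ℕ) • (x.1 M) := by
      rw [← natCast_zsmul]; push_cast; rfl
    rw [h1]
    exact tm_tor x M⟩
  map_zero' := rfl
  map_add' _ _ := rfl

/-- **S32 from the seams of S19**: [HO] and an order on every `J₀(N)[p ^ k]`. -/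
theorem ffc_S32_of_seams [Finite (ResidueField 𝒪)] [CharZero 𝒪] (hHO : ff_SeamHO)
    (hORD : ∀ k : ℕ, ∃ H : Subalgebra (ff_R p)
      (↥(Submodule.torsionBy ℤ (ModularCurve.JZero N) ((p : ℤ) ^ k)) → ff_Qb),
      ff_IsOrder p ↥(Submodule.torsionBy ℤ (ModularCurve.JZero N) ((p : ℤ) ^ k)) H)
    (hp : p.Prime) (hp𝒪 : (p : 𝒪) ∈ maximalIdeal 𝒪) (hpS : p ∈ S)
    (hNS : ∀ q : ℕ, q.Prime → q ∣ N → q ∈ S)
    (H : CuspForm.HeckeGaloisRepDatum N (↑S : Set ℕ) 𝒪 θ T) :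
    H.ρ.IsFlatAt p := by
  haveI : Fact p.Prime := ⟨hp⟩
  refine ffc_S32_of_tate (tjp_tate N p S hpS (tji_nodeE N) (tji_S18 N))
    (tjp_eigenGen N p S hpS (tji_nodeE N) (tji_S18 N)) ?_ hHO hp𝒪 hpS hNS H
  intro M
  haveI := ff_finite_tors N p M
  refine ⟨↥(Submodule.torsionBy ℤ (ModularCurve.JZero N) ((p : ℤ) ^ M)), inferInstance,
    inferInstance, inferInstance, ffc_s32_proj N p M, hORD M, ?_, ?_⟩
  · intro σ x
    rfl
  · intro x hx
    exact tm_exists_eq_smul x M (congrArg Subtype.val hx)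

/-- the order on `J₀(N)[ℓ ^ k]` from [DESC] and [LOC] (the middle of `ff_hopfModel_of_seams`) -/
theorem ffc_s32_order_of_seams (N : ℕ) [NeZero N] (ℓ : ℕ) [Fact ℓ.Prime] (k : ℕ)
    (hDESC : ff_SeamDESC) (hLOC : ff_SeamLocal N ℓ k) :
    ∃ H : Subalgebra (ff_R ℓ)
      (↥(Submodule.torsionBy ℤ (ModularCurve.JZero N) ((ℓ : ℤ) ^ k)) → ff_Qb),
      ff_IsOrder ℓ ↥(Submodule.torsionBy ℤ (ModularCurve.JZero N) ((ℓ : ℤ) ^ k)) H := by
  obtain ⟨A, hA⟩ := ff_exists_place ℓ (Fact.out : ℓ.Prime)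
  have := ff_finite_tors N ℓ k
  obtain ⟨H₁, hH₁⟩ := hLOC A hA
  have hopen : ∀ x : ↥(Submodule.torsionBy ℤ (ModularCurve.JZero N) ((ℓ : ℤ) ^ k)),
      ∃ K : IntermediateField ℚ ff_Qb, FiniteDimensional ℚ K ∧
        ∀ σ ∈ K.fixingSubgroup, σ • x = x := by
    intro x
    obtain ⟨L, hL, hfix⟩ := Fermat.Agent.JT3.egs_exists_fixing N (x : ModularCurve.JZero N)
    refine ⟨L, hL, fun σ hσ => Subtype.ext ?_⟩
    rw [ff_coe_smul_tors]
    exact hfix σ (fun y hy => hσ ⟨y, hy⟩)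
  exact hDESC ℓ A hA _ hopen H₁ hH₁

/-- **S32 from the three seams of S19.** -/
theorem ffc_S32_of_S19_seams [Finite (ResidueField 𝒪)] [CharZero 𝒪] (hHO : ff_SeamHO)
    (hDESC : ff_SeamDESC) (hLOC : ∀ (ℓ : ℕ) [Fact ℓ.Prime], ¬ ℓ ∣ N → ∀ k : ℕ, ff_SeamLocal N ℓ k)
    (hp : p.Prime) (hpN : ¬ p ∣ N) (hp𝒪 : (p : 𝒪) ∈ maximalIdeal 𝒪) (hpS : p ∈ S)
    (hNS : ∀ q : ℕ, q.Prime → q ∣ N → q ∈ S)
    (H : CuspForm.HeckeGaloisRepDatum N (↑S : Set ℕ) 𝒪 θ T) :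
    H.ρ.IsFlatAt p := by
  haveI : Fact p.Prime := ⟨hp⟩
  exact ffc_S32_of_seams hHO (fun k => ffc_s32_order_of_seams N p k hDESC (hLOC p hpN k))
    hp hp𝒪 hpS hNS H

end Fermat.Agent.FF
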